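/-
S55 glue: the Prelude's level-`S` cochains versus finite Galois levels.

* `IsUnramifiedOutside` is stable under conjugation and under normal closure, so level-`S`
  constancy can always be witnessed by a finite GALOIS extension unramified outside `S`
  (containing any prescribed such extension).
* A level-`S` cochain is then invariant under the (normal) fixing subgroup in every variable,
  on both sides, and factors through the finite group `Gal(F/ℚ)`.
* The hypotheses `hsm`, `hMur` of S55 give one finite Galois `F₀`, unramified outside `S`,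
  whose fixing subgroup acts trivially on `M`.
-/
import Mathlib
import Fermat.Prelude.Def_GroupCohomology_ContinuousUnramified
import Fermat.Agent.Lib.InertiaBridge

set_option autoImplicit false

namespace Fermat.Agent.S55.Glue

open groupCohomology IntermediateField
open scoped Pointwise

local notation "Qb" => AlgebraicClosure ℚ
local notation "Gq" => (AlgebraicClosure ℚ ≃ₐ[ℚ] AlgebraicClosure ℚ)

local instance isAlgebraicQbar_lg : Algebra.IsAlgebraic ℚ (AlgebraicClosure ℚ) :=
  AlgebraicClosure.isAlgebraic ℚ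
local instance isAlgClosureQbar_lg : IsAlgClosure ℚ (AlgebraicClosure ℚ) :=
  ⟨inferInstance, inferInstance⟩
local instance normalQbar_lg : Normal ℚ (AlgebraicClosure ℚ) :=
  IsAlgClosure.normal ℚ (AlgebraicClosure ℚ)

section Conj

/-- Non-units of a translated valuation subring. -/
theorem mem_nonunits_smul_iff (A : ValuationSubring Qb) (σ : Gq) (x : Qb) :
    x ∈ (σ • A).nonunits ↔ σ⁻¹ x ∈ A.nonunits := by
  have key : ∀ (B : ValuationSubring Qb) (y : Qb), y ∈ B.nonunits ↔ (y = 0 ∨ y⁻¹ ∉ B) := by
    intro B y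
    rw [ValuationSubring.mem_nonunits_iff]
    by_cases hy : y = 0
    · simp [hy]
    · simp only [hy, false_or]
      rw [← B.valuation_le_one_iff, map_inv₀, not_le]
      have hv : B.valuation y ≠ 0 := (Valuation.ne_zero_iff _).2 hy
      constructor
      · intro h
        exact (one_lt_inv₀ (zero_lt_iff.2 hv)).2 h
      · intro h
        exact (one_lt_inv₀ (zero_lt_iff.2 hv)).1 h
  rw [key, key, ValuationSubring.mem_pointwise_smul_iff_inv_smul_mem]
  have h1 : σ⁻¹ • x⁻¹ = (σ⁻¹ x)⁻¹ := by
    rw [AlgEquiv.smul_def, map_inv₀]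
  rw [h1]
  have h2 : σ⁻¹ x = 0 ↔ x = 0 := by
    rw [map_eq_zero_iff _ (σ⁻¹ : Gq).injective]
  rw [h2]

/-- Lying over a prime number is stable under translation. -/
theorem liesOverPrime_smul {A : ValuationSubring Qb} {q : ℕ} (h : A.LiesOverPrime q) (σ : Gq) :
    (σ • A).LiesOverPrime q := by
  unfold ValuationSubring.LiesOverPrime at h ⊢
  rw [mem_nonunits_smul_iff]
  rwa [map_natCast]

/-- Inertia subgroups are conjugated by translation. -/
theorem conj_mem_inertiaSubgroupIn {A : ValuationSubring Qb} {τ : Gq}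
    (h : τ ∈ A.inertiaSubgroupIn ℚ) (σ : Gq) :
    σ * τ * σ⁻¹ ∈ (σ • A).inertiaSubgroupIn ℚ := by
  rw [Fermat.Agent.Lib.InertiaBridge.mem_inertiaSubgroupIn_iff] at h ⊢
  intro y hy
  rw [ValuationSubring.mem_pointwise_smul_iff_inv_smul_mem] at hy
  rw [mem_nonunits_smul_iff]
  have := h (σ⁻¹ • y) hy
  rw [AlgEquiv.smul_def] at this
  rw [map_sub]
  simpa [AlgEquiv.mul_apply] using this

end Conj

section Normal

variable {S : Finset Nat.Primes}

/-- Being unramified outside `S` is stable under conjugation. -/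
theorem isUnramifiedOutside_map {F : IntermediateField ℚ Qb} (hF : F.IsUnramifiedOutside S)
    (σ : Gq) : (F.map (σ : Qb →ₐ[ℚ] Qb)).IsUnramifiedOutside S := by
  have := hF.1
  refine ⟨inferInstance, fun q hq A hA g hg => ?_⟩
  rw [IntermediateField.mem_fixingSubgroup_iff]
  rintro y hy
  obtain ⟨x, hx, rfl⟩ := (IntermediateField.mem_map _).1 hy
  have h1 : σ⁻¹ * g * σ⁻¹⁻¹ ∈ (σ⁻¹ • A).inertiaSubgroupIn ℚ := conj_mem_inertiaSubgroupIn hg σ⁻¹
  have h2 := hF.2 q hq (σ⁻¹ • A) (liesOverPrime_smul hA σ⁻¹) h1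
  rw [IntermediateField.mem_fixingSubgroup_iff] at h2
  have h3 := h2 x hx
  rw [inv_inv] at h3
  have h4 : σ⁻¹ (g (σ x)) = x := h3
  have h5 := congrArg σ h4
  have h6 : σ (σ⁻¹ (g (σ x))) = g (σ x) := AlgEquiv.apply_symm_apply σ _
  rw [h6] at h5
  exact h5

/-- A supremum of a family of extensions all of whose members are fixed by the inertia
subgroups outside `S` is fixed by them. -/
theorem inertia_le_fixingSubgroup_iSup {ι : Sort*} {F : ι → IntermediateField ℚ Qb}
    (hF : ∀ i, ∀ q : Nat.Primes, q ∉ S → ∀ A : ValuationSubring Qb,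
      A.LiesOverPrime (q : ℕ) → A.inertiaSubgroupIn ℚ ≤ (F i).fixingSubgroup)
    (q : Nat.Primes) (hq : q ∉ S) (A : ValuationSubring Qb) (hA : A.LiesOverPrime (q : ℕ)) :
    A.inertiaSubgroupIn ℚ ≤ (⨆ i, F i).fixingSubgroup := by
  rw [← IntermediateField.le_iff_le]
  refine iSup_le fun i => ?_
  rw [IntermediateField.le_iff_le]
  exact hF i q hq A hA

/-- The normal closure of an extension unramified outside `S` is unramified outside `S`. -/
theorem isUnramifiedOutside_normalClosure {F : IntermediateField ℚ Qb}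
    (hF : F.IsUnramifiedOutside S) :
    (IntermediateField.normalClosure ℚ F Qb).IsUnramifiedOutside S := by
  have := hF.1
  refine ⟨inferInstance, ?_⟩
  intro q hq A hA
  have h : IntermediateField.normalClosure ℚ F Qb = ⨆ f : Gq, F.map (f : Qb →ₐ[ℚ] Qb) :=
    IntermediateField.normalClosure_def'' ..
  rw [h]
  exact inertia_le_fixingSubgroup_iSup (fun σ => (isUnramifiedOutside_map hF σ).2) q hq A hA

/-- Galois refinement of levels: two finite extensions unramified outside `S` are contained
in a finite Galois extension unramified outside `S`. -/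
theorem exists_normal_isUnramifiedOutside {F F₀ : IntermediateField ℚ Qb}
    (hF : F.IsUnramifiedOutside S) (hF₀ : F₀.IsUnramifiedOutside S) :
    ∃ F' : IntermediateField ℚ Qb, F ≤ F' ∧ F₀ ≤ F' ∧ F'.IsUnramifiedOutside S ∧
      Normal ℚ F' := by
  have h := isUnramifiedOutside_normalClosure (hF.sup hF₀)
  refine ⟨IntermediateField.normalClosure ℚ (F ⊔ F₀ : IntermediateField ℚ Qb) Qb, ?_, ?_, h,
    normalClosure.normal ℚ _ Qb⟩
  · exact le_sup_left.trans (IntermediateField.le_normalClosure _)
  · exact le_sup_right.trans (IntermediateField.le_normalClosure _)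

end Normal

section Factor

/-- A function on a group which is right-invariant under the kernel of a surjective
homomorphism factors through it. -/
theorem exists_factor_of_ker_invariant {G Q X : Type*} [Group G] [Group Q] (π : G →* Q)
    (hπ : Function.Surjective π) (f : G → X)
    (h : ∀ g s, s ∈ π.ker → f (g * s) = f g) : ∃ φ : Q → X, ∀ g, f g = φ (π g) := by
  refine ⟨fun x => f (Function.surjInv hπ x), fun g => ?_⟩
  have h1 : π (g⁻¹ * Function.surjInv hπ (π g)) = 1 := by
    rw [map_mul, Function.surjInv_eq hπ, map_inv, inv_mul_cancel]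
  have h2 := h g _ (MonoidHom.mem_ker.2 h1)
  rw [mul_inv_cancel_left] at h2
  exact h2.symm

/-- Two-variable version of `exists_factor_of_ker_invariant`. -/
theorem exists_factor₂_of_ker_invariant {G Q X : Type*} [Group G] [Group Q] (π : G →* Q)
    (hπ : Function.Surjective π) (f : G × G → X)
    (h : ∀ g g' s s', s ∈ π.ker → s' ∈ π.ker → f (g * s, g' * s') = f (g, g')) :
    ∃ φ : Q × Q → X, ∀ g g', f (g, g') = φ (π g, π g') := by
  refine ⟨fun x => f (Function.surjInv hπ x.1, Function.surjInv hπ x.2), fun g g' => ?_⟩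
  have h1 : ∀ a : G, π (a⁻¹ * Function.surjInv hπ (π a)) = 1 := by
    intro a
    rw [map_mul, Function.surjInv_eq hπ, map_inv, inv_mul_cancel]
  have h2 := h g g' _ _ (MonoidHom.mem_ker.2 (h1 g)) (MonoidHom.mem_ker.2 (h1 g'))
  rw [mul_inv_cancel_left, mul_inv_cancel_left] at h2
  exact h2.symm

end Factor

section Level

variable {S : Finset Nat.Primes}

/-- The fixing subgroup of a normal intermediate field is the kernel of restriction. -/
theorem fixingSubgroup_eq_ker (F : IntermediateField ℚ Qb) [Normal ℚ F] :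
    F.fixingSubgroup = (AlgEquiv.restrictNormalHom (F := ℚ) (K₁ := Qb) F).ker :=
  (@IntermediateField.restrictNormalHom_ker ℚ Qb _ _ _ F ‹Normal ℚ F›).symm

/-- Conjugation invariance of the fixing subgroup of a normal intermediate field. -/
theorem conj_mem_fixingSubgroup (F : IntermediateField ℚ Qb) [Normal ℚ F] {s : Gq}
    (hs : s ∈ F.fixingSubgroup) (g : Gq) : g * s * g⁻¹ ∈ F.fixingSubgroup := by
  rw [fixingSubgroup_eq_ker] at hs ⊢
  exact (MonoidHom.normal_ker _).conj_mem s hs g

/-- Level-`S` constancy of a one-variable cochain is witnessed by a finite Galois extension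
unramified outside `S`, containing any prescribed such extension, and then holds on both
sides. -/
theorem exists_normal_of_isLevelConstantS₁ {X : Type*} {f : Gq → X}
    (hf : IsLevelConstantS₁ S f) {F₀ : IntermediateField ℚ Qb}
    (hF₀ : F₀.IsUnramifiedOutside S) :
    ∃ F : IntermediateField ℚ Qb, F₀ ≤ F ∧ F.IsUnramifiedOutside S ∧ Normal ℚ F ∧
      (∀ g s, s ∈ F.fixingSubgroup → f (g * s) = f g) ∧
      (∀ g s, s ∈ F.fixingSubgroup → f (s * g) = f g) := by
  obtain ⟨F₁, hF₁, h⟩ := hf
  obtain ⟨F, h1, h0, hF, hn⟩ := exists_normal_isUnramifiedOutside hF₁ hF₀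
  have hr : ∀ g s, s ∈ F.fixingSubgroup → f (g * s) = f g := fun g s hs =>
    h g s (IntermediateField.fixingSubgroup_antitone h1 hs)
  refine ⟨F, h0, hF, hn, hr, fun g s hs => ?_⟩
  have h2 := hr g (g⁻¹ * s * g⁻¹⁻¹) (conj_mem_fixingSubgroup F hs g⁻¹)
  simp only [inv_inv, mul_assoc, mul_inv_cancel_left] at h2
  exact h2

/-- Level-`S` constancy of a two-variable cochain is witnessed by a finite Galois extension
unramified outside `S`, containing any prescribed such extension, and then holds on both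
sides in both variables. -/
theorem exists_normal_of_isLevelConstantS₂ {X : Type*} {f : Gq × Gq → X}
    (hf : IsLevelConstantS₂ S f) {F₀ : IntermediateField ℚ Qb}
    (hF₀ : F₀.IsUnramifiedOutside S) :
    ∃ F : IntermediateField ℚ Qb, F₀ ≤ F ∧ F.IsUnramifiedOutside S ∧ Normal ℚ F ∧
      (∀ g g' s s', s ∈ F.fixingSubgroup → s' ∈ F.fixingSubgroup →
        f (g * s, g' * s') = f (g, g')) ∧
      (∀ g g' s s', s ∈ F.fixingSubgroup → s' ∈ F.fixingSubgroup →
        f (s * g, s' * g') = f (g, g')) := by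
  obtain ⟨F₁, hF₁, h⟩ := hf
  obtain ⟨F, h1, h0, hF, hn⟩ := exists_normal_isUnramifiedOutside hF₁ hF₀
  have hr : ∀ g g' s s', s ∈ F.fixingSubgroup → s' ∈ F.fixingSubgroup →
      f (g * s, g' * s') = f (g, g') := fun g g' s s' hs hs' =>
    h g g' s s' (IntermediateField.fixingSubgroup_antitone h1 hs)
      (IntermediateField.fixingSubgroup_antitone h1 hs')
  refine ⟨F, h0, hF, hn, hr, fun g g' s s' hs hs' => ?_⟩
  have h2 := hr g g' (g⁻¹ * s * g⁻¹⁻¹) (g'⁻¹ * s' * g'⁻¹⁻¹)
    (conj_mem_fixingSubgroup F hs g⁻¹) (conj_mem_fixingSubgroup F hs' g'⁻¹)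
  simp only [inv_inv, mul_assoc, mul_inv_cancel_left] at h2
  exact h2

/-- A level-`S` one-variable cochain factors through `Gal(F/ℚ)` for a finite Galois `F`
unramified outside `S` (containing any prescribed such extension). -/
theorem exists_factor_of_isLevelConstantS₁ {X : Type*} {f : Gq → X}
    (hf : IsLevelConstantS₁ S f) {F₀ : IntermediateField ℚ Qb}
    (hF₀ : F₀.IsUnramifiedOutside S) :
    ∃ (F : IntermediateField ℚ Qb) (_ : Normal ℚ F), F₀ ≤ F ∧ F.IsUnramifiedOutside S ∧
      ∃ φ : (F ≃ₐ[ℚ] F) → X, ∀ g, f g = φ (AlgEquiv.restrictNormalHom F g) := by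
  obtain ⟨F, h0, hF, hn, hr, -⟩ := exists_normal_of_isLevelConstantS₁ hf hF₀
  refine ⟨F, hn, h0, hF, ?_⟩
  refine exists_factor_of_ker_invariant (AlgEquiv.restrictNormalHom (F := ℚ) (K₁ := Qb) F)
    (AlgEquiv.restrictNormalHom_surjective Qb) f (fun g s hs => hr g s ?_)
  rw [fixingSubgroup_eq_ker]; exact hs

/-- A level-`S` two-variable cochain factors through `Gal(F/ℚ)²` for a finite Galois `F`
unramified outside `S` (containing any prescribed such extension). -/
theorem exists_factor_of_isLevelConstantS₂ {X : Type*} {f : Gq × Gq → X}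
    (hf : IsLevelConstantS₂ S f) {F₀ : IntermediateField ℚ Qb}
    (hF₀ : F₀.IsUnramifiedOutside S) :
    ∃ (F : IntermediateField ℚ Qb) (_ : Normal ℚ F), F₀ ≤ F ∧ F.IsUnramifiedOutside S ∧
      ∃ φ : (F ≃ₐ[ℚ] F) × (F ≃ₐ[ℚ] F) → X,
        ∀ g g', f (g, g') = φ (AlgEquiv.restrictNormalHom F g, AlgEquiv.restrictNormalHom F g') := by
  obtain ⟨F, h0, hF, hn, hr, -⟩ := exists_normal_of_isLevelConstantS₂ hf hF₀
  refine ⟨F, hn, h0, hF, ?_⟩
  refine exists_factor₂_of_ker_invariant (AlgEquiv.restrictNormalHom (F := ℚ) (K₁ := Qb) F)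
    (AlgEquiv.restrictNormalHom_surjective Qb) f (fun g g' s s' hs hs' => hr g g' s s' ?_ ?_)
  · rw [fixingSubgroup_eq_ker]; exact hs
  · rw [fixingSubgroup_eq_ker]; exact hs'

/-- Conversely, a cochain factoring through `Gal(F/ℚ)`, `F` unramified outside `S`, is
level-`S` constant. -/
theorem isLevelConstantS₁_of_factor {X : Type*} {F : IntermediateField ℚ Qb} [Normal ℚ F]
    (hF : F.IsUnramifiedOutside S) (φ : (F ≃ₐ[ℚ] F) → X) :
    IsLevelConstantS₁ S (fun g : Gq => φ (AlgEquiv.restrictNormalHom F g)) := by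
  refine ⟨F, hF, fun g s hs => ?_⟩
  rw [fixingSubgroup_eq_ker, MonoidHom.mem_ker] at hs
  simp only [map_mul, hs, mul_one]

/-- Two-variable version of `isLevelConstantS₁_of_factor`. -/
theorem isLevelConstantS₂_of_factor {X : Type*} {F : IntermediateField ℚ Qb} [Normal ℚ F]
    (hF : F.IsUnramifiedOutside S) (φ : (F ≃ₐ[ℚ] F) × (F ≃ₐ[ℚ] F) → X) :
    IsLevelConstantS₂ S (fun g : Gq × Gq =>
      φ (AlgEquiv.restrictNormalHom F g.1, AlgEquiv.restrictNormalHom F g.2)) := by
  refine ⟨F, hF, fun g g' s s' hs hs' => ?_⟩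
  rw [fixingSubgroup_eq_ker, MonoidHom.mem_ker] at hs hs'
  simp only [map_mul, hs, hs', mul_one]

end Level

section Smooth

variable {S : Finset Nat.Primes}

/-- The subgroup of elements acting trivially on a representation. -/
def trivSubgroup {k : Type} [CommRing k] (M : Rep.{0} k Gq) : Subgroup Gq where
  carrier := {g | M.ρ g = 1}
  mul_mem' := by
    intro a b ha hb
    change M.ρ a = 1 at ha
    change M.ρ b = 1 at hb
    change M.ρ (a * b) = 1
    rw [map_mul, ha, hb, mul_one]
  one_mem' := map_one _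
  inv_mem' := by
    intro a ha
    change M.ρ a = 1 at ha
    change M.ρ a⁻¹ = 1
    have h : M.ρ a⁻¹ * M.ρ a = 1 := by rw [← map_mul, inv_mul_cancel, map_one]
    rwa [ha, mul_one] at h

theorem mem_trivSubgroup_iff {k : Type} [CommRing k] (M : Rep.{0} k Gq) (g : Gq) :
    g ∈ trivSubgroup M ↔ M.ρ g = 1 := Iff.rfl

/-- **The level of a smooth representation unramified outside `S`.**  Under the hypotheses
`hsm`, `hMur` of S55 there is a finite Galois extension `F₀` of `ℚ`, unramified outside `S`,
whose fixing subgroup acts trivially on `M`. -/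
theorem exists_isUnramifiedOutside_acts_trivially {k : Type} [Field k] (M : Rep.{0} k Gq)
    [FiniteDimensional k M]
    (hsm : ∀ m : M, ∃ F : IntermediateField ℚ Qb, FiniteDimensional ℚ F ∧
      ∀ s ∈ F.fixingSubgroup, M.ρ s m = m)
    (hMur : ∀ q : Nat.Primes, q ∉ S → ∀ A : ValuationSubring Qb,
      A.LiesOverPrime (q : ℕ) → ∀ g ∈ A.inertiaSubgroupIn ℚ, M.ρ g = 1) :
    ∃ F₀ : IntermediateField ℚ Qb, F₀.IsUnramifiedOutside S ∧ Normal ℚ F₀ ∧
      ∀ s ∈ F₀.fixingSubgroup, M.ρ s = 1 := by
  classical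
  have hgal : IsGalois ℚ Qb := ⟨⟩
  -- Step 1: a finite level acting trivially.
  let b := Module.finBasis k M
  choose Fb hFb using fun i => hsm (b i)
  let F₁ : IntermediateField ℚ Qb := ⨆ i, Fb i
  have hF₁fd : FiniteDimensional ℚ F₁ := by
    have : ∀ i, FiniteDimensional ℚ (Fb i) := fun i => (hFb i).1
    exact IntermediateField.finiteDimensional_iSup_of_finite
  have hF₁triv : F₁.fixingSubgroup ≤ trivSubgroup M := by
    intro s hs
    rw [mem_trivSubgroup_iff]
    refine b.ext (fun i => ?_)
    exact (hFb i).2 s (IntermediateField.fixingSubgroup_antitone (le_iSup Fb i) hs)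
  -- Step 2: the kernel is open, hence closed.
  have hopen : IsOpen ((trivSubgroup M : Subgroup Gq) : Set Gq) :=
    Subgroup.isOpen_mono hF₁triv (IntermediateField.fixingSubgroup_isOpen F₁)
  have hclosed : IsClosed ((trivSubgroup M : Subgroup Gq) : Set Gq) :=
    Subgroup.isClosed_of_isOpen _ hopen
  -- Step 3: its fixed field.
  let N : ClosedSubgroup Gq := ⟨trivSubgroup M, hclosed⟩
  let F₀ : IntermediateField ℚ Qb := IntermediateField.fixedField (trivSubgroup M)
  have hfix : F₀.fixingSubgroup = trivSubgroup M := InfiniteGalois.fixingSubgroup_fixedField N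
  have hle : F₀ ≤ F₁ := by
    rw [← InfiniteGalois.fixedField_fixingSubgroup F₁, IntermediateField.le_iff_le, hfix]
    exact hF₁triv
  have hF₀fd : FiniteDimensional ℚ F₀ :=
    FiniteDimensional.of_injective (IntermediateField.inclusion hle).toLinearMap
      (IntermediateField.inclusion_injective hle)
  have hF₀ : F₀.IsUnramifiedOutside S := by
    refine ⟨hF₀fd, fun q hq A hA g hg => ?_⟩
    rw [hfix, mem_trivSubgroup_iff]
    exact hMur q hq A hA g hg
  -- Step 4: Galois refinement.
  obtain ⟨F', hF'le, -, hF', hn⟩ := exists_normal_isUnramifiedOutside hF₀ hF₀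
  refine ⟨F', hF', hn, fun s hs => ?_⟩
  have := IntermediateField.fixingSubgroup_antitone hF'le hs
  rw [hfix] at this
  exact this

end Smooth

end Fermat.Agent.S55.Glue
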