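import Mathlib
import Fermat.Prelude.Def_FLTPrelim_Ramification
import Fermat.Agent.Lib.DecompLift
import Fermat.Agent.S14.Wiring.ValRing

/-!
# Places of a number field above a rational prime and double cosets (CFT glue brick [G-dc])

`Qb = AlgebraicClosure ℚ`, `Gq = Gal(Qb/ℚ)`, `K` an intermediate field, `A` a valuation subring
of `Qb` lying over the prime number `ℓ`, `D = A.decompositionSubgroup ℚ`.

* `exists_smul_eq` : `Gq` is transitive on the valuation subrings of `Qb` over `ℓ`.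
* `exists_fixing_smul_eq` : `Gal(Qb/K)` is transitive on those inducing a given prime of `𝓞 K`.
* `primeUnder_smul_eq_iff` : `g • A` and `h • A` induce the same prime of `𝓞 K` iff
  `h ∈ Fix(K) g D`.
* `exists_smul_primeUnder` : every prime of `𝓞 K` over `ℓ` is induced by some `g • A`.
* `placesEquiv` : `Fix(K) \ Gq / D ≃ {v : HeightOneSpectrum (𝓞 K) // ℓ ∈ v}`.
* `mem_decompositionSubgroup_smul_iff`, `exists_decomp_lift_fixing` : decomposition groups of the
  places of `K`.
-/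

set_option autoImplicit false

open scoped Pointwise NumberField
open IsDedekindDomain

namespace Fermat.Agent.S55.Glue.PlacesAbove

local notation "Qb" => AlgebraicClosure ℚ
local notation "Gq" => (AlgebraicClosure ℚ ≃ₐ[ℚ] AlgebraicClosure ℚ)
local notation "Bq" => integralClosure ℤ (AlgebraicClosure ℚ)

open Fermat.Agent.S14.Wiring.ValRing
open Fermat.Agent.Lib

attribute [local instance] Fermat.Agent.Lib.FrobProfinite.isAlgebraic_Qb
  Fermat.Agent.Lib.FrobProfinite.isAlgClosure_Qb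
  Fermat.Agent.Lib.FrobProfinite.galAction
  Fermat.Agent.Lib.FrobProfinite.smulCommClass_galAction
  Fermat.Agent.Lib.FrobProfinite.discTop
  Fermat.Agent.Lib.FrobProfinite.discTop_discrete

section Smul

/-- Non-units of a valuation subring, in terms of membership of the inverse. -/
theorem mem_nonunits_iff_inv (B : ValuationSubring Qb) (y : Qb) :
    y ∈ B.nonunits ↔ (y = 0 ∨ y⁻¹ ∉ B) := by
  rw [ValuationSubring.mem_nonunits_iff]
  by_cases hy : y = 0
  · simp [hy]
  · simp only [hy, false_or]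
    rw [← B.valuation_le_one_iff, map_inv₀, not_le]
    have hv : B.valuation y ≠ 0 := (Valuation.ne_zero_iff _).2 hy
    exact ⟨fun h => (one_lt_inv₀ (zero_lt_iff.2 hv)).2 h,
      fun h => (one_lt_inv₀ (zero_lt_iff.2 hv)).1 h⟩

/-- Non-units of a translated valuation subring. -/
theorem mem_nonunits_smul_iff (A : ValuationSubring Qb) (σ : Gq) (x : Qb) :
    x ∈ (σ • A).nonunits ↔ σ⁻¹ x ∈ A.nonunits := by
  rw [mem_nonunits_iff_inv, mem_nonunits_iff_inv,
    ValuationSubring.mem_pointwise_smul_iff_inv_smul_mem]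
  have h1 : σ⁻¹ • x⁻¹ = (σ⁻¹ x)⁻¹ := by
    rw [AlgEquiv.smul_def, map_inv₀]
  rw [h1]
  have h2 : σ⁻¹ x = 0 ↔ x = 0 := by
    rw [map_eq_zero_iff _ (σ⁻¹ : Gq).injective]
  rw [h2]

/-- Lying over a prime number is stable under translation. -/
theorem liesOverPrime_smul {A : ValuationSubring Qb} {ℓ : ℕ} (h : A.LiesOverPrime ℓ) (σ : Gq) :
    (σ • A).LiesOverPrime ℓ := by
  unfold ValuationSubring.LiesOverPrime at h ⊢
  rw [mem_nonunits_smul_iff]
  rwa [map_natCast]

/-- Rational integers in the maximal ideal of a valuation subring over `ℓ`. -/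
theorem intCast_mem_nonunits_iff {A : ValuationSubring Qb} {ℓ : ℕ} (hℓ : ℓ.Prime)
    (hA : A.LiesOverPrime ℓ) (n : ℤ) : (n : Qb) ∈ A.nonunits ↔ (ℓ : ℤ) ∣ n := by
  constructor
  · intro h
    by_contra hn
    have h1 := Fermat.Agent.Lib.ValFrac.valuation_intCast_eq_one A ℓ hℓ hA n hn
    rw [A.mem_nonunits_iff, h1] at h
    exact lt_irrefl _ h
  · rintro ⟨m, rfl⟩
    rw [A.mem_nonunits_iff]
    push_cast
    rw [map_mul]
    have h1 : A.valuation (ℓ : Qb) < 1 := A.mem_nonunits_iff.mp hA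
    have h2 : A.valuation (m : Qb) ≤ 1 := (A.valuation_le_one_iff _).mpr (intCast_mem A m)
    calc A.valuation (ℓ : Qb) * A.valuation (m : Qb) ≤ A.valuation (ℓ : Qb) * 1 := by gcongr
      _ < 1 := by rwa [mul_one]

end Smul

section Determination

/-- A valuation subring over a prime is contained in any valuation subring having fewer integral
non-units. -/
theorem le_of_forall_integral {A A' : ValuationSubring Qb} {ℓ : ℕ} (hℓ : ℓ.Prime)
    (hA : A.LiesOverPrime ℓ)
    (h : ∀ c : Qb, IsIntegral ℤ c → c ∈ A'.nonunits → c ∈ A.nonunits) : A ≤ A' := by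
  intro x hx
  obtain ⟨s, hs, hxs, hs1⟩ := Fermat.Agent.Lib.ValFrac.exists_integral_fraction A ℓ hℓ hA x hx
    (DecompLift.isAlgebraic_int x)
  have hsA' : s ∉ A'.nonunits := fun h' => by
    have h2 := h s hs h'
    rw [A.mem_nonunits_iff, hs1] at h2
    exact lt_irrefl _ h2
  have hs1' : A'.valuation s = 1 := by
    rw [A'.mem_nonunits_iff, not_lt] at hsA'
    exact le_antisymm (DecompLift.val_le_one_of_isIntegral A' hs) hsA'
  have hxs' : A'.valuation (x * s) ≤ 1 := DecompLift.val_le_one_of_isIntegral A' hxs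
  rw [map_mul, hs1', mul_one] at hxs'
  exact (A'.valuation_le_one_iff x).mp hxs'

/-- A valuation subring of `Qb` over a prime number is determined by its integral non-units. -/
theorem eq_of_forall_integral {A A' : ValuationSubring Qb} {ℓ : ℕ} (hℓ : ℓ.Prime)
    (hA : A.LiesOverPrime ℓ)
    (h : ∀ c : Qb, IsIntegral ℤ c → (c ∈ A.nonunits ↔ c ∈ A'.nonunits)) : A = A' := by
  have hA' : A'.LiesOverPrime ℓ := (h (ℓ : Qb) (isIntegral_natCast ℓ)).mp hA
  exact le_antisymm (le_of_forall_integral hℓ hA fun c hc h' => (h c hc).mpr h')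
    (le_of_forall_integral hℓ hA' fun c hc h' => (h c hc).mp h')

end Determination

section Transitive

variable (M : IntermediateField ℚ Qb)

attribute [local instance] Fermat.Agent.Lib.DecompLift.galActionM
  Fermat.Agent.Lib.DecompLift.smulCommClassM
  Fermat.Agent.Lib.DecompLift.continuousSMulM
  Fermat.Agent.Lib.DecompLift.isInvariantM

/-- **Transitivity above `M`.** Two valuation subrings of `Qb` over a prime number with the same
integral non-units in `M` are conjugate under `Gal(Qb/M)`. -/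
theorem exists_fixing_smul_eq_of_forall {A A' : ValuationSubring Qb} {ℓ : ℕ} (hℓ : ℓ.Prime)
    (hA : A.LiesOverPrime ℓ)
    (h : ∀ x ∈ M, IsIntegral ℤ x → (x ∈ A.nonunits ↔ x ∈ A'.nonunits)) :
    ∃ σ ∈ M.fixingSubgroup, σ • A = A' := by
  have := DecompLift.primeOf_isPrime A
  have := DecompLift.primeOf_isPrime A'
  let P : Ideal Bq := DecompLift.primeOf A
  let P' : Ideal Bq := DecompLift.primeOf A'
  have hunder : P.under (FixedPoints.subalgebra ℤ Bq (Qb ≃ₐ[M] Qb)) =
      P'.under (FixedPoints.subalgebra ℤ Bq (Qb ≃ₐ[M] Qb)) := by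
    ext a
    rw [Ideal.mem_comap, Ideal.mem_comap]
    show (a : Bq) ∈ P ↔ (a : Bq) ∈ P'
    exact h _ (DecompLift.coe_mem_of_fixed M a) (a : Bq).2
  obtain ⟨g, hg⟩ := Algebra.IsInvariant.exists_smul_of_under_eq_of_profinite
    (A := FixedPoints.subalgebra ℤ Bq (Qb ≃ₐ[M] Qb)) (G := (Qb ≃ₐ[M] Qb)) P P' hunder
  refine ⟨g.restrictScalars ℚ, ?_, ?_⟩
  · rw [IntermediateField.mem_fixingSubgroup_iff]
    intro x hx
    exact g.commutes ⟨x, hx⟩
  · refine eq_of_forall_integral hℓ (liesOverPrime_smul hA _) fun c hc => ?_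
    rw [mem_nonunits_smul_iff]
    have hc' : IsIntegral ℤ ((g.restrictScalars ℚ)⁻¹ c) := map_isIntegral_int (g.restrictScalars ℚ)⁻¹ hc
    have h1 : (⟨_, hc'⟩ : Bq) ∈ P ↔ g • (⟨_, hc'⟩ : Bq) ∈ g • P :=
      (Ideal.smul_mem_pointwise_smul_iff).symm
    rw [← hg] at h1
    have h2 : g • (⟨_, hc'⟩ : Bq) = ⟨c, hc⟩ := by
      apply Subtype.ext
      show g ((g.restrictScalars ℚ)⁻¹ c) = c
      exact (g.restrictScalars ℚ).apply_symm_apply c
    rw [h2] at h1
    exact h1

/-- **Transitivity.** `Gal(Qb/ℚ)` acts transitively on the valuation subrings of `Qb` lying over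
a given prime number. -/
theorem exists_smul_eq {A A' : ValuationSubring Qb} {ℓ : ℕ} (hℓ : ℓ.Prime)
    (hA : A.LiesOverPrime ℓ) (hA' : A'.LiesOverPrime ℓ) : ∃ σ : Gq, σ • A = A' := by
  obtain ⟨σ, -, hσ⟩ := exists_fixing_smul_eq_of_forall ⊥ hℓ hA (A' := A') (by
    intro x hx hxint
    obtain ⟨r, rfl⟩ := IntermediateField.mem_bot.mp hx
    have hr : IsIntegral ℤ r := (isIntegral_algebraMap_iff (algebraMap ℚ Qb).injective).mp hxint
    obtain ⟨n, rfl⟩ := IsIntegrallyClosed.isIntegral_iff.mp hr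
    have hcast : algebraMap ℚ Qb (algebraMap ℤ ℚ n) = (n : Qb) := by simp
    rw [hcast]
    exact (intCast_mem_nonunits_iff hℓ hA n).trans (intCast_mem_nonunits_iff hℓ hA' n).symm)
  exact ⟨σ, hσ⟩

end Transitive

section Places

variable (K : IntermediateField ℚ Qb)

theorem mem_nonunits_iff_mem_primeUnder (A : ValuationSubring Qb) (x : 𝓞 K) :
    ((x : K) : Qb) ∈ A.nonunits ↔ x ∈ primeUnder K A := by
  rw [mem_primeUnder, A.mem_nonunits_iff]

/-- **Transitivity above a place of `K`.** Valuation subrings of `Qb` inducing the same prime of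
`𝓞 K` are conjugate under `Gal(Qb/K)`. -/
theorem exists_fixing_smul_eq {A A' : ValuationSubring Qb} {ℓ : ℕ} (hℓ : ℓ.Prime)
    (hA : A.LiesOverPrime ℓ) (h : primeUnder K A = primeUnder K A') :
    ∃ σ ∈ K.fixingSubgroup, σ • A = A' := by
  refine exists_fixing_smul_eq_of_forall K hℓ hA fun x hx hxint => ?_
  have hint : IsIntegral ℤ (⟨x, hx⟩ : K) :=
    (isIntegral_algebraMap_iff (algebraMap K Qb).injective).mp hxint
  have h1 := mem_nonunits_iff_mem_primeUnder K A (⟨⟨x, hx⟩, hint⟩ : 𝓞 K)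
  have h2 := mem_nonunits_iff_mem_primeUnder K A' (⟨⟨x, hx⟩, hint⟩ : 𝓞 K)
  rw [h] at h1
  exact h1.trans h2.symm

/-- Translating by an element of `Gal(Qb/K)` does not change the induced prime of `𝓞 K`. -/
theorem primeUnder_smul_of_mem_fixingSubgroup (A : ValuationSubring Qb) {u : Gq}
    (hu : u ∈ K.fixingSubgroup) : primeUnder K (u • A) = primeUnder K A := by
  ext x
  rw [← mem_nonunits_iff_mem_primeUnder, ← mem_nonunits_iff_mem_primeUnder, mem_nonunits_smul_iff]
  have h1 : u⁻¹ ((x : K) : Qb) = ((x : K) : Qb) :=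
    (IntermediateField.mem_fixingSubgroup_iff K u⁻¹).mp (inv_mem hu) _ (x : K).2
  rw [h1]

/-- **Double cosets.** The translates `g • A` and `h • A` induce the same prime of `𝓞 K` iff
`h ∈ Gal(Qb/K) · g · D_A`. -/
theorem primeUnder_smul_eq_iff {A : ValuationSubring Qb} {ℓ : ℕ} (hℓ : ℓ.Prime)
    (hA : A.LiesOverPrime ℓ) (g h : Gq) :
    primeUnder K (g • A) = primeUnder K (h • A) ↔
      ∃ u ∈ K.fixingSubgroup, ∃ d ∈ A.decompositionSubgroup ℚ, h = u * g * d := by
  constructor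
  · intro hgh
    obtain ⟨u, hu, huA⟩ := exists_fixing_smul_eq K hℓ (liesOverPrime_smul hA g) hgh
    refine ⟨u, hu, g⁻¹ * u⁻¹ * h, ?_, by group⟩
    show (g⁻¹ * u⁻¹ * h) • A = A
    rw [mul_smul, mul_smul, ← huA, inv_smul_smul, inv_smul_smul]
  · rintro ⟨u, hu, d, hd, rfl⟩
    have hd' : d • A = A := hd
    rw [mul_smul, mul_smul, hd', primeUnder_smul_of_mem_fixingSubgroup K _ hu]

/-- **Surjectivity.** Every prime of `𝓞 K` above `ℓ` is induced by a translate of `A`. -/
theorem exists_smul_primeUnder [NumberField K] {A : ValuationSubring Qb} {ℓ : ℕ} (hℓ : ℓ.Prime)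
    (hA : A.LiesOverPrime ℓ) (v : HeightOneSpectrum (𝓞 K)) (hv : ((ℓ : ℕ) : 𝓞 K) ∈ v.asIdeal) :
    ∃ g : Gq, v.asIdeal = primeUnder K (g • A) := by
  obtain ⟨A', hA'⟩ := exists_valuationSubring v
  have hA'ℓ : A'.LiesOverPrime ℓ := liesOverPrime_of_natCast_mem hA' hv
  obtain ⟨g, hg⟩ := exists_smul_eq hℓ hA hA'ℓ
  exact ⟨g, by rw [hg]; exact hA'⟩

/-- The places of `K` above the prime number `ℓ`. -/
abbrev PlacesOver (ℓ : ℕ) : Type :=
  {v : HeightOneSpectrum (𝓞 K) // ((ℓ : ℕ) : 𝓞 K) ∈ v.asIdeal}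

/-- The place of `K` induced by the translate `g • A`. -/
noncomputable def placeOfSmul {A : ValuationSubring Qb} {ℓ : ℕ} (hℓ : ℓ.Prime)
    (hA : A.LiesOverPrime ℓ) (g : Gq) : PlacesOver K ℓ :=
  ⟨placeUnder K (g • A) hℓ (liesOverPrime_smul hA g),
    (natCast_mem_primeUnder_iff K _ ℓ).mpr (liesOverPrime_smul hA g)⟩

theorem placeOfSmul_asIdeal {A : ValuationSubring Qb} {ℓ : ℕ} (hℓ : ℓ.Prime)
    (hA : A.LiesOverPrime ℓ) (g : Gq) :
    (placeOfSmul K hℓ hA g).1.asIdeal = primeUnder K (g • A) := rfl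

theorem placeOfSmul_eq_iff {A : ValuationSubring Qb} {ℓ : ℕ} (hℓ : ℓ.Prime)
    (hA : A.LiesOverPrime ℓ) (g h : Gq) :
    placeOfSmul K hℓ hA g = placeOfSmul K hℓ hA h ↔
      ∃ u ∈ K.fixingSubgroup, ∃ d ∈ A.decompositionSubgroup ℚ, h = u * g * d := by
  rw [← primeUnder_smul_eq_iff K hℓ hA g h]
  constructor
  · intro h1
    exact congrArg (fun w : PlacesOver K ℓ => w.1.asIdeal) h1
  · intro h1
    exact Subtype.ext (HeightOneSpectrum.ext h1)

theorem placeOfSmul_surjective [NumberField K] {A : ValuationSubring Qb} {ℓ : ℕ} (hℓ : ℓ.Prime)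
    (hA : A.LiesOverPrime ℓ) : Function.Surjective (placeOfSmul K hℓ hA) := by
  rintro ⟨v, hv⟩
  obtain ⟨g, hg⟩ := exists_smul_primeUnder K hℓ hA v hv
  exact ⟨g, Subtype.ext (HeightOneSpectrum.ext hg.symm)⟩

/-- **Places above `ℓ` are the double cosets `Gal(Qb/K) \ Gal(Qb/ℚ) / D_A`.** -/
noncomputable def placesEquiv [NumberField K] {A : ValuationSubring Qb} {ℓ : ℕ} (hℓ : ℓ.Prime)
    (hA : A.LiesOverPrime ℓ) :
    DoubleCoset.Quotient (K.fixingSubgroup : Set Gq) (A.decompositionSubgroup ℚ : Set Gq) ≃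
      PlacesOver K ℓ :=
  Equiv.ofBijective
    (Quotient.lift (placeOfSmul K hℓ hA) (fun g h hgh =>
      (placeOfSmul_eq_iff K hℓ hA g h).mpr (DoubleCoset.rel_iff.mp hgh)))
    ⟨by
      intro x y
      induction x using Quotient.inductionOn with | _ g => ?_
      induction y using Quotient.inductionOn with | _ h => ?_
      intro hxy
      exact Quotient.sound (DoubleCoset.rel_iff.mpr ((placeOfSmul_eq_iff K hℓ hA g h).mp hxy)),
    by
      intro w
      obtain ⟨g, hg⟩ := placeOfSmul_surjective K hℓ hA w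
      exact ⟨Quotient.mk _ g, hg⟩⟩

theorem placesEquiv_mk [NumberField K] {A : ValuationSubring Qb} {ℓ : ℕ} (hℓ : ℓ.Prime)
    (hA : A.LiesOverPrime ℓ) (g : Gq) :
    placesEquiv K hℓ hA (DoubleCoset.mk K.fixingSubgroup (A.decompositionSubgroup ℚ) g) =
      placeOfSmul K hℓ hA g := rfl

/-- Only finitely many places of a number field lie above a given prime number. -/
theorem finite_placesOver [NumberField K] {ℓ : ℕ} (hℓ : ℓ ≠ 0) : Finite (PlacesOver K ℓ) := by
  have hI : Ideal.span {((ℓ : ℕ) : 𝓞 K)} ≠ 0 := by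
    rw [Ne, Ideal.zero_eq_bot, Ideal.span_singleton_eq_bot]
    exact_mod_cast hℓ
  have h := Ideal.finite_factors hI
  have h2 : {v : HeightOneSpectrum (𝓞 K) | v.asIdeal ∣ Ideal.span {((ℓ : ℕ) : 𝓞 K)}} =
      {v | ((ℓ : ℕ) : 𝓞 K) ∈ v.asIdeal} := by
    ext v
    exact Ideal.dvd_span_singleton
  rw [h2] at h
  exact h.to_subtype

/-- The double coset space `Gal(Qb/K) \ Gal(Qb/ℚ) / D_A` is finite. -/
theorem finite_doubleCoset [NumberField K] {A : ValuationSubring Qb} {ℓ : ℕ} (hℓ : ℓ.Prime)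
    (hA : A.LiesOverPrime ℓ) :
    Finite (DoubleCoset.Quotient (K.fixingSubgroup : Set Gq)
      (A.decompositionSubgroup ℚ : Set Gq)) :=
  haveI := finite_placesOver K hℓ.ne_zero
  Finite.of_equiv _ (placesEquiv K hℓ hA).symm

end Places

section Decomposition

variable (K : IntermediateField ℚ Qb)

/-- The decomposition group of a translate is the conjugate decomposition group. -/
theorem mem_decompositionSubgroup_smul_iff (A : ValuationSubring Qb) (g σ : Gq) :
    σ ∈ (g • A).decompositionSubgroup ℚ ↔ g⁻¹ * σ * g ∈ A.decompositionSubgroup ℚ := by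
  show σ • (g • A) = g • A ↔ (g⁻¹ * σ * g) • A = A
  rw [mul_smul, mul_smul, inv_smul_eq_iff]

/-- **Decomposition groups of places of finite layers.** If `σ ∈ Gal(Qb/K)` stabilises the prime
of the integers of `F ⊇ K` cut out by `B`, then `σ` agrees on `F` with an element of
`Gal(Qb/K) ∩ D_B`. -/
theorem exists_decomp_lift_fixing (F : IntermediateField ℚ Qb) (hKF : K ≤ F)
    (B : ValuationSubring Qb) {ℓ : ℕ} (hℓ : ℓ.Prime) (hB : B.LiesOverPrime ℓ) (σ : Gq)
    (hσK : σ ∈ K.fixingSubgroup)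
    (hσ : ∀ x ∈ F, IsIntegral ℤ x → (x ∈ B.nonunits ↔ σ x ∈ B.nonunits)) :
    ∃ d ∈ B.decompositionSubgroup ℚ, d ∈ K.fixingSubgroup ∧ ∀ x ∈ F, d x = σ x := by
  obtain ⟨d, hd, hdF⟩ := DecompLift.exists_decomp_lift F B hℓ hB σ hσ
  refine ⟨d, hd, ?_, hdF⟩
  rw [IntermediateField.mem_fixingSubgroup_iff]
  intro x hx
  rw [hdF x (hKF hx)]
  exact (IntermediateField.mem_fixingSubgroup_iff K σ).mp hσK x hx

end Decomposition

end Fermat.Agent.S55.Glue.PlacesAbove
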