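import Mathlib
import Fermat.Prelude.Def_GroupCohomology_Selmer

/-!
# S55 / glue: the base module `coind_U^G k` is self-dual up to the twist

`G` a group, `U ≤ G` of finite index, `χ : G →* kˣ` trivial on `U`, `k` a field,
`M0 := Rep.coind U.subtype (Rep.trivial k U k)` (functions `f : G → k` with `f (u * g) = f g`,
`G` acting by right translation).

* `pair U χ hχ : M0 →ₗ[k] M0 →ₗ[k] k`, `⟨f, f'⟩ = ∑_{gU} χ(g) f(g⁻¹) f'(g⁻¹)`
  (`= ∑_{Uh} χ(h)⁻¹ f(h) f'(h)`), with `⟨h f, h f'⟩ = χ(h) ⟨f, f'⟩` and trivial kernels.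
* `toDualTwist U χ hχ : M0 ⟶ M0.dualTwist χ`, `f' ↦ ⟨·, f'⟩`, and `dualTwistIso`, the
  resulting isomorphism `M0 ≅ M0.dualTwist χ`.
* `indicator U g₀ : M0`, the indicator function of the coset `U g₀`, with
  `⟨indicator g₀, f'⟩ = χ(g₀)⁻¹ f'(g₀)`.
-/

set_option autoImplicit false

open CategoryTheory

namespace Fermat.Agent.S55.Glue.CoindDual

variable {k : Type} [Field k] {G : Type} [Group G] (U : Subgroup G)

/-- The base module `coind_U^G k`. -/
noncomputable abbrev M0 : Rep.{0} k G := Rep.coind U.subtype (Rep.trivial k U k)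

variable {U}

lemma M0_ρ_apply (g : G) (f : (M0 U : Rep.{0} k G)) (h : G) :
    ((M0 U : Rep.{0} k G).ρ g f).1 h = f.1 (h * g) := rfl

lemma M0_mem (f : (M0 U : Rep.{0} k G)) (u : U) (h : G) : f.1 ((u : G) * h) = f.1 h := f.2 u h

lemma M0_mem' (f : (M0 U : Rep.{0} k G)) {u : G} (hu : u ∈ U) (h : G) : f.1 (u * h) = f.1 h :=
  f.2 ⟨u, hu⟩ h

lemma M0_ext {f f' : (M0 U : Rep.{0} k G)} (h : ∀ g : G, f.1 g = f'.1 g) : f = f' :=
  Subtype.ext (funext h)

open Classical in
variable (U) in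
/-- The indicator function of the right coset `U g₀`. -/
noncomputable def indicator (g₀ : G) : (M0 U : Rep.{0} k G) :=
  ⟨fun h => if h * g₀⁻¹ ∈ U then 1 else 0, fun u h => by
    show (if (u : G) * h * g₀⁻¹ ∈ U then (1 : k) else 0) = if h * g₀⁻¹ ∈ U then 1 else 0
    have : (u : G) * h * g₀⁻¹ ∈ U ↔ h * g₀⁻¹ ∈ U := by
      rw [mul_assoc]
      exact Subgroup.mul_mem_cancel_left U u.2
    simp only [this]⟩

lemma indicator_apply_of_mem {g₀ h : G} (hm : h * g₀⁻¹ ∈ U) :
    (indicator (k := k) U g₀).1 h = 1 := by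
  classical
  exact if_pos hm

lemma indicator_apply_of_not_mem {g₀ h : G} (hm : h * g₀⁻¹ ∉ U) :
    (indicator (k := k) U g₀).1 h = 0 := by
  classical
  exact if_neg hm

variable (χ : G →* kˣ) (hχ : ∀ u ∈ U, χ u = 1)

/-- The summand of the pairing at the left coset `gU`: `χ(g) f(g⁻¹) f'(g⁻¹)`. -/
noncomputable def pairTerm (hχ : ∀ u ∈ U, χ u = 1) (f f' : (M0 U : Rep.{0} k G)) : G ⧸ U → k :=
  fun x => Quotient.liftOn' x (fun g => (χ g : k) * (f.1 g⁻¹ * f'.1 g⁻¹)) (fun a b hab => by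
    have h1 : a⁻¹ * b ∈ U := QuotientGroup.leftRel_apply.1 hab
    have h2 : a⁻¹ = (a⁻¹ * b) * b⁻¹ := by simp
    have h3 : χ a = χ b := by
      have := hχ _ h1
      rw [map_mul, map_inv, inv_mul_eq_one] at this
      exact this
    show (χ a : k) * (f.1 a⁻¹ * f'.1 a⁻¹) = (χ b : k) * (f.1 b⁻¹ * f'.1 b⁻¹)
    rw [h2, M0_mem' f h1, M0_mem' f' h1, h3])

lemma pairTerm_mk (f f' : (M0 U : Rep.{0} k G)) (g : G) :
    pairTerm χ hχ f f' (QuotientGroup.mk g) = (χ g : k) * (f.1 g⁻¹ * f'.1 g⁻¹) := rfl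

variable [U.FiniteIndex]

noncomputable local instance fintypeQuot' : Fintype (G ⧸ U) :=
  Subgroup.fintypeQuotientOfFiniteIndex

/-- The twisted self-pairing of `coind_U^G k`. -/
noncomputable def pair (hχ : ∀ u ∈ U, χ u = 1) :
    (M0 U : Rep.{0} k G) →ₗ[k] (M0 U : Rep.{0} k G) →ₗ[k] k :=
  LinearMap.mk₂ k (fun f f' => ∑ x : G ⧸ U, pairTerm χ hχ f f' x)
    (fun f₁ f₂ f' => by
      rw [← Finset.sum_add_distrib]
      refine Finset.sum_congr rfl fun x _ => ?_
      induction x using QuotientGroup.induction_on with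
      | H g =>
        rw [pairTerm_mk, pairTerm_mk, pairTerm_mk]
        show (χ g : k) * ((f₁.1 g⁻¹ + f₂.1 g⁻¹) * f'.1 g⁻¹) = _
        ring)
    (fun c f f' => by
      rw [Finset.smul_sum]
      refine Finset.sum_congr rfl fun x _ => ?_
      induction x using QuotientGroup.induction_on with
      | H g =>
        rw [pairTerm_mk, pairTerm_mk]
        show (χ g : k) * ((c * f.1 g⁻¹) * f'.1 g⁻¹) = c • ((χ g : k) * (f.1 g⁻¹ * f'.1 g⁻¹))
        rw [smul_eq_mul]; ring)
    (fun f f₁ f₂ => by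
      rw [← Finset.sum_add_distrib]
      refine Finset.sum_congr rfl fun x _ => ?_
      induction x using QuotientGroup.induction_on with
      | H g =>
        rw [pairTerm_mk, pairTerm_mk, pairTerm_mk]
        show (χ g : k) * (f.1 g⁻¹ * (f₁.1 g⁻¹ + f₂.1 g⁻¹)) = _
        ring)
    (fun c f f' => by
      rw [Finset.smul_sum]
      refine Finset.sum_congr rfl fun x _ => ?_
      induction x using QuotientGroup.induction_on with
      | H g =>
        rw [pairTerm_mk, pairTerm_mk]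
        show (χ g : k) * (f.1 g⁻¹ * (c * f'.1 g⁻¹)) = c • ((χ g : k) * (f.1 g⁻¹ * f'.1 g⁻¹))
        rw [smul_eq_mul]; ring)

lemma pair_apply (f f' : (M0 U : Rep.{0} k G)) :
    pair χ hχ f f' = ∑ x : G ⧸ U, pairTerm χ hχ f f' x := rfl

/-- Equivariance: `⟨h f, h f'⟩ = χ(h) ⟨f, f'⟩`. -/
lemma pair_ρ (h : G) (f f' : (M0 U : Rep.{0} k G)) :
    pair χ hχ ((M0 U : Rep.{0} k G).ρ h f) ((M0 U : Rep.{0} k G).ρ h f') =
      (χ h : k) * pair χ hχ f f' := by
  rw [pair_apply, pair_apply, Finset.mul_sum]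
  rw [← Equiv.sum_comp (MulAction.toPerm h⁻¹ : G ⧸ U ≃ G ⧸ U)
    (fun x => (χ h : k) * pairTerm χ hχ f f' x)]
  refine Finset.sum_congr rfl fun x _ => ?_
  induction x using QuotientGroup.induction_on with
  | H g =>
    show _ = (χ h : k) * pairTerm χ hχ f f' (h⁻¹ • (QuotientGroup.mk g : G ⧸ U))
    rw [MulAction.Quotient.smul_coe, pairTerm_mk, pairTerm_mk, M0_ρ_apply, M0_ρ_apply,
      smul_eq_mul, map_mul, map_inv, mul_inv_rev, inv_inv]
    simp only [Units.val_mul, Units.val_inv_eq_inv_val]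
    have hne : (χ h : k) ≠ 0 := (χ h).ne_zero
    field_simp

/-- Pairing with the indicator of `U g₀` evaluates at `g₀`. -/
lemma pair_indicator_left (g₀ : G) (f' : (M0 U : Rep.{0} k G)) :
    pair χ hχ (indicator U g₀) f' = ((χ g₀)⁻¹ : kˣ) * f'.1 g₀ := by
  classical
  rw [pair_apply, Finset.sum_eq_single (QuotientGroup.mk g₀⁻¹ : G ⧸ U)]
  · rw [pairTerm_mk, indicator_apply_of_mem (by simp), inv_inv, one_mul, map_inv]
  · intro x _ hx
    induction x using QuotientGroup.induction_on with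
    | H g =>
      rw [pairTerm_mk, indicator_apply_of_not_mem, zero_mul, mul_zero]
      intro hmem
      apply hx
      rw [QuotientGroup.eq]
      simpa using hmem
  · intro h; exact absurd (Finset.mem_univ _) h

lemma pair_indicator_right (g₀ : G) (f : (M0 U : Rep.{0} k G)) :
    pair χ hχ f (indicator U g₀) = ((χ g₀)⁻¹ : kˣ) * f.1 g₀ := by
  classical
  rw [pair_apply, Finset.sum_eq_single (QuotientGroup.mk g₀⁻¹ : G ⧸ U)]
  · rw [pairTerm_mk, indicator_apply_of_mem (by simp), inv_inv, mul_one, map_inv]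
  · intro x _ hx
    induction x using QuotientGroup.induction_on with
    | H g =>
      rw [pairTerm_mk, indicator_apply_of_not_mem, mul_zero, mul_zero]
      intro hmem
      apply hx
      rw [QuotientGroup.eq]
      simpa using hmem
  · intro h; exact absurd (Finset.mem_univ _) h

/-- The pairing has trivial right kernel. -/
lemma pair_right_nondegenerate (f' : (M0 U : Rep.{0} k G))
    (h : ∀ f, pair χ hχ f f' = 0) : f' = 0 := by
  apply M0_ext
  intro g
  have := h (indicator U g)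
  rw [pair_indicator_left] at this
  exact (mul_eq_zero.1 this).resolve_left (Units.ne_zero _)

/-- The pairing has trivial left kernel. -/
lemma pair_left_nondegenerate (f : (M0 U : Rep.{0} k G))
    (h : ∀ f', pair χ hχ f f' = 0) : f = 0 := by
  apply M0_ext
  intro g
  have := h (indicator U g)
  rw [pair_indicator_right] at this
  exact (mul_eq_zero.1 this).resolve_left (Units.ne_zero _)

/-- evaluation at inverses of coset representatives -/
noncomputable def evalReps : (M0 U : Rep.{0} k G) →ₗ[k] (G ⧸ U → k) where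
  toFun f := fun x => f.1 (Quotient.out x)⁻¹
  map_add' _ _ := rfl
  map_smul' _ _ := rfl

omit [U.FiniteIndex] in
lemma evalReps_injective : Function.Injective (evalReps (k := k) (U := U)) := by
  intro f f' hff
  apply M0_ext
  intro g
  have h1 : ((Quotient.out (QuotientGroup.mk g⁻¹ : G ⧸ U)) : G)⁻¹ * g⁻¹ ∈ U :=
    QuotientGroup.leftRel_apply.1 (Quotient.exact' (Quotient.out_eq' (QuotientGroup.mk g⁻¹ : G ⧸ U)))
  have h2 : g = ((Quotient.out (QuotientGroup.mk g⁻¹ : G ⧸ U) : G)⁻¹ * g⁻¹)⁻¹ *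
      (Quotient.out (QuotientGroup.mk g⁻¹ : G ⧸ U) : G)⁻¹ := by
    simp
  have h3 := congrFun hff (QuotientGroup.mk g⁻¹ : G ⧸ U)
  simp only [evalReps, LinearMap.coe_mk, AddHom.coe_mk] at h3
  rw [h2, M0_mem' f (inv_mem h1), M0_mem' f' (inv_mem h1), h3]

instance finite_M0 : Module.Finite k (M0 U : Rep.{0} k G) :=
  Module.Finite.of_injective (evalReps (k := k) (U := U)) evalReps_injective

/-- The linear map `f' ↦ ⟨·, f'⟩` into the dual. -/
noncomputable def toDualLin (hχ : ∀ u ∈ U, χ u = 1) :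
    (M0 U : Rep.{0} k G) →ₗ[k] Module.Dual k (M0 U : Rep.{0} k G) :=
  (pair χ hχ).flip

lemma toDualLin_apply (f f' : (M0 U : Rep.{0} k G)) :
    toDualLin χ hχ f' f = pair χ hχ f f' := rfl

lemma toDualLin_injective : Function.Injective (toDualLin (U := U) χ hχ) := by
  rw [← LinearMap.ker_eq_bot, LinearMap.ker_eq_bot']
  intro f' hf'
  exact pair_right_nondegenerate χ hχ f' (fun f => by
    rw [← toDualLin_apply, hf']; rfl)

lemma toDualLin_bijective : Function.Bijective (toDualLin (U := U) χ hχ) := by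
  refine ⟨toDualLin_injective χ hχ, ?_⟩
  exact (LinearMap.injective_iff_surjective_of_finrank_eq_finrank
    (Subspace.dual_finrank_eq (K := k) (V := (M0 U : Rep.{0} k G))).symm).1
    (toDualLin_injective χ hχ)

lemma toDualLin_ρ (h : G) (f' : (M0 U : Rep.{0} k G)) :
    toDualLin χ hχ ((M0 U : Rep.{0} k G).ρ h f') =
      ((M0 U : Rep.{0} k G).dualTwist χ).ρ h (toDualLin χ hχ f') := by
  apply LinearMap.ext
  intro f
  rw [Rep.dualTwist_ρ_apply]
  show pair χ hχ f ((M0 U : Rep.{0} k G).ρ h f') =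
    (χ h : k) * pair χ hχ ((M0 U : Rep.{0} k G).ρ h⁻¹ f) f'
  rw [← pair_ρ χ hχ h]
  congr 2
  rw [← Module.End.mul_apply, ← map_mul, mul_inv_cancel, map_one]
  rfl

/-- The equivalence of representations `coind_U^G k ≃ (coind_U^G k)^∨(χ)`. -/
noncomputable def dualTwistEquiv (hχ : ∀ u ∈ U, χ u = 1) :
    (M0 U : Rep.{0} k G).ρ.Equiv ((M0 U : Rep.{0} k G).ρ.dual.twist χ) :=
  Representation.Equiv.mk (LinearEquiv.ofBijective (toDualLin χ hχ) (toDualLin_bijective χ hχ))
    (fun h => LinearMap.ext fun f' => toDualLin_ρ χ hχ h f')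

/-- **Self-duality of the base module**: `coind_U^G k ≅ (coind_U^G k).dualTwist χ` when `χ` is
trivial on `U`. -/
noncomputable def dualTwistIso (hχ : ∀ u ∈ U, χ u = 1) :
    (M0 U : Rep.{0} k G) ≅ (M0 U : Rep.{0} k G).dualTwist χ :=
  Rep.mkIso (dualTwistEquiv χ hχ)

lemma dualTwistIso_hom_apply (f f' : (M0 U : Rep.{0} k G)) :
    ((dualTwistIso χ hχ).hom.hom f' : Module.Dual k (M0 U : Rep.{0} k G)) f = pair χ hχ f f' :=
  rfl

end Fermat.Agent.S55.Glue.CoindDual
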