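/-
S55 glue: the Tate twist `M*(1) = M.dualTwist (cycloChar p)`.

* Inertia above a prime `q ≠ p` fixes the `p`-th roots of unity; hence `ℚ(μ_p)` is unramified
  outside every `S ∋ p` and `cycloChar p` is trivial on inertia outside `S`.
* `M.dualTwist (cycloChar p)` again satisfies the hypotheses `hsm`, `hMur` of S55, and there is
  a common finite Galois level (unramified outside `S`, containing `μ_p`) acting trivially on
  `M`, on `M*(1)` and through which `cycloChar p` factors.
-/
import Mathlib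
import Fermat.Prelude.Def_GroupCohomology_ContinuousUnramified
import Fermat.Agent.Lib.InertiaBridge
import Fermat.Agent.Lib.ValFrac
import Fermat.Agent.S55.Glue.LevelGalois

set_option autoImplicit false

namespace Fermat.Agent.S55.Glue

open groupCohomology IntermediateField ExtCitation
open scoped Pointwise

local notation "Qb" => AlgebraicClosure ℚ
local notation "Gq" => (AlgebraicClosure ℚ ≃ₐ[ℚ] AlgebraicClosure ℚ)

section Roots

/-- Roots of unity are units of every valuation subring. -/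
theorem valuation_eq_one_of_pow_eq_one (A : ValuationSubring Qb) {ζ : Qb} {n : ℕ} (hn : n ≠ 0)
    (h : ζ ^ n = 1) : A.valuation ζ = 1 := by
  have h1 : A.valuation ζ ^ n = 1 := by rw [← map_pow, h, map_one]
  exact (pow_eq_one_iff.1 h1).resolve_right hn

/-- Inertia above a prime `q` fixes the `p`-th roots of unity for every prime `p ≠ q`. -/
theorem inertia_fixes_root_of_unity {p q : ℕ} (hp : p.Prime) (hq : q.Prime) (hpq : p ≠ q)
    (A : ValuationSubring Qb) (hA : A.LiesOverPrime q) {g : Gq}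
    (hg : g ∈ A.inertiaSubgroupIn ℚ) {ζ : Qb} (hζ : ζ ^ p = 1) : g ζ = ζ := by
  by_contra hne
  have hζ0 : ζ ≠ 0 := by
    rintro rfl
    rw [zero_pow hp.ne_zero] at hζ
    exact zero_ne_one hζ
  have hvζ : A.valuation ζ = 1 := valuation_eq_one_of_pow_eq_one A hp.ne_zero hζ
  have hζA : ζ ∈ A := (A.valuation_le_one_iff ζ).1 hvζ.le
  -- `η = g ζ / ζ` is a primitive `p`-th root of unity
  set η : Qb := g ζ * ζ⁻¹ with hη
  have hηp : η ^ p = 1 := by
    rw [hη, mul_pow, ← map_pow, hζ, map_one, inv_pow, hζ, inv_one, mul_one]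
  have hη1 : η ≠ 1 := by
    intro h1
    apply hne
    rw [hη] at h1
    field_simp at h1
    exact h1
  have hprim : IsPrimitiveRoot η p := by
    have : Fact p.Prime := ⟨hp⟩
    have := IsPrimitiveRoot.orderOf η
    rwa [orderOf_eq_prime hηp hη1] at this
  -- valuations
  have hvη : A.valuation η = 1 := valuation_eq_one_of_pow_eq_one A hp.ne_zero hηp
  have hmove := (Fermat.Agent.Lib.InertiaBridge.mem_inertiaSubgroupIn_iff A g).1 hg ζ hζA
  rw [ValuationSubring.mem_nonunits_iff] at hmove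
  have hfac : g ζ - ζ = ζ * (η - 1) := by
    rw [hη]; field_simp
  rw [hfac, map_mul, hvζ, one_mul] at hmove
  -- `p = ∏ (1 - η ^ (k + 1))`
  obtain ⟨m, rfl⟩ : ∃ m, p = m + 1 := ⟨p - 1, (Nat.succ_pred_eq_of_pos hp.pos).symm⟩
  have hprod := hprim.prod_one_sub_pow_eq_order
  have hm : m = (m - 1) + 1 := by
    have := hp.two_le
    omega
  rw [hm, Finset.prod_range_succ'] at hprod
  have hle : A.valuation (∏ k ∈ Finset.range (m - 1), (1 - η ^ (k + 1 + 1))) ≤ 1 := by
    rw [map_prod]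
    refine Finset.prod_le_one' (fun k _ => ?_)
    rw [A.valuation_le_one_iff]
    refine A.sub_mem A.one_mem (A.pow_mem ?_ _)
    exact (A.valuation_le_one_iff η).1 hvη.le
  have hvp : A.valuation (((m - 1 + 1 : ℕ) : Qb) + 1) < 1 := by
    rw [← hprod, map_mul]
    have h0 : A.valuation (1 - η ^ (0 + 1)) < 1 := by
      rw [zero_add, pow_one, ← neg_sub, Valuation.map_neg]
      exact hmove
    calc _ ≤ 1 * A.valuation (1 - η ^ (0 + 1)) := by gcongr
      _ < 1 := by rw [one_mul]; exact h0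
  have hvp1 : A.valuation (((m + 1 : ℕ) : ℤ) : Qb) = 1 := by
    refine Fermat.Agent.Lib.ValFrac.valuation_intCast_eq_one A q hq hA _ ?_
    intro hdvd
    have h2 : q ∣ m + 1 := by exact_mod_cast hdvd
    exact hpq ((Nat.prime_dvd_prime_iff_eq hq hp).1 h2).symm
  rw [← hm] at hvp
  have hcast : (((m + 1 : ℕ) : ℤ) : Qb) = ((m : ℕ) : Qb) + 1 := by push_cast; ring
  rw [hcast] at hvp1
  rw [hvp1] at hvp
  exact lt_irrefl _ hvp

end Roots

section Cyclo

local instance isAlgebraicQbar_dt : Algebra.IsAlgebraic ℚ (AlgebraicClosure ℚ) :=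
  AlgebraicClosure.isAlgebraic ℚ

/-- An automorphism fixes `ℚ(T)` pointwise iff it fixes `T` pointwise. -/
theorem mem_fixingSubgroup_adjoin_iff (T : Set Qb) (g : Gq) :
    g ∈ (IntermediateField.adjoin ℚ T).fixingSubgroup ↔ ∀ x ∈ T, g x = x := by
  constructor
  · intro h x hx
    exact (IntermediateField.mem_fixingSubgroup_iff _ g).1 h x
      (IntermediateField.subset_adjoin ℚ T hx)
  · intro h
    have h1 : Subgroup.zpowers g ≤ (IntermediateField.adjoin ℚ T).fixingSubgroup := by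
      rw [← IntermediateField.le_iff_le, IntermediateField.adjoin_le_iff]
      intro x hx
      rw [SetLike.mem_coe, IntermediateField.mem_fixedField_iff]
      intro f hf
      have h2 : Subgroup.zpowers g ≤ MulAction.stabilizer Gq x := by
        rw [Subgroup.zpowers_le, MulAction.mem_stabilizer_iff]
        exact h x hx
      exact MulAction.mem_stabilizer_iff.1 (h2 hf)
    exact h1 (Subgroup.mem_zpowers g)

/-- The field `ℚ(μ_p)` inside `AlgebraicClosure ℚ`. -/
noncomputable def cycloField (p : ℕ) : IntermediateField ℚ Qb :=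
  IntermediateField.adjoin ℚ {x : Qb | x ^ p = 1}

theorem mem_fixingSubgroup_cycloField_iff (p : ℕ) (g : Gq) :
    g ∈ (cycloField p).fixingSubgroup ↔ ∀ x : Qb, x ^ p = 1 → g x = x :=
  mem_fixingSubgroup_adjoin_iff _ g

theorem finiteDimensional_cycloField (p : ℕ) (hp : p ≠ 0) :
    FiniteDimensional ℚ (cycloField p) := by
  have hfin : ({x : Qb | x ^ p = 1} : Set Qb).Finite := by
    have h1 : {x : Qb | x ^ p = 1} ⊆ ((Polynomial.nthRootsFinset p (1 : Qb) : Finset Qb) : Set Qb) := by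
      intro x hx
      rw [Finset.mem_coe, Polynomial.mem_nthRootsFinset (Nat.pos_of_ne_zero hp)]
      exact hx
    exact (Finset.finite_toSet _).subset h1
  have : Finite ({x : Qb | x ^ p = 1} : Set Qb) := hfin
  exact IntermediateField.finiteDimensional_adjoin (fun x _ => Algebra.IsIntegral.isIntegral x)

/-- `ℚ(μ_p)` is unramified outside every set of primes containing `p`. -/
theorem isUnramifiedOutside_cycloField (p : ℕ) [Fact p.Prime] {S : Finset Nat.Primes}
    (hpS : pPrime p ∈ S) : (cycloField p).IsUnramifiedOutside S := by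
  have hp : p.Prime := Fact.out
  refine ⟨finiteDimensional_cycloField p hp.ne_zero, fun q hq A hA g hg => ?_⟩
  rw [mem_fixingSubgroup_cycloField_iff]
  intro x hx
  have hpq : p ≠ (q : ℕ) := by
    intro h
    apply hq
    have : q = pPrime p := Subtype.ext h.symm
    rw [this]; exact hpS
  exact inertia_fixes_root_of_unity hp q.2 hpq A hA hg hx

/-- The mod `p` cyclotomic character is trivial on `Gal(ℚ̄/ℚ(μ_p))`. -/
theorem cycloChar_eq_one_of_mem_fixingSubgroup (p : ℕ) [Fact p.Prime] {s : Gq}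
    (hs : s ∈ (cycloField p).fixingSubgroup) : cycloChar p s = 1 := by
  have : NeZero p := ⟨(Fact.out : p.Prime).ne_zero⟩
  rw [mem_fixingSubgroup_cycloField_iff] at hs
  have h1 : (1 : ZMod p) = modularCyclotomicCharacter Qb (card_rootsOfUnity_eq_self p)
      (s : Qb ≃+* Qb) := by
    refine modularCyclotomicCharacter.unique Qb (card_rootsOfUnity_eq_self p) _ (fun t ht => ?_)
    rw [ZMod.val_one, pow_one]
    have h2 : ((t : Qbˣ) : Qb) ^ p = 1 := by
      have := (mem_rootsOfUnity p t).1 ht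
      rw [← Units.val_pow_eq_pow_val, this, Units.val_one]
    exact hs _ h2
  apply Units.ext
  rw [Units.val_one]
  exact h1.symm

/-- The mod `p` cyclotomic character is trivial on inertia above `q ∉ S` when `p ∈ S`. -/
theorem cycloChar_eq_one_of_mem_inertia (p : ℕ) [Fact p.Prime] {S : Finset Nat.Primes}
    (hpS : pPrime p ∈ S) (q : Nat.Primes) (hq : q ∉ S) (A : ValuationSubring Qb)
    (hA : A.LiesOverPrime (q : ℕ)) {g : Gq} (hg : g ∈ A.inertiaSubgroupIn ℚ) :
    cycloChar p g = 1 :=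
  cycloChar_eq_one_of_mem_fixingSubgroup p ((isUnramifiedOutside_cycloField p hpS).2 q hq A hA hg)

end Cyclo

section Twist

/-- An element acting trivially on `M` with `χ g = 1` acts trivially on `M.dualTwist χ`. -/
theorem dualTwist_ρ_eq_one {k : Type} [CommRing k] (M : Rep.{0} k Gq) (χ : Gq →* kˣ) {g : Gq}
    (hg : M.ρ g = 1) (hχ : χ g = 1) : (M.dualTwist χ).ρ g = 1 := by
  have hinv : M.ρ g⁻¹ = 1 := by
    have h : M.ρ g⁻¹ * M.ρ g = 1 := by rw [← map_mul, inv_mul_cancel, map_one]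
    rwa [hg, mul_one] at h
  ext f : 1
  rw [Rep.dualTwist_ρ_apply, hχ, hinv]
  simp only [Units.val_one, one_smul]
  exact LinearMap.comp_id f

variable {S : Finset Nat.Primes}

/-- `M*(1)` is unramified outside `S` (hypothesis `hMur` of S55 for the twist). -/
theorem dualTwist_unramified (p : ℕ) [Fact p.Prime] (hpS : pPrime p ∈ S)
    (M : Rep.{0} (ZMod p) Gq)
    (hMur : ∀ q : Nat.Primes, q ∉ S → ∀ A : ValuationSubring Qb,
      A.LiesOverPrime (q : ℕ) → ∀ g ∈ A.inertiaSubgroupIn ℚ, M.ρ g = 1) :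
    ∀ q : Nat.Primes, q ∉ S → ∀ A : ValuationSubring Qb,
      A.LiesOverPrime (q : ℕ) → ∀ g ∈ A.inertiaSubgroupIn ℚ,
        (M.dualTwist (cycloChar p)).ρ g = 1 :=
  fun q hq A hA g hg => dualTwist_ρ_eq_one M _ (hMur q hq A hA g hg)
    (cycloChar_eq_one_of_mem_inertia p hpS q hq A hA hg)

/-- **Common level.**  Under the hypotheses of S55 there is a finite Galois extension `F₁` of
`ℚ`, unramified outside `S`, containing `μ_p`, whose fixing subgroup acts trivially on `M` and
on `M*(1)` and on which `cycloChar p` is trivial. -/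
theorem exists_common_level (p : ℕ) [Fact p.Prime] (hpS : pPrime p ∈ S)
    (M : Rep.{0} (ZMod p) Gq) [FiniteDimensional (ZMod p) M]
    (hsm : ∀ m : M, ∃ F : IntermediateField ℚ Qb, FiniteDimensional ℚ F ∧
      ∀ s ∈ F.fixingSubgroup, M.ρ s m = m)
    (hMur : ∀ q : Nat.Primes, q ∉ S → ∀ A : ValuationSubring Qb,
      A.LiesOverPrime (q : ℕ) → ∀ g ∈ A.inertiaSubgroupIn ℚ, M.ρ g = 1) :
    ∃ F₁ : IntermediateField ℚ Qb, F₁.IsUnramifiedOutside S ∧ Normal ℚ F₁ ∧
      cycloField p ≤ F₁ ∧ (∀ s ∈ F₁.fixingSubgroup, M.ρ s = 1) ∧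
      (∀ s ∈ F₁.fixingSubgroup, cycloChar p s = 1) ∧
      (∀ s ∈ F₁.fixingSubgroup, (M.dualTwist (cycloChar p)).ρ s = 1) := by
  obtain ⟨F₀, hF₀, -, hF₀triv⟩ := exists_isUnramifiedOutside_acts_trivially M hsm hMur
  obtain ⟨F₁, h0, hc, hF₁, hn⟩ :=
    exists_normal_isUnramifiedOutside hF₀ (isUnramifiedOutside_cycloField p hpS)
  have hM : ∀ s ∈ F₁.fixingSubgroup, M.ρ s = 1 := fun s hs =>
    hF₀triv s (IntermediateField.fixingSubgroup_antitone h0 hs)
  have hχ : ∀ s ∈ F₁.fixingSubgroup, cycloChar p s = 1 := fun s hs =>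
    cycloChar_eq_one_of_mem_fixingSubgroup p (IntermediateField.fixingSubgroup_antitone hc hs)
  exact ⟨F₁, hF₁, hn, hc, hM, hχ, fun s hs => dualTwist_ρ_eq_one M _ (hM s hs) (hχ s hs)⟩

/-- `M*(1)` is smooth (hypothesis `hsm` of S55 for the twist). -/
theorem dualTwist_smooth (p : ℕ) [Fact p.Prime] (hpS : pPrime p ∈ S)
    (M : Rep.{0} (ZMod p) Gq) [FiniteDimensional (ZMod p) M]
    (hsm : ∀ m : M, ∃ F : IntermediateField ℚ Qb, FiniteDimensional ℚ F ∧
      ∀ s ∈ F.fixingSubgroup, M.ρ s m = m)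
    (hMur : ∀ q : Nat.Primes, q ∉ S → ∀ A : ValuationSubring Qb,
      A.LiesOverPrime (q : ℕ) → ∀ g ∈ A.inertiaSubgroupIn ℚ, M.ρ g = 1) :
    ∀ f : M.dualTwist (cycloChar p), ∃ F : IntermediateField ℚ Qb, FiniteDimensional ℚ F ∧
      ∀ s ∈ F.fixingSubgroup, (M.dualTwist (cycloChar p)).ρ s f = f := by
  obtain ⟨F₁, hF₁, -, -, -, -, h⟩ := exists_common_level p hpS M hsm hMur
  intro f
  refine ⟨F₁, hF₁.1, fun s hs => ?_⟩
  rw [h s hs]
  rfl

end Twist

end Fermat.Agent.S55.Glue
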