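/-
S55 glue, brick [G-loc] (helper96): the local continuity notion used by the frozen statement
(`IsLevelConstant₁/₂ (localGaloisToGlobal q)`: cochains on `Gal(Q̄_q/ℚ_q)` constant modulo the
preimage of `Fix(F)`, `F/ℚ` finite) is the intrinsic one (constant modulo `Fix(E)`, `E/ℚ_q`
finite).  Only Mathlib + Prelude are used.

Main statements
* `localLevelField q F`           : the field `ℚ_q(ι F)`, `ι = padicEmbedding q`;
* `mem_fixingSubgroup_localLevelField_iff` : `τ ∈ Fix(ℚ_q(ι F)) ↔ localGaloisToGlobal q τ ∈ Fix(F)`;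
* `finiteDimensional_localLevelField`      : `ℚ_q(ι F)/ℚ_q` is finite if `F/ℚ` is;
* `exists_le_localLevelField`     : (Krasner) every finite `E/ℚ_q` lies in some `ℚ_q(ι F)`;
* `exists_normal_le_localLevelField`       : the same with `F/ℚ` Galois;
* `isLevelConstant₁_localGaloisToGlobal_iff`, `isLevelConstant₂_localGaloisToGlobal_iff`;
* `localGaloisToGlobal_injective`.
-/
import Mathlib
import Fermat.Prelude.Def_GroupCohomology_ContinuousUnramified

set_option autoImplicit false

open Polynomial IntermediateField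

namespace Fermat.Agent.S55.Glue

noncomputable section

/-- An automorphism fixing a set pointwise fixes the intermediate field it generates. -/
theorem algEquiv_apply_eq_of_mem_adjoin {K L : Type*} [Field K] [Field L] [Algebra K L]
    (τ : L ≃ₐ[K] L) (T : Set L) (h : ∀ y ∈ T, τ y = y) {y : L}
    (hy : y ∈ IntermediateField.adjoin K T) : τ y = y := by
  have hle : IntermediateField.adjoin K T ≤ IntermediateField.fixedField (Subgroup.zpowers τ) := by
    rw [IntermediateField.adjoin_le_iff]
    intro z hz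
    rw [SetLike.mem_coe, IntermediateField.mem_fixedField_iff]
    intro σ hσ
    have hst : Subgroup.zpowers τ ≤ MulAction.stabilizer (L ≃ₐ[K] L) z := by
      rw [Subgroup.zpowers_le, MulAction.mem_stabilizer_iff]
      exact h z hz
    exact MulAction.mem_stabilizer_iff.1 (hst hσ)
  exact (IntermediateField.mem_fixedField_iff _ _).1 (hle hy) τ (Subgroup.mem_zpowers τ)

local instance isAlgebraicQbar_ll : Algebra.IsAlgebraic ℚ (AlgebraicClosure ℚ) :=
  AlgebraicClosure.isAlgebraic ℚ
local instance isAlgClosureQbar_ll : IsAlgClosure ℚ (AlgebraicClosure ℚ) :=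
  ⟨inferInstance, inferInstance⟩
local instance normalQbar_ll : Normal ℚ (AlgebraicClosure ℚ) :=
  IsAlgClosure.normal ℚ (AlgebraicClosure ℚ)

variable (q : ℕ) [Fact q.Prime]

/-- Every element of `PadicAlgCl q` algebraic over `ℚ` lies in the image of `padicEmbedding q`. -/
theorem exists_padicEmbedding_eq_of_isAlgebraic {β : PadicAlgCl q} (hβ : IsAlgebraic ℚ β) :
    ∃ b : AlgebraicClosure ℚ, padicEmbedding q b = β := by
  have hint : IsIntegral ℚ β := hβ.isIntegral
  have hsp : ((minpoly ℚ β).map (algebraMap ℚ (AlgebraicClosure ℚ))).Splits :=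
    IsAlgClosed.splits _
  have himg := Polynomial.Splits.image_rootSet hsp (padicEmbedding q)
  have hmem : β ∈ (minpoly ℚ β).rootSet (PadicAlgCl q) := by
    rw [Polynomial.mem_rootSet]
    exact ⟨minpoly.ne_zero hint, minpoly.aeval ℚ β⟩
  rw [← himg] at hmem
  obtain ⟨b, _, hb⟩ := hmem
  exact ⟨b, hb⟩

/-- Krasner approximation: every element of `PadicAlgCl q` lies in `ℚ_q(β)` for some `β`
algebraic over `ℚ`. -/
theorem exists_isAlgebraic_rat_mem_adjoin (α : PadicAlgCl q) :
    ∃ β : PadicAlgCl q, IsAlgebraic ℚ β ∧ α ∈ ℚ_[q]⟮β⟯ := by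
  classical
  have hαint : IsIntegral ℚ_[q] α := Algebra.IsIntegral.isIntegral α
  set f : ℚ_[q][X] := minpoly ℚ_[q] α with hf
  have fmon : f.Monic := minpoly.monic hαint
  have fa0 : f.aeval α = 0 := minpoly.aeval _ _
  have firr : Irreducible f := minpoly.irreducible hαint
  have fnatdeg0 : f.natDegree ≠ 0 := (Irreducible.natDegree_pos firr).ne'
  let S : Finset (PadicAlgCl q) := {x ∈ (f.rootSet (PadicAlgCl q)).toFinset | x ≠ α}
  let δ : ℝ := if hS : S.Nonempty then Finset.min' (S.image fun x => ‖α - x‖)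
      (Finset.image_nonempty.mpr hS) else 1
  have norm_sub_le : ∀ a' : PadicAlgCl q, IsConjRoot ℚ_[q] α a' → α ≠ a' → δ ≤ ‖α - a'‖ := by
    intro a' conj ne
    by_cases hS : S.Nonempty <;> simp only [hS, ↓reduceDIte, δ]
    · apply Finset.min'_le (S.image fun x => ‖α - x‖) (‖α - a'‖)
      apply Finset.mem_image_of_mem
      simp only [Finset.mem_filter, Set.mem_toFinset, S]
      rw [hf, ← (isConjRoot_iff_mem_minpoly_rootSet hαint)]
      exact ⟨conj, ne.symm⟩
    · simp only [ne_eq, Finset.not_nonempty_iff_eq_empty, Finset.filter_eq_empty_iff,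
        Set.mem_toFinset, not_not, S] at hS
      rw [isConjRoot_iff_mem_minpoly_rootSet hαint] at conj
      exact (ne (hS conj).symm).elim
  have δpos : δ > 0 := by
    by_cases hS : S.Nonempty <;> simp only [hS, ↓reduceDIte, δ]
    · simp only [gt_iff_lt, Finset.lt_min'_iff, Finset.mem_image, forall_exists_index, and_imp,
        forall_apply_eq_imp_iff₂]
      rintro a' ha'
      simp only [Finset.mem_filter, Set.mem_toFinset, S] at ha'
      rw [norm_pos_iff, sub_ne_zero]
      exact ha'.2.symm
    · linarith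
  have hε : (δ / (max ‖α‖ 1)) ^ f.natDegree / (f.natDegree + 1) > 0 := by positivity
  have hdense : DenseRange (algebraMap ℚ ℚ_[q]) := by
    have := Padic.denseRange_ratCast q
    convert this using 1
    ext x
    simp
  obtain ⟨g, gmon, gdeg, gcoeff⟩ :=
    exists_monic_and_natDegree_eq_and_norm_map_algebraMap_coeff_sub_lt hdense fmon hε
  obtain ⟨b, hb, hab⟩ := exists_aroots_norm_sub_lt_of_norm_coeff_sub_lt (L := PadicAlgCl q)
      hε fa0 fmon (gmon.map _) (gdeg ▸ (g.natDegree_map _)) gcoeff
      (IsAlgClosed.splits _)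
  have hab : ‖α - b‖ < δ := by
    rw [← Real.rpow_natCast, ← mul_comm_div, div_self, one_mul,
        ← Real.rpow_mul (div_pos δpos (by positivity)).le, mul_inv_cancel₀] at hab
    · simpa [mul_assoc, div_mul_cancel₀ _ (by positivity : (max ‖α‖ 1) > 0).ne'] using hab
    · simp [fnatdeg0]
    · positivity
  simp only [Polynomial.mem_roots', ne_eq, Polynomial.map_eq_zero, Polynomial.IsRoot.def,
    Polynomial.eval_map_algebraMap] at hb
  refine ⟨b, ?_, ?_⟩
  · refine ⟨g, gmon.ne_zero, ?_⟩
    have h2 := hb.2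
    rw [Polynomial.aeval_map_algebraMap] at h2
    exact h2
  · exact IsKrasner.krasner (minpoly.irreducible hαint).separable
        (IsAlgClosed.splits _) ⟨(g.map _), gmon.map _, hb.2⟩
        fun a' h1 h2 ↦ lt_of_lt_of_le hab (norm_sub_le a' h1 h2)

/-- Every element of `PadicAlgCl q` lies in `ℚ_q(ι b)` for some `b ∈ Q̄`. -/
theorem exists_mem_adjoin_padicEmbedding (α : PadicAlgCl q) :
    ∃ b : AlgebraicClosure ℚ, α ∈ ℚ_[q]⟮padicEmbedding q b⟯ := by
  obtain ⟨β, hβalg, hβ⟩ := exists_isAlgebraic_rat_mem_adjoin q α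
  obtain ⟨b, rfl⟩ := exists_padicEmbedding_eq_of_isAlgebraic q hβalg
  exact ⟨b, hβ⟩

/-- The finite extension `ℚ_q(ι F)` of `ℚ_q` generated by the image of `F ⊆ Q̄`. -/
def localLevelField (F : IntermediateField ℚ (AlgebraicClosure ℚ)) :
    IntermediateField ℚ_[q] (PadicAlgCl q) :=
  IntermediateField.adjoin ℚ_[q] (padicEmbedding q '' (F : Set (AlgebraicClosure ℚ)))

variable {q} in
theorem padicEmbedding_mem_localLevelField {F : IntermediateField ℚ (AlgebraicClosure ℚ)}
    {x : AlgebraicClosure ℚ} (hx : x ∈ F) : padicEmbedding q x ∈ localLevelField q F :=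
  IntermediateField.subset_adjoin _ _ ⟨x, hx, rfl⟩

variable {q} in
theorem localLevelField_mono {F F' : IntermediateField ℚ (AlgebraicClosure ℚ)} (h : F ≤ F') :
    localLevelField q F ≤ localLevelField q F' :=
  IntermediateField.adjoin.mono _ _ _ (Set.image_mono h)

/-- **(L1)** `r⁻¹(Fix F) = Fix(ℚ_q(ι F))`. -/
theorem mem_fixingSubgroup_localLevelField_iff (F : IntermediateField ℚ (AlgebraicClosure ℚ))
    (τ : PadicAlgCl q ≃ₐ[ℚ_[q]] PadicAlgCl q) :
    τ ∈ (localLevelField q F).fixingSubgroup ↔ localGaloisToGlobal q τ ∈ F.fixingSubgroup := by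
  rw [IntermediateField.mem_fixingSubgroup_iff, IntermediateField.mem_fixingSubgroup_iff]
  constructor
  · intro h x hx
    have hinj : Function.Injective (padicEmbedding q) := (padicEmbedding q).toRingHom.injective
    apply hinj
    rw [padicEmbedding_localGaloisToGlobal]
    exact h _ (padicEmbedding_mem_localLevelField hx)
  · intro h y hy
    refine algEquiv_apply_eq_of_mem_adjoin τ _ ?_ hy
    rintro _ ⟨x, hx, rfl⟩
    rw [← padicEmbedding_localGaloisToGlobal, h x hx]

theorem comap_fixingSubgroup_eq (F : IntermediateField ℚ (AlgebraicClosure ℚ)) :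
    F.fixingSubgroup.comap (localGaloisToGlobal q) = (localLevelField q F).fixingSubgroup := by
  ext τ
  rw [Subgroup.mem_comap, mem_fixingSubgroup_localLevelField_iff]

theorem padicEmbedding_rat_smul (c : ℚ) (x : AlgebraicClosure ℚ) :
    padicEmbedding q (c • x) =
      algebraMap ℚ_[q] (PadicAlgCl q) (algebraMap ℚ ℚ_[q] c) * padicEmbedding q x := by
  rw [Algebra.smul_def, map_mul, AlgHom.commutes]
  congr 1

/-- **(L1')** `ℚ_q(ι F)/ℚ_q` is finite when `F/ℚ` is. -/
theorem finiteDimensional_localLevelField (F : IntermediateField ℚ (AlgebraicClosure ℚ))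
    [FiniteDimensional ℚ F] : FiniteDimensional ℚ_[q] (localLevelField q F) := by
  classical
  let b := Module.finBasis ℚ F
  let T : Set (PadicAlgCl q) := Set.range fun i => padicEmbedding q (b i : AlgebraicClosure ℚ)
  have hT : localLevelField q F = IntermediateField.adjoin ℚ_[q] T := by
    apply le_antisymm
    · rw [localLevelField, IntermediateField.adjoin_le_iff]
      rintro _ ⟨x, hx, rfl⟩
      have hx' : (⟨x, hx⟩ : F) = ∑ i, (b.repr ⟨x, hx⟩ i) • b i := (b.sum_repr _).symm
      have hx'' : x = ∑ i, (b.repr ⟨x, hx⟩ i) • (b i : AlgebraicClosure ℚ) := by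
        have h3 := congrArg (Subtype.val) hx'
        simp only [IntermediateField.coe_sum, IntermediateField.coe_smul] at h3
        exact h3
      rw [hx'', map_sum]
      refine sum_mem fun i _ => ?_
      rw [padicEmbedding_rat_smul]
      exact mul_mem (IntermediateField.algebraMap_mem _ _)
        (IntermediateField.subset_adjoin _ _ ⟨i, rfl⟩)
    · rw [IntermediateField.adjoin_le_iff]
      rintro _ ⟨i, rfl⟩
      exact padicEmbedding_mem_localLevelField (b i).2
  rw [hT]
  have : Finite T := Set.finite_range _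
  exact IntermediateField.finiteDimensional_adjoin
    (fun x _ => Algebra.IsIntegral.isIntegral x)

/-- **(L2)** Krasner: every finite extension of `ℚ_q` inside `PadicAlgCl q` is contained in
`ℚ_q(ι F)` for a finite extension `F/ℚ`. -/
theorem exists_le_localLevelField (E : IntermediateField ℚ_[q] (PadicAlgCl q))
    [FiniteDimensional ℚ_[q] E] :
    ∃ F : IntermediateField ℚ (AlgebraicClosure ℚ), FiniteDimensional ℚ F ∧
      E ≤ localLevelField q F := by
  obtain ⟨α, hα⟩ := Field.exists_primitive_element ℚ_[q] E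
  obtain ⟨b, hb⟩ := exists_mem_adjoin_padicEmbedding q (α : PadicAlgCl q)
  refine ⟨ℚ⟮b⟯, ?_, ?_⟩
  · exact IntermediateField.adjoin.finiteDimensional (Algebra.IsIntegral.isIntegral b)
  · have hE : E = ℚ_[q]⟮(α : PadicAlgCl q)⟯ := by
      have h1 := congrArg (IntermediateField.map E.val) hα
      rw [IntermediateField.adjoin_map, ← AlgHom.fieldRange_eq_map,
        IntermediateField.fieldRange_val] at h1
      simpa using h1.symm
    rw [hE, IntermediateField.adjoin_simple_le_iff]
    have h2 : ℚ_[q]⟮padicEmbedding q b⟯ ≤ localLevelField q ℚ⟮b⟯ := by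
      rw [IntermediateField.adjoin_simple_le_iff]
      exact padicEmbedding_mem_localLevelField (IntermediateField.mem_adjoin_simple_self ℚ b)
    exact h2 hb

/-- **(L2')** Krasner with a Galois level. -/
theorem exists_normal_le_localLevelField (E : IntermediateField ℚ_[q] (PadicAlgCl q))
    [FiniteDimensional ℚ_[q] E] :
    ∃ F : IntermediateField ℚ (AlgebraicClosure ℚ), FiniteDimensional ℚ F ∧ Normal ℚ F ∧
      E ≤ localLevelField q F := by
  obtain ⟨F, hF, hEF⟩ := exists_le_localLevelField q E
  have := hF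
  refine ⟨IntermediateField.normalClosure ℚ F (AlgebraicClosure ℚ), inferInstance,
    normalClosure.normal ℚ F (AlgebraicClosure ℚ),
    hEF.trans (localLevelField_mono (IntermediateField.le_normalClosure F))⟩

/-- **(L3)** degree 1: level-constancy for `localGaloisToGlobal q` is intrinsic. -/
theorem isLevelConstant₁_localGaloisToGlobal_iff {X : Type*}
    (f : (PadicAlgCl q ≃ₐ[ℚ_[q]] PadicAlgCl q) → X) :
    groupCohomology.IsLevelConstant₁ (localGaloisToGlobal q) f ↔
      ∃ E : IntermediateField ℚ_[q] (PadicAlgCl q), FiniteDimensional ℚ_[q] E ∧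
        ∀ g s, s ∈ E.fixingSubgroup → f (g * s) = f g := by
  constructor
  · rintro ⟨F, hF, h⟩
    have := hF
    exact ⟨localLevelField q F, finiteDimensional_localLevelField q F, fun g s hs =>
      h g s ((mem_fixingSubgroup_localLevelField_iff q F s).1 hs)⟩
  · rintro ⟨E, hE, h⟩
    have := hE
    obtain ⟨F, hF, hEF⟩ := exists_le_localLevelField q E
    exact ⟨F, hF, fun g s hs => h g s (IntermediateField.fixingSubgroup_antitone hEF
      ((mem_fixingSubgroup_localLevelField_iff q F s).2 hs))⟩

/-- **(L3)** degree 2: level-constancy for `localGaloisToGlobal q` is intrinsic. -/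
theorem isLevelConstant₂_localGaloisToGlobal_iff {X : Type*}
    (f : (PadicAlgCl q ≃ₐ[ℚ_[q]] PadicAlgCl q) × (PadicAlgCl q ≃ₐ[ℚ_[q]] PadicAlgCl q) → X) :
    groupCohomology.IsLevelConstant₂ (localGaloisToGlobal q) f ↔
      ∃ E : IntermediateField ℚ_[q] (PadicAlgCl q), FiniteDimensional ℚ_[q] E ∧
        ∀ g g' s s', s ∈ E.fixingSubgroup → s' ∈ E.fixingSubgroup →
          f (g * s, g' * s') = f (g, g') := by
  constructor
  · rintro ⟨F, hF, h⟩
    have := hF
    exact ⟨localLevelField q F, finiteDimensional_localLevelField q F, fun g g' s s' hs hs' =>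
      h g g' s s' ((mem_fixingSubgroup_localLevelField_iff q F s).1 hs)
        ((mem_fixingSubgroup_localLevelField_iff q F s').1 hs')⟩
  · rintro ⟨E, hE, h⟩
    have := hE
    obtain ⟨F, hF, hEF⟩ := exists_le_localLevelField q E
    exact ⟨F, hF, fun g g' s s' hs hs' => h g g' s s'
      (IntermediateField.fixingSubgroup_antitone hEF
        ((mem_fixingSubgroup_localLevelField_iff q F s).2 hs))
      (IntermediateField.fixingSubgroup_antitone hEF
        ((mem_fixingSubgroup_localLevelField_iff q F s').2 hs'))⟩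

/-- **(L4)** the restriction map `Gal(Q̄_q/ℚ_q) → Gal(Q̄/ℚ)` is injective. -/
theorem localGaloisToGlobal_injective : Function.Injective (localGaloisToGlobal q) := by
  rw [injective_iff_map_eq_one]
  intro τ hτ
  ext α
  obtain ⟨b, hb⟩ := exists_mem_adjoin_padicEmbedding q α
  refine algEquiv_apply_eq_of_mem_adjoin τ {padicEmbedding q b} ?_ hb
  intro y hy
  rw [Set.mem_singleton_iff] at hy
  subst hy
  rw [← padicEmbedding_localGaloisToGlobal, hτ]
  rfl

end

end Fermat.Agent.S55.Glue
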