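import Mathlib
import Fermat.Prelude.Def_ExtEndgame_ProductionDatum
import Fermat.Prelude.Def_GroupCohomology_ContinuousUnramified

set_option autoImplicit false

/-!
# S55 glue: the image of the local Galois group at a finite prime

`localGaloisToGlobal q : Gal(PadicAlgCl q / ℚ_[q]) →* Gal(ℚ̄/ℚ)` has range
* the fixing subgroup of the "henselisation field" `henselField q = {x ∈ ℚ̄ | ι x ∈ ℚ_[q]}`;
* equivalently the decomposition subgroup of `padicPlace q`.
-/

noncomputable section

namespace Fermat.Agent.S55.Glue.LocalRange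

open scoped NNReal Pointwise
open CategoryTheory groupCohomology ExtCitation

local instance isAlgebraicQbar_lr : Algebra.IsAlgebraic ℚ (AlgebraicClosure ℚ) :=
  AlgebraicClosure.isAlgebraic ℚ
local instance isAlgClosureQbar_lr : IsAlgClosure ℚ (AlgebraicClosure ℚ) :=
  ⟨inferInstance, inferInstance⟩
local instance normalQbar_lr : Normal ℚ (AlgebraicClosure ℚ) :=
  IsAlgClosure.normal ℚ (AlgebraicClosure ℚ)

variable (q : ℕ) [Fact q.Prime]

local instance instTowerQqPadic_lr : IsScalarTower ℚ ℚ_[q] (PadicAlgCl q) :=
  IsScalarTower.of_algebraMap_eq' (Subsingleton.elim _ _)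

/-- The henselisation field at `q`: the elements of `ℚ̄` that the fixed `q`-adic embedding
sends into `ℚ_[q]`. -/
def henselField : IntermediateField ℚ (AlgebraicClosure ℚ) :=
  IntermediateField.comap (padicEmbedding q)
    ((⊥ : IntermediateField ℚ_[q] (PadicAlgCl q)).restrictScalars ℚ)

lemma mem_henselField_iff (x : AlgebraicClosure ℚ) :
    x ∈ henselField q ↔ padicEmbedding q x ∈ Set.range (algebraMap ℚ_[q] (PadicAlgCl q)) := by
  change padicEmbedding q x ∈ (⊥ : IntermediateField ℚ_[q] (PadicAlgCl q)) ↔ _
  rw [IntermediateField.mem_bot]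

/-- An automorphism fixing a set pointwise fixes the generated intermediate field. -/
lemma mem_fixingSubgroup_adjoin_of_forall {K L : Type*} [Field K] [Field L] [Algebra K L]
    (σ : L ≃ₐ[K] L) (t : Set L) (h : ∀ x ∈ t, σ x = x) :
    σ ∈ (IntermediateField.adjoin K t).fixingSubgroup := by
  rw [IntermediateField.mem_fixingSubgroup_iff]
  intro x hx
  induction hx using IntermediateField.adjoin_induction with
  | mem x hx => exact h x hx
  | algebraMap x => exact σ.commutes x
  | add x y _ _ hx hy => rw [map_add, hx, hy]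
  | inv x _ hx => rw [map_inv₀, hx]
  | mul x y _ _ hx hy => rw [map_mul, hx, hy]

/-- The localisation map is continuous for the Krull topologies. -/
lemma continuous_localGaloisToGlobal : Continuous (localGaloisToGlobal q) := by
  apply continuous_of_continuousAt_one
  rw [ContinuousAt, map_one]
  intro U hU
  rw [krullTopology_mem_nhds_one_iff] at hU
  obtain ⟨F, hF, hFU⟩ := hU
  rw [Filter.mem_map, krullTopology_mem_nhds_one_iff]
  have hFG : F.FG := by
    apply IntermediateField.fg_of_fg_toSubalgebra
    apply Subalgebra.fg_of_fg_toSubmodule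
    exact (Module.Finite.iff_fg).1 hF
  obtain ⟨t, ht, rfl⟩ := IntermediateField.fg_def.1 hFG
  have htf : Finite (padicEmbedding q '' t) := (ht.image _).to_subtype
  refine ⟨IntermediateField.adjoin ℚ_[q] (padicEmbedding q '' t),
    IntermediateField.finiteDimensional_adjoin
      (fun x _ => Algebra.IsIntegral.isIntegral x), ?_⟩
  intro τ hτ
  apply hFU
  apply mem_fixingSubgroup_adjoin_of_forall
  intro x hx
  apply (padicEmbedding q).toRingHom.injective
  change padicEmbedding q (localGaloisToGlobal q τ x) = padicEmbedding q x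
  rw [padicEmbedding_localGaloisToGlobal]
  exact (IntermediateField.mem_fixingSubgroup_iff _ _).1 hτ _
    (IntermediateField.subset_adjoin _ _ ⟨x, hx, rfl⟩)

/-- The fixed field of the image of the local Galois group is the henselisation field. -/
lemma fixedField_range_localGaloisToGlobal :
    IntermediateField.fixedField (localGaloisToGlobal q).range = henselField q := by
  ext x
  rw [IntermediateField.mem_fixedField_iff, mem_henselField_iff,
    InfiniteGalois.mem_range_algebraMap_iff_fixed]
  constructor
  · intro h τ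
    rw [← padicEmbedding_localGaloisToGlobal]
    exact congrArg _ (h _ ⟨τ, rfl⟩)
  · rintro h _ ⟨τ, rfl⟩
    apply (padicEmbedding q).toRingHom.injective
    change padicEmbedding q (localGaloisToGlobal q τ x) = padicEmbedding q x
    rw [padicEmbedding_localGaloisToGlobal]
    exact h τ

/-- The image of the local Galois group is closed. -/
lemma isClosed_range_localGaloisToGlobal :
    IsClosed ((localGaloisToGlobal q).range :
      Set (AlgebraicClosure ℚ ≃ₐ[ℚ] AlgebraicClosure ℚ)) := by
  rw [MonoidHom.coe_range]
  exact (isCompact_range (continuous_localGaloisToGlobal q)).isClosed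

/-- **(a)** The image of the local Galois group at `q` is the fixing subgroup of the
henselisation field. -/
theorem range_localGaloisToGlobal :
    (localGaloisToGlobal q).range = (henselField q).fixingSubgroup := by
  have h := InfiniteGalois.fixingSubgroup_fixedField
    (⟨(localGaloisToGlobal q).range, isClosed_range_localGaloisToGlobal q⟩ :
      ClosedSubgroup (AlgebraicClosure ℚ ≃ₐ[ℚ] AlgebraicClosure ℚ))
  rw [← fixedField_range_localGaloisToGlobal]
  exact h.symm

/-! ### The decomposition subgroup -/

lemma mem_padicPlace_iff_of_mem_decompositionSubgroup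
    {σ : AlgebraicClosure ℚ ≃ₐ[ℚ] AlgebraicClosure ℚ}
    (hσ : σ ∈ (padicPlace q).decompositionSubgroup ℚ) (y : AlgebraicClosure ℚ) :
    σ y ∈ padicPlace q ↔ y ∈ padicPlace q := by
  have h : σ • padicPlace q = padicPlace q := MulAction.mem_stabilizer_iff.1 hσ
  conv_lhs => rw [← h]
  rw [ValuationSubring.mem_pointwise_smul_iff_inv_smul_mem, AlgEquiv.smul_def]
  simp

lemma norm_padicEmbedding_natCast_self :
    ‖padicEmbedding q (q : AlgebraicClosure ℚ)‖ = (q : ℝ)⁻¹ := by
  rw [map_natCast, ← map_natCast (algebraMap ℚ_[q] (PadicAlgCl q)), PadicAlgCl.norm_extends,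
    Padic.norm_p]

/-- Auxiliary inequality: an element of the decomposition group does not increase the norm. -/
lemma norm_padicEmbedding_le_of_mem_decompositionSubgroup
    {σ : AlgebraicClosure ℚ ≃ₐ[ℚ] AlgebraicClosure ℚ}
    (hσ : σ ∈ (padicPlace q).decompositionSubgroup ℚ) (x : AlgebraicClosure ℚ) :
    ‖padicEmbedding q (σ x)‖ ≤ ‖padicEmbedding q x‖ := by
  by_cases hx : x = 0
  · simp [hx]
  by_contra hlt
  rw [not_le] at hlt
  set a := ‖padicEmbedding q x‖ with ha
  set b := ‖padicEmbedding q (σ x)‖ with hb
  have ha0 : 0 < a := by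
    rw [ha, norm_pos_iff]
    exact (map_ne_zero_iff _ (padicEmbedding q).toRingHom.injective).2 hx
  have hq1 : (1 : ℝ) < q := by exact_mod_cast (Fact.out : q.Prime).one_lt
  have hq0 : (0 : ℝ) < q := by linarith
  obtain ⟨n, hn⟩ := pow_unbounded_of_one_lt (q : ℝ) ((one_lt_div ha0).2 hlt)
  rw [div_pow, lt_div_iff₀ (pow_pos ha0 n)] at hn
  obtain ⟨k, hk1, hk2⟩ := exists_mem_Ioc_zpow (pow_pos ha0 n) hq1
  set y : AlgebraicClosure ℚ := x ^ n * (q : AlgebraicClosure ℚ) ^ (k + 1) with hy
  have hqk : (0 : ℝ) < (q : ℝ) ^ (k + 1) := zpow_pos hq0 _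
  have h1 : ‖padicEmbedding q y‖ = a ^ n / (q : ℝ) ^ (k + 1) := by
    rw [hy, map_mul, map_pow, map_zpow₀, norm_mul, norm_pow, norm_zpow,
      norm_padicEmbedding_natCast_self, inv_zpow, ← ha, div_eq_mul_inv]
  have h2 : ‖padicEmbedding q (σ y)‖ = b ^ n / (q : ℝ) ^ (k + 1) := by
    rw [hy, map_mul, map_pow, map_zpow₀, map_natCast, map_mul, map_pow, map_zpow₀, norm_mul,
      norm_pow, norm_zpow, norm_padicEmbedding_natCast_self, inv_zpow, ← hb, div_eq_mul_inv]
  have hyA : y ∈ padicPlace q := by
    rw [mem_padicPlace_iff, ← NNReal.coe_le_coe, coe_nnnorm, h1, NNReal.coe_one,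
      div_le_one hqk]
    exact hk2
  have hσyA : σ y ∉ padicPlace q := by
    rw [mem_padicPlace_iff, ← NNReal.coe_le_coe, coe_nnnorm, h2, NNReal.coe_one,
      div_le_one hqk, not_le]
    calc (q : ℝ) ^ (k + 1) = q * (q : ℝ) ^ k := by rw [zpow_add_one₀ hq0.ne', mul_comm]
      _ < q * a ^ n := by gcongr
      _ < b ^ n := hn
  exact hσyA ((mem_padicPlace_iff_of_mem_decompositionSubgroup q hσ y).2 hyA)

/-- Elements of the decomposition group are isometries for the `q`-adic norm on `ℚ̄`. -/
lemma norm_padicEmbedding_of_mem_decompositionSubgroup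
    {σ : AlgebraicClosure ℚ ≃ₐ[ℚ] AlgebraicClosure ℚ}
    (hσ : σ ∈ (padicPlace q).decompositionSubgroup ℚ) (x : AlgebraicClosure ℚ) :
    ‖padicEmbedding q (σ x)‖ = ‖padicEmbedding q x‖ := by
  refine le_antisymm (norm_padicEmbedding_le_of_mem_decompositionSubgroup q hσ x) ?_
  have h := norm_padicEmbedding_le_of_mem_decompositionSubgroup q
    (inv_mem hσ) (σ x)
  simpa using h

/-- The decomposition group fixes the henselisation field pointwise. -/
theorem decompositionSubgroup_le_fixingSubgroup_henselField :
    (padicPlace q).decompositionSubgroup ℚ ≤ (henselField q).fixingSubgroup := by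
  intro σ hσ
  rw [IntermediateField.mem_fixingSubgroup_iff]
  intro x hx
  obtain ⟨y, hy⟩ := (mem_henselField_iff q x).1 hx
  apply (padicEmbedding q).toRingHom.injective
  change padicEmbedding q (σ x) = padicEmbedding q x
  rw [← sub_eq_zero, ← norm_le_zero_iff]
  apply le_of_forall_pos_lt_add
  intro ε hε
  obtain ⟨r, hr⟩ := Padic.rat_dense q y (half_pos hε)
  have e1 : padicEmbedding q (x - (r : AlgebraicClosure ℚ)) =
      algebraMap ℚ_[q] (PadicAlgCl q) (y - r) := by
    rw [map_sub, map_ratCast, map_sub, map_ratCast, hy]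
  have e2 : padicEmbedding q (σ x) - padicEmbedding q x =
      padicEmbedding q (σ (x - (r : AlgebraicClosure ℚ))) -
        padicEmbedding q (x - (r : AlgebraicClosure ℚ)) := by
    rw [map_sub σ, map_ratCast σ, map_sub, map_sub]; ring
  rw [e2, zero_add]
  calc ‖padicEmbedding q (σ (x - (r : AlgebraicClosure ℚ))) -
        padicEmbedding q (x - (r : AlgebraicClosure ℚ))‖
      ≤ ‖padicEmbedding q (σ (x - (r : AlgebraicClosure ℚ)))‖ +
        ‖padicEmbedding q (x - (r : AlgebraicClosure ℚ))‖ := norm_sub_le _ _
    _ = ‖y - r‖ + ‖y - r‖ := by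
        rw [norm_padicEmbedding_of_mem_decompositionSubgroup q hσ, e1, PadicAlgCl.norm_extends]
    _ < ε := by linarith

/-- **(b)** The image of the local Galois group at `q` is the decomposition subgroup of the
distinguished place `padicPlace q` of `ℚ̄`. -/
theorem range_localGaloisToGlobal_eq_decompositionSubgroup :
    (localGaloisToGlobal q).range = (padicPlace q).decompositionSubgroup ℚ := by
  apply le_antisymm
  · rintro _ ⟨τ, rfl⟩
    exact localGaloisToGlobal_mem_decompositionSubgroup q τ
  · rw [range_localGaloisToGlobal]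
    exact decompositionSubgroup_le_fixingSubgroup_henselField q

/-- The decomposition subgroup of `padicPlace q` is the fixing subgroup of the henselisation
field. -/
theorem decompositionSubgroup_eq_fixingSubgroup_henselField :
    (padicPlace q).decompositionSubgroup ℚ = (henselField q).fixingSubgroup := by
  rw [← range_localGaloisToGlobal_eq_decompositionSubgroup, range_localGaloisToGlobal]

/-! ### Consequences for level-constant cochains -/

section General

variable {k : Type} [CommRing k] {H : Type} [Group H]
  (r : H →* (AlgebraicClosure ℚ ≃ₐ[ℚ] AlgebraicClosure ℚ))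
  (M : Rep k (AlgebraicClosure ℚ ≃ₐ[ℚ] AlgebraicClosure ℚ))

/-- A level-constant function is constant on the fibres of the level map. -/
lemma isLevelConstant₁_eq_of_map_eq {X : Type*} {f : H → X} (hf : IsLevelConstant₁ r f)
    {g g' : H} (h : r g = r g') : f g = f g' := by
  obtain ⟨F, _, hc⟩ := hf
  have h1 : r (g⁻¹ * g') ∈ F.fixingSubgroup := by
    rw [map_mul, map_inv, h, inv_mul_cancel]
    exact one_mem _
  have := hc g (g⁻¹ * g') h1
  rw [mul_inv_cancel_left] at this
  exact this.symm

/-- Descent of a function on `H` to the range of `r` (junk unless constant on fibres). -/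
def descendRange {X : Type*} (f : H → X) : r.range → X :=
  fun d => f (Classical.choose d.2)

lemma map_choose_range (d : r.range) : r (Classical.choose d.2) = d :=
  Classical.choose_spec d.2

lemma descendRange_rangeRestrict {X : Type*} {f : H → X} (hf : IsLevelConstant₁ r f) (h : H) :
    descendRange r f (r.rangeRestrict h) = f h :=
  isLevelConstant₁_eq_of_map_eq r hf (map_choose_range r (r.rangeRestrict h))

lemma descendRange_eq {X : Type*} {f : H → X} (hf : IsLevelConstant₁ r f) (d : r.range) (h : H)
    (hd : r h = d) : descendRange r f d = f h :=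
  isLevelConstant₁_eq_of_map_eq r hf ((map_choose_range r d).trans hd.symm)

lemma isLevelConstant₁_descendRange {X : Type*} {f : H → X} (hf : IsLevelConstant₁ r f) :
    IsLevelConstant₁ r.range.subtype (descendRange r f) := by
  obtain ⟨F, hF, hc⟩ := id hf
  refine ⟨F, hF, fun d s hs => ?_⟩
  rw [descendRange_eq r hf (d * s) (Classical.choose d.2 * Classical.choose s.2)
    (by rw [map_mul, map_choose_range, map_choose_range]; rfl)]
  refine hc _ _ ?_
  rw [map_choose_range]
  exact hs

/-- **Local H¹**: the restriction of a class to `H` along `r` vanishes iff the cocycle is a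
coboundary on the range of `r`. -/
theorem map_H1π_eq_zero_iff (c : cocycles₁ M) :
    (groupCohomology.map r (𝟙 (Rep.res r M)) 1).hom (H1π M c) = 0 ↔
      ∃ m : M, ∀ g ∈ r.range, c g = M.ρ g m - m := by
  have h1 : (groupCohomology.map r (𝟙 (Rep.res r M)) 1).hom (H1π M c)
      = H1π (Rep.res r M) (mapCocycles₁ r (𝟙 (Rep.res r M)) c) :=
    H1π_comp_map_apply r (𝟙 (Rep.res r M)) c
  rw [h1, H1π_eq_zero_iff, coe_mapCocycles₁]
  constructor
  · rintro ⟨m, hm⟩
    refine ⟨m, ?_⟩
    rintro _ ⟨h, rfl⟩
    have := congrFun hm h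
    simp at this
    exact this.symm
  · rintro ⟨m, hm⟩
    refine ⟨m, ?_⟩
    funext h
    have := hm (r h) ⟨h, rfl⟩
    simp
    exact this.symm

variable (S : Finset Nat.Primes)

/-- Cochain-level description of local triviality in degree 2. -/
theorem locRes₂S_mk_eq_zero_iff (c : ↥(levelCocyclesS₂ S M)) :
    locRes₂S S M r (continuousH2Sπ S M c) = 0 ↔
      ∃ y : H → M, IsLevelConstant₁ r y ∧
        ∀ g h : H, (c : _ → M) (r g, r h) = M.ρ (r g) (y h) - y (g * h) + y g := by
  have h1 : locRes₂S S M r (continuousH2Sπ S M c) =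
      continuousH2π r (Rep.res r M)
        (levelCocycles₂Map (rH := MonoidHom.id _) (rG := r) r (fun _ => rfl)
          (LinearMap.id : M →ₗ[k] Rep.res r M) (fun _ _ => rfl)
          (levelCocyclesS₂ToLevelCocycles₂ S M c)) := rfl
  rw [h1, continuousH2π_eq_zero_iff, mem_levelCoboundaries₂_iff]
  constructor
  · rintro ⟨y, hy, hd⟩
    refine ⟨y, hy, fun g h => ?_⟩
    have := congrFun hd (g, h)
    rw [d₁₂_hom_apply] at this
    exact this.symm
  · rintro ⟨y, hy, hd⟩
    refine ⟨y, hy, ?_⟩
    funext ⟨g, h⟩
    rw [d₁₂_hom_apply]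
    exact (hd g h).symm

/-- **Local H²**: local triviality along `r` only depends on the range of `r`. -/
theorem locRes₂S_eq_zero_iff_range (x : continuousH2S S M) :
    locRes₂S S M r x = 0 ↔ locRes₂S S M r.range.subtype x = 0 := by
  obtain ⟨c, rfl⟩ := Submodule.mkQ_surjective _ x
  change locRes₂S S M r (continuousH2Sπ S M c) = 0 ↔
    locRes₂S S M r.range.subtype (continuousH2Sπ S M c) = 0
  rw [locRes₂S_mk_eq_zero_iff, locRes₂S_mk_eq_zero_iff]
  constructor
  · rintro ⟨y, hy, hd⟩
    refine ⟨descendRange r y, isLevelConstant₁_descendRange r hy, fun d e => ?_⟩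
    have e1 := descendRange_eq r hy d _ (map_choose_range r d)
    have e2 := descendRange_eq r hy e _ (map_choose_range r e)
    have e3 := descendRange_eq r hy (d * e) (Classical.choose d.2 * Classical.choose e.2)
      (by rw [map_mul, map_choose_range, map_choose_range]; rfl)
    have := hd (Classical.choose d.2) (Classical.choose e.2)
    rw [map_choose_range, map_choose_range] at this
    rw [e1, e2, e3]
    exact this
  · rintro ⟨y, hy, hd⟩
    refine ⟨y ∘ r.rangeRestrict, IsLevelConstant₁.precomp (rH := r.range.subtype) (rG := r)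
      r.rangeRestrict (fun _ => rfl) hy, fun g h => ?_⟩
    have := hd (r.rangeRestrict g) (r.rangeRestrict h)
    simpa using this

end General

/-! ### Specialisation to the Prelude's local data at a finite prime -/

section Prime

variable (q : Nat.Primes)

/-- **(b')** The image of the Prelude's local group at a prime `q` is the decomposition
subgroup of the Prelude's distinguished place above `q`. -/
theorem range_primeLocalToGlobal :
    (primeLocalToGlobal q).range = (primeLocalPlace q).decompositionSubgroup ℚ := by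
  have : Fact (q : ℕ).Prime := ⟨q.2⟩
  exact range_localGaloisToGlobal_eq_decompositionSubgroup (q : ℕ)

variable (S : Finset Nat.Primes)

/-- The closed subgroup of `G_ℚ` attached to a place `v ∈ {∞} ∪ S`: the group generated by the
distinguished complex conjugation, resp. the decomposition subgroup of the distinguished place
of `ℚ̄` above `q`. -/
def extArithDecomp : extArithIndex S → Subgroup (AlgebraicClosure ℚ ≃ₐ[ℚ] AlgebraicClosure ℚ)
  | Sum.inl _ => archimedeanDecomposition
  | Sum.inr q => (primeLocalPlace q.1).decompositionSubgroup ℚ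

@[simp] lemma extArithDecomp_inl (u : Unit) :
    extArithDecomp S (Sum.inl u) = archimedeanDecomposition := rfl

@[simp] lemma extArithDecomp_inr (q : ↥S) :
    extArithDecomp S (Sum.inr q) = (primeLocalPlace q.1).decompositionSubgroup ℚ := rfl

/-- The image of the Prelude's local group at `v` is `extArithDecomp S v`. -/
theorem range_extArithLoc (v : extArithIndex S) :
    (extArithLoc S v).range = extArithDecomp S v := by
  rcases v with u | q
  · exact Subgroup.range_subtype _
  · exact range_primeLocalToGlobal q.1

/-- **(c-H1)** The local condition at `v` in `sha₁` on the class of a cocycle `c` says: `c` is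
a coboundary on the subgroup `extArithDecomp S v` of `G_ℚ`. -/
theorem locRes_H1π_eq_zero_iff {K : Type} [Field K]
    (A : Rep K (AlgebraicClosure ℚ ≃ₐ[ℚ] AlgebraicClosure ℚ)) (v : extArithIndex S)
    (c : cocycles₁ A) :
    (locRes (extArithLoc S) A v).hom (H1π A c) = 0 ↔
      ∃ m : A, ∀ g ∈ extArithDecomp S v, c g = A.ρ g m - m := by
  rw [← range_extArithLoc]
  exact map_H1π_eq_zero_iff (extArithLoc S v) A c

/-- **(c-H2)** The local condition at `v` in `sha₂` is local triviality on the subgroup
`extArithDecomp S v` of `G_ℚ` (with the level structure induced from `G_ℚ`). -/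
theorem locRes₂S_extArithLoc_eq_zero_iff {k : Type} [CommRing k]
    (M : Rep k (AlgebraicClosure ℚ ≃ₐ[ℚ] AlgebraicClosure ℚ)) (v : extArithIndex S)
    (x : continuousH2S S M) :
    locRes₂S S M (extArithLoc S v) x = 0 ↔
      locRes₂S S M (extArithDecomp S v).subtype x = 0 := by
  rw [← range_extArithLoc]
  exact locRes₂S_eq_zero_iff_range (extArithLoc S v) M S x

/-- Membership in `sha₁` in terms of cocycles and the subgroups `extArithDecomp S v`. -/
theorem H1π_mem_sha₁_iff {K : Type} [Field K]
    (A : Rep K (AlgebraicClosure ℚ ≃ₐ[ℚ] AlgebraicClosure ℚ)) (c : cocycles₁ A) :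
    (H1π A c : H1 A) ∈ sha₁ S A ↔ (H1π A c : H1 A) ∈ continuousH1S S A ∧
      ∀ v : extArithIndex S, ∃ m : A, ∀ g ∈ extArithDecomp S v, c g = A.ρ g m - m := by
  rw [sha₁, Submodule.mem_inf, LinearMap.mem_ker]
  refine and_congr Iff.rfl ?_
  rw [funext_iff]
  refine forall_congr' fun v => ?_
  rw [locTotal_apply, Pi.zero_apply]
  exact locRes_H1π_eq_zero_iff S A v c

/-- Membership in `sha₂` in terms of the subgroups `extArithDecomp S v`. -/
theorem mem_sha₂_iff {k : Type} [CommRing k]
    (M : Rep k (AlgebraicClosure ℚ ≃ₐ[ℚ] AlgebraicClosure ℚ)) (x : continuousH2S S M) :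
    x ∈ sha₂ S M ↔
      ∀ v : extArithIndex S, locRes₂S S M (extArithDecomp S v).subtype x = 0 := by
  rw [sha₂, LinearMap.mem_ker, funext_iff]
  refine forall_congr' fun v => ?_
  rw [locTotal₂S_apply, Pi.zero_apply]
  exact locRes₂S_extArithLoc_eq_zero_iff S M v x

end Prime

end Fermat.Agent.S55.Glue.LocalRange
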