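import Mathlib
import Fermat.Agent.S55.Glue.LocalLevel
import Fermat.Agent.S55.Glue.LocalRange

/-!
# Sum of local degrees = global degree

(A) Pure group theory: for a finite-index subgroup `U` of a group `G` and any subgroup `D`,
the double coset space `U \ G / D` is finite and
`∑_{UgD} [D : D ∩ g⁻¹Ug] = [G : U]`  (orbit decomposition of `D` acting on `G/U`).

(B) Arithmetic instance: `G = Gal(ℚ̄/ℚ)`, `U = Gal(ℚ̄/K)`, `D` = the image of the local Galois
group at `q` (= the decomposition group of `padicPlace q`).  The place of `K` attached to the double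
coset `U g D` has completion `ℚ_q(ι(g⁻¹K))`, and `[D : D ∩ g⁻¹Ug] = [ℚ_q(ι(g⁻¹K)) : ℚ_q]`.
Hence `∑_{w ∣ q} [K_w : ℚ_q] = [K : ℚ]`.
-/

set_option autoImplicit false

namespace Fermat.Agent.S55.Glue.LocalDegree

section Generic

variable {G : Type*} [Group G] (U D : Subgroup G)

/-- `[D : D ∩ g⁻¹ U g]`, the size of the `D`-orbit of the coset `g⁻¹U` in `G/U`. -/
noncomputable def conjIndex (g : G) : ℕ :=
  (U.map (MulAut.conj g⁻¹).toMonoidHom).relIndex D

lemma mem_map_conj_inv_iff (g x : G) :
    x ∈ U.map (MulAut.conj g⁻¹).toMonoidHom ↔ g * x * g⁻¹ ∈ U := by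
  constructor
  · rintro ⟨u, hu, rfl⟩
    simpa [mul_assoc] using hu
  · intro h
    refine ⟨g * x * g⁻¹, h, ?_⟩
    simp [mul_assoc]

/-- The stabiliser in `D` of the coset `g⁻¹U`. -/
lemma stabilizer_inv_coset (g : G) :
    MulAction.stabilizer D ((g⁻¹ : G) : G ⧸ U) =
      (U.map (MulAut.conj g⁻¹).toMonoidHom).subgroupOf D := by
  ext d
  rw [MulAction.mem_stabilizer_iff, Subgroup.mem_subgroupOf, mem_map_conj_inv_iff]
  change (((d : G) * g⁻¹ : G) : G ⧸ U) = ((g⁻¹ : G) : G ⧸ U) ↔ _
  rw [QuotientGroup.eq]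
  constructor
  · intro h
    have h2 := U.inv_mem h
    simpa [mul_assoc] using h2
  · intro h
    have h2 := U.inv_mem h
    simpa [mul_assoc] using h2

/-- The map `G/U → U\G/D`, `xU ↦ U x⁻¹ D`. -/
noncomputable def cosetToDouble : G ⧸ U → DoubleCoset.Quotient (U : Set G) D :=
  Quotient.lift (fun x : G => DoubleCoset.mk U D x⁻¹) (by
    intro a b hab
    have hab' : a⁻¹ * b ∈ U := QuotientGroup.leftRel_apply.mp hab
    rw [DoubleCoset.eq]
    refine ⟨(a⁻¹ * b)⁻¹, U.inv_mem hab', 1, D.one_mem, ?_⟩
    simp [mul_assoc])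

@[simp] lemma cosetToDouble_mk (x : G) :
    cosetToDouble U D (x : G ⧸ U) = DoubleCoset.mk U D x⁻¹ := rfl

lemma cosetToDouble_surjective : Function.Surjective (cosetToDouble U D) := by
  intro c
  induction c using Quotient.inductionOn with | _ g => ?_
  exact ⟨((g⁻¹ : G) : G ⧸ U), by simp [DoubleCoset.mk]⟩

/-- The fibre of `cosetToDouble` over `U g D` is the `D`-orbit of `g⁻¹U`. -/
lemma cosetToDouble_eq_iff (g : G) (y : G ⧸ U) :
    cosetToDouble U D y = DoubleCoset.mk U D g ↔
      y ∈ MulAction.orbit D ((g⁻¹ : G) : G ⧸ U) := by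
  induction y using QuotientGroup.induction_on with | _ x => ?_
  rw [cosetToDouble_mk, DoubleCoset.eq, MulAction.mem_orbit_iff]
  constructor
  · rintro ⟨h, hh, k, hk, hx⟩
    -- g = h * x⁻¹ * k, so x = k * g⁻¹ * h
    refine ⟨⟨k, hk⟩, ?_⟩
    change (((k : G) * g⁻¹ : G) : G ⧸ U) = (x : G ⧸ U)
    rw [QuotientGroup.eq, hx]
    have : (k * (h * x⁻¹ * k)⁻¹)⁻¹ * x = h := by group
    rw [this]
    exact hh
  · rintro ⟨⟨k, hk⟩, hx⟩
    change (((k : G) * g⁻¹ : G) : G ⧸ U) = (x : G ⧸ U) at hx
    rw [QuotientGroup.eq] at hx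
    refine ⟨(k * g⁻¹)⁻¹ * x, hx, k, hk, ?_⟩
    group

/-- The double coset space `U \ G / D` is finite when `U` has finite index. -/
lemma finite_doubleCoset [U.FiniteIndex] : Finite (DoubleCoset.Quotient (U : Set G) D) :=
  Finite.of_surjective _ (cosetToDouble_surjective U D)

/-- The fibre of `G/U → U\G/D` over `U g D` has `[D : D ∩ g⁻¹Ug]` elements. -/
lemma card_fiber_mk (g : G) :
    Nat.card {y : G ⧸ U // cosetToDouble U D y = DoubleCoset.mk U D g} = conjIndex U D g := by
  have e : {y : G ⧸ U // cosetToDouble U D y = DoubleCoset.mk U D g} ≃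
      MulAction.orbit D ((g⁻¹ : G) : G ⧸ U) :=
    Equiv.subtypeEquivRight (fun y => cosetToDouble_eq_iff U D g y)
  rw [Nat.card_congr e,
    Nat.card_congr (MulAction.orbitEquivQuotientStabilizer D ((g⁻¹ : G) : G ⧸ U)),
    stabilizer_inv_coset]
  rfl

/-- `[D : D ∩ g⁻¹Ug]` only depends on the double coset `U g D`. -/
lemma conjIndex_eq_of_mk_eq {g g' : G} (h : DoubleCoset.mk U D g = DoubleCoset.mk U D g') :
    conjIndex U D g = conjIndex U D g' := by
  rw [← card_fiber_mk, ← card_fiber_mk, h]

lemma conjIndex_mul_mem (g : G) {u d : G} (hu : u ∈ U) (hd : d ∈ D) :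
    conjIndex U D (u * g * d) = conjIndex U D g := by
  apply conjIndex_eq_of_mk_eq
  rw [eq_comm, DoubleCoset.eq]
  exact ⟨u, hu, d, hd, rfl⟩

lemma conjIndex_out (g : G) :
    conjIndex U D (DoubleCoset.mk U D g).out = conjIndex U D g :=
  conjIndex_eq_of_mk_eq U D (DoubleCoset.out_eq' U D _)

/-- **Orbit decomposition.** `∑_{UgD} [D : D ∩ g⁻¹Ug] = [G : U]` (`Fintype` form). -/
theorem sum_conjIndex [U.FiniteIndex] [Fintype (DoubleCoset.Quotient (U : Set G) D)] :
    ∑ c : DoubleCoset.Quotient (U : Set G) D, conjIndex U D c.out = U.index := by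
  have h1 : Nat.card (G ⧸ U) =
      ∑ c : DoubleCoset.Quotient (U : Set G) D,
        Nat.card {y : G ⧸ U // cosetToDouble U D y = c} := by
    rw [← Nat.card_sigma]
    exact Nat.card_congr (Equiv.sigmaFiberEquiv (cosetToDouble U D)).symm
  rw [Subgroup.index, h1]
  refine Finset.sum_congr rfl fun c _ => ?_
  conv_rhs => rw [← DoubleCoset.out_eq' U D c]
  exact (card_fiber_mk U D c.out).symm

/-- **Orbit decomposition.** `∑_{UgD} [D : D ∩ g⁻¹Ug] = [G : U]` (`finsum` form). -/
theorem finsum_conjIndex [U.FiniteIndex] :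
    ∑ᶠ c : DoubleCoset.Quotient (U : Set G) D, conjIndex U D c.out = U.index := by
  have := finite_doubleCoset U D
  have : Fintype (DoubleCoset.Quotient (U : Set G) D) := Fintype.ofFinite _
  rw [finsum_eq_sum_of_fintype]
  exact sum_conjIndex U D

/-- Sum over any system of representatives: if `ι ≃ U\G/D` via `i ↦ U (rep i) D`, then
`∑ i, [D : D ∩ (rep i)⁻¹ U (rep i)] = [G : U]`. -/
theorem sum_conjIndex_of_equiv [U.FiniteIndex] {ι : Type*} [Fintype ι] (rep : ι → G)
    (hrep : Function.Bijective fun i => DoubleCoset.mk U D (rep i)) :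
    ∑ i, conjIndex U D (rep i) = U.index := by
  classical
  have := finite_doubleCoset U D
  have : Fintype (DoubleCoset.Quotient (U : Set G) D) := Fintype.ofFinite _
  rw [← sum_conjIndex U D]
  refine Fintype.sum_bijective _ hrep _ _ fun i => ?_
  exact (conjIndex_out U D (rep i)).symm

end Generic

section Arithmetic

open Fermat.Agent.S55.Glue

local notation "Qb" => AlgebraicClosure ℚ
local notation "GQ" => (AlgebraicClosure ℚ ≃ₐ[ℚ] AlgebraicClosure ℚ)

/-- `ℚ̄/ℚ` is Galois. -/
theorem isGalois_Qb : IsGalois ℚ Qb := by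
  have : Algebra.IsAlgebraic ℚ Qb := AlgebraicClosure.isAlgebraic ℚ
  have : IsAlgClosure ℚ Qb := ⟨inferInstance, inferInstance⟩
  have : Normal ℚ Qb := IsAlgClosure.normal ℚ Qb
  exact ⟨⟩

attribute [local instance] isGalois_Qb

variable (q : ℕ) [Fact q.Prime] (K : IntermediateField ℚ Qb)

/-- The local field at the place of `K` attached to `g` (the place cut out by `g • padicPlace q`):
`ℚ_q(ι(g⁻¹K)) ⊆ ℚ̄_q`. -/
noncomputable def localField (g : GQ) : IntermediateField ℚ_[q] (PadicAlgCl q) :=
  localLevelField q (K.map ((g⁻¹ : GQ) : Qb →ₐ[ℚ] Qb))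

/-- The local degree `[K_w : ℚ_q]` at the place attached to `g`. -/
noncomputable def localDegree (g : GQ) : ℕ := Module.finrank ℚ_[q] (localField q K g)

instance finiteDimensional_localField [FiniteDimensional ℚ K] (g : GQ) :
    FiniteDimensional ℚ_[q] (localField q K g) := by
  have : FiniteDimensional ℚ (K.map ((g⁻¹ : GQ) : Qb →ₐ[ℚ] Qb)) :=
    (IntermediateField.equivMap K ((g⁻¹ : GQ) : Qb →ₐ[ℚ] Qb)).toLinearEquiv.finiteDimensional
  exact finiteDimensional_localLevelField q _

/-- The open subgroup of the local Galois group attached to the place `g`: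
`Fix(K_w) = r⁻¹(g⁻¹ Gal(ℚ̄/K) g)`. -/
theorem fixingSubgroup_localField (g : GQ) :
    (localField q K g).fixingSubgroup =
      (K.fixingSubgroup.map (MulAut.conj g⁻¹).toMonoidHom).comap (localGaloisToGlobal q) := by
  rw [localField, ← comap_fixingSubgroup_eq, IsGalois.map_fixingSubgroup]
  rfl

/-- `[K_w : ℚ_q] = [D : D ∩ g⁻¹ Gal(ℚ̄/K) g]`, `D` the image of the local Galois group. -/
theorem localDegree_eq_conjIndex (g : GQ) :
    localDegree q K g = conjIndex K.fixingSubgroup (localGaloisToGlobal q).range g := by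
  rw [localDegree, IntermediateField.finrank_eq_fixingSubgroup_index, fixingSubgroup_localField,
    Subgroup.index_comap]
  rfl

/-- The local degree only depends on the double coset `Gal(ℚ̄/K) g D`, i.e. on the place. -/
theorem localDegree_mul_mem (g : GQ) {u d : GQ} (hu : u ∈ K.fixingSubgroup)
    (hd : d ∈ (localGaloisToGlobal q).range) :
    localDegree q K (u * g * d) = localDegree q K g := by
  rw [localDegree_eq_conjIndex, localDegree_eq_conjIndex, conjIndex_mul_mem _ _ g hu hd]

instance finiteIndex_fixingSubgroup [FiniteDimensional ℚ K] : K.fixingSubgroup.FiniteIndex := by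
  constructor
  rw [← IntermediateField.finrank_eq_fixingSubgroup_index]
  exact Module.finrank_pos.ne'

/-- **Sum of local degrees = global degree** (`finsum` over the double cosets
`Gal(ℚ̄/K) \ Gal(ℚ̄/ℚ) / D_q`, i.e. over the places of `K` above `q`). -/
theorem finsum_localDegree [FiniteDimensional ℚ K] :
    ∑ᶠ c : DoubleCoset.Quotient (K.fixingSubgroup : Set GQ)
        ((localGaloisToGlobal q).range : Set GQ), localDegree q K c.out = Module.finrank ℚ K := by
  simp_rw [localDegree_eq_conjIndex]
  rw [finsum_conjIndex, IntermediateField.finrank_eq_fixingSubgroup_index]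

/-- **Sum of local degrees = global degree**, over any system of representatives of the places. -/
theorem sum_localDegree_of_equiv [FiniteDimensional ℚ K] {ι : Type*} [Fintype ι] (rep : ι → GQ)
    (hrep : Function.Bijective fun i =>
      DoubleCoset.mk K.fixingSubgroup (localGaloisToGlobal q).range (rep i)) :
    ∑ i, localDegree q K (rep i) = Module.finrank ℚ K := by
  simp_rw [localDegree_eq_conjIndex]
  rw [sum_conjIndex_of_equiv _ _ rep hrep, IntermediateField.finrank_eq_fixingSubgroup_index]

/-- Announced name: **sum of local degrees = global degree** (`finsum` over double cosets). -/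
theorem sum_localDegree [FiniteDimensional ℚ K] :
    ∑ᶠ c : DoubleCoset.Quotient (K.fixingSubgroup : Set GQ)
        ((localGaloisToGlobal q).range : Set GQ), localDegree q K c.out = Module.finrank ℚ K :=
  finsum_localDegree q K

theorem conjIndex_eq_localDegree (g : GQ) :
    conjIndex K.fixingSubgroup (localGaloisToGlobal q).range g = localDegree q K g :=
  (localDegree_eq_conjIndex q K g).symm

/-! ### The same statements with `D` written as the decomposition group of `padicPlace q` -/

open LocalRange in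
theorem localDegree_eq_conjIndex_decomp (g : GQ) :
    localDegree q K g = conjIndex K.fixingSubgroup ((padicPlace q).decompositionSubgroup ℚ) g := by
  rw [← range_localGaloisToGlobal_eq_decompositionSubgroup]
  exact localDegree_eq_conjIndex q K g

open LocalRange in
theorem localDegree_mul_mem_decomp (g : GQ) {u d : GQ} (hu : u ∈ K.fixingSubgroup)
    (hd : d ∈ (padicPlace q).decompositionSubgroup ℚ) :
    localDegree q K (u * g * d) = localDegree q K g := by
  rw [← range_localGaloisToGlobal_eq_decompositionSubgroup] at hd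
  exact localDegree_mul_mem q K g hu hd

open LocalRange in
/-- Sum of local degrees over the double cosets `Gal(ℚ̄/K) \ Gal(ℚ̄/ℚ) / D(padicPlace q)`. -/
theorem finsum_localDegree_decomp [FiniteDimensional ℚ K] :
    ∑ᶠ c : DoubleCoset.Quotient (K.fixingSubgroup : Set GQ)
        (((padicPlace q).decompositionSubgroup ℚ : Subgroup GQ) : Set GQ),
      localDegree q K c.out = Module.finrank ℚ K := by
  rw [← range_localGaloisToGlobal_eq_decompositionSubgroup]
  exact finsum_localDegree q K

open LocalRange in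
/-- Sum of local degrees over any system of representatives of
`Gal(ℚ̄/K) \ Gal(ℚ̄/ℚ) / D(padicPlace q)`. -/
theorem sum_localDegree_of_equiv_decomp [FiniteDimensional ℚ K] {ι : Type*} [Fintype ι]
    (rep : ι → GQ)
    (hrep : Function.Bijective fun i =>
      DoubleCoset.mk K.fixingSubgroup ((padicPlace q).decompositionSubgroup ℚ) (rep i)) :
    ∑ i, localDegree q K (rep i) = Module.finrank ℚ K := by
  rw [← range_localGaloisToGlobal_eq_decompositionSubgroup] at hrep
  exact sum_localDegree_of_equiv q K rep hrep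

end Arithmetic

end Fermat.Agent.S55.Glue.LocalDegree
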