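import Mathlib
import Fermat.Agent.S55.Glue.LocalDegree
import Fermat.Agent.S55.Glue.PlacesAbove

/-!
# Sum of local degrees over the places of `K` above `q`

Consumer form of `LocalDegree`: with helper97's `PlacesAbove.placesEquiv`
(`Gal(ℚ̄/K) \ Gal(ℚ̄/ℚ) / D_A ≃ PlacesOver K q` for `A = padicPlace q`), the local degree at a
place `w` of `K` above `q` is `localDegreeAt q K w = [ℚ_q(ι(g⁻¹K)) : ℚ_q]` for any `g` with
`w = placeOfSmul g` (the place cut out by `g • padicPlace q`), and
`∑_{w ∣ q} localDegreeAt q K w = [K : ℚ]`.
-/

set_option autoImplicit false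

open scoped NumberField

namespace Fermat.Agent.S55.Glue.LocalDegree

open Fermat.Agent.S55.Glue.PlacesAbove

local notation "Qb" => AlgebraicClosure ℚ
local notation "GQ" => (AlgebraicClosure ℚ ≃ₐ[ℚ] AlgebraicClosure ℚ)

variable (q : ℕ) [Fact q.Prime]

/-- The distinguished place `padicPlace q` of `ℚ̄` lies over `q`. -/
theorem liesOverPrime_padicPlace : (padicPlace q).LiesOverPrime q := by
  have hq : (q : ℝ) ≠ 0 := Nat.cast_ne_zero.mpr (Fact.out : q.Prime).ne_zero
  have hq1 : (1 : ℝ) < q := by exact_mod_cast (Fact.out : q.Prime).one_lt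
  rw [ValuationSubring.LiesOverPrime, mem_nonunits_iff_inv]
  right
  rw [mem_padicPlace_iff, map_inv₀, ← NNReal.coe_le_coe, coe_nnnorm, norm_inv,
    LocalRange.norm_padicEmbedding_natCast_self, inv_inv]
  simpa using hq1

variable (K : IntermediateField ℚ Qb) [NumberField K]

/-- The local degree `[K_w : ℚ_q]` at a place `w` of `K` above `q`. -/
noncomputable def localDegreeAt (w : PlacesOver K q) : ℕ :=
  localDegree q K
    ((placesEquiv K (Fact.out : q.Prime) (liesOverPrime_padicPlace q)).symm w).out

/-- The local degree at the place cut out by `g • padicPlace q` is `[ℚ_q(ι(g⁻¹K)) : ℚ_q]`. -/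
theorem localDegreeAt_placeOfSmul (g : GQ) :
    localDegreeAt q K (placeOfSmul K (Fact.out : q.Prime) (liesOverPrime_padicPlace q) g) =
      localDegree q K g := by
  rw [localDegreeAt, ← placesEquiv_mk, Equiv.symm_apply_apply, localDegree_eq_conjIndex_decomp,
    localDegree_eq_conjIndex_decomp]
  exact conjIndex_out _ _ g

/-- **Sum of local degrees = global degree**, over the places of `K` above `q`. -/
theorem sum_localDegreeAt [Fintype (PlacesOver K q)] :
    ∑ w : PlacesOver K q, localDegreeAt q K w = Module.finrank ℚ K := by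
  have : FiniteDimensional ℚ K := NumberField.to_finiteDimensional
  refine sum_localDegree_of_equiv_decomp q K
    (fun w => ((placesEquiv K (Fact.out : q.Prime) (liesOverPrime_padicPlace q)).symm w).out) ?_
  have h : (fun w : PlacesOver K q =>
      DoubleCoset.mk K.fixingSubgroup ((padicPlace q).decompositionSubgroup ℚ)
        ((placesEquiv K (Fact.out : q.Prime) (liesOverPrime_padicPlace q)).symm w).out) =
      (placesEquiv K (Fact.out : q.Prime) (liesOverPrime_padicPlace q)).symm := by
    funext w
    exact DoubleCoset.out_eq' _ _ _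
  rw [h]
  exact (placesEquiv K (Fact.out : q.Prime) (liesOverPrime_padicPlace q)).symm.bijective

/-- `finsum` form (no `Fintype` instance needed). -/
theorem finsum_localDegreeAt :
    ∑ᶠ w : PlacesOver K q, localDegreeAt q K w = Module.finrank ℚ K := by
  have := finite_placesOver K (Fact.out : q.Prime).ne_zero
  have : Fintype (PlacesOver K q) := Fintype.ofFinite _
  rw [finsum_eq_sum_of_fintype]
  exact sum_localDegreeAt q K

end Fermat.Agent.S55.Glue.LocalDegree
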