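import Mathlib
import Fermat.Agent.S55.Glue.LocalDegreePlaces
import Fermat.Agent.S55.Glue.DualTwist
import Fermat.Agent.S55.Shapiro.Mackey
import Fermat.Agent.CFT.LocalBr.Defs

/-!
# Local degrees along a Mackey system of representatives

Adapter between `LocalDegree` (sum of local degrees), helper97's `Shapiro.Mackey`
(`conjSub U r g`, `DRep U r J`) and the local vocabulary `LocalBr.IsOpenSub`:

* `conjSub_eq_comap` : `conjSub U r g = r⁻¹(g⁻¹ U g)`;
* `drep_bijective_mk` : a `DRep` is a system of representatives of `U \ G / r(H)`;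
* for `U = Gal(ℚ̄/K)`, `r = localGaloisToGlobal q`:
  `conjSub U r g = Fix (localField q K g)` is open, of index `localDegree q K g`, and
  `∑ j, localDegree q K (D.τ j) = [K : ℚ]` for every `D : DRep U r J`; the number of
  representatives is the number of places of `K` above `q`; `μ_p ⊆ K` gives `ContainsMu`.
-/

set_option autoImplicit false

namespace Fermat.Agent.S55.Glue.LocalDegree

open Fermat.Agent.S55.Shapiro

section Generic

variable {G : Type} [Group G] (U : Subgroup G) {H : Type} [Group H] (r : H →* G)

/-- `conjSub U r g = r⁻¹(g⁻¹ U g)`. -/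
theorem conjSub_eq_comap (g : G) :
    conjSub U r g = (U.map (MulAut.conj g⁻¹).toMonoidHom).comap r := by
  ext h
  rw [mem_conjSub, Subgroup.mem_comap, mem_map_conj_inv_iff]

/-- The index of `conjSub U r g` in `H` is `[r(H) : r(H) ∩ g⁻¹Ug]`. -/
theorem index_conjSub (g : G) : (conjSub U r g).index = conjIndex U r.range g := by
  rw [conjSub_eq_comap, Subgroup.index_comap]
  rfl

variable {U} {r}

/-- A `DRep` is a system of representatives of the double cosets `U \ G / r(H)`. -/
theorem drep_bijective_mk {J : Type} (D : DRep U r J) :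
    Function.Bijective fun j => DoubleCoset.mk U r.range (D.τ j) := by
  constructor
  · intro j j' hjj'
    have h := (DoubleCoset.eq U r.range (D.τ j) (D.τ j')).mp hjj'
    obtain ⟨u, hu, _, ⟨h', rfl⟩, heq⟩ := h
    have h1 : D.idx (D.τ j') = D.idx (D.τ j) := by
      rw [heq]
      exact D.idx_mul ⟨u, hu⟩ (D.τ j) h'
    rw [D.idx_τ, D.idx_τ] at h1
    exact h1.symm
  · intro c
    induction c using Quotient.inductionOn with | _ x => ?_
    refine ⟨D.idx x, ?_⟩
    change DoubleCoset.mk U r.range (D.τ (D.idx x)) = DoubleCoset.mk U r.range x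
    rw [DoubleCoset.eq]
    exact ⟨D.uOf x, (D.uOf x).2, r (D.hOf x), ⟨D.hOf x, rfl⟩, D.spec x⟩

/-- The index set of a `DRep` is finite when `U` has finite index. -/
theorem drep_finite {J : Type} (D : DRep U r J) [U.FiniteIndex] : Finite J :=
  haveI := finite_doubleCoset U r.range
  Finite.of_injective _ (drep_bijective_mk D).1

/-- Orbit decomposition along a `DRep`: `∑ j, [H : conjSub U r (τ j)] = [G : U]`. -/
theorem drep_sum_index_conjSub {J : Type} [Fintype J] (D : DRep U r J) [U.FiniteIndex] :
    ∑ j, (conjSub U r (D.τ j)).index = U.index := by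
  simp_rw [index_conjSub]
  exact sum_conjIndex_of_equiv U r.range D.τ (drep_bijective_mk D)

end Generic

section Arithmetic

open Fermat.Agent.S55.Glue Fermat.Agent.CFT.LocalBr ExtCitation

local notation "Qb" => AlgebraicClosure ℚ
local notation "GQ" => (AlgebraicClosure ℚ ≃ₐ[ℚ] AlgebraicClosure ℚ)

variable (q : ℕ) [Fact q.Prime] (K : IntermediateField ℚ Qb)

/-- The Mackey subgroup at `g` is the fixing subgroup of the local field `ℚ_q(ι(g⁻¹K))`. -/
theorem conjSub_eq_fixingSubgroup_localField (g : GQ) :
    conjSub K.fixingSubgroup (localGaloisToGlobal q) g = (localField q K g).fixingSubgroup := by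
  rw [conjSub_eq_comap, fixingSubgroup_localField]

/-- The Mackey subgroups are open in the sense of `LocalBr`. -/
theorem isOpenSub_conjSub [FiniteDimensional ℚ K] (g : GQ) :
    IsOpenSub q (conjSub K.fixingSubgroup (localGaloisToGlobal q) g) :=
  ⟨localField q K g, inferInstance, conjSub_eq_fixingSubgroup_localField q K g⟩

/-- `[Gq : conjSub] = [K_w : ℚ_q]`. -/
theorem index_conjSub_eq_localDegree (g : GQ) :
    (conjSub K.fixingSubgroup (localGaloisToGlobal q) g).index = localDegree q K g := by
  rw [index_conjSub, localDegree_eq_conjIndex]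

/-- **Sum of local degrees along a Mackey system of representatives.** -/
theorem drep_sum_localDegree [FiniteDimensional ℚ K] {J : Type} [Fintype J]
    (D : DRep K.fixingSubgroup (localGaloisToGlobal q) J) :
    ∑ j, localDegree q K (D.τ j) = Module.finrank ℚ K :=
  sum_localDegree_of_equiv q K D.τ (drep_bijective_mk D)

/-- If `μ_p ⊆ K` then the cyclotomic character is trivial on every Mackey subgroup
(this is `LocalBr.ContainsMu p (conjSub ..)`, unfolded). -/
theorem cycloChar_eq_one_of_mem_conjSub (p : ℕ) [Fact p.Prime] (hK : cycloField p ≤ K) (g : GQ)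
    (u : PadicAlgCl q ≃ₐ[ℚ_[q]] PadicAlgCl q)
    (hu : u ∈ conjSub K.fixingSubgroup (localGaloisToGlobal q) g) :
    cycloChar p (localGaloisToGlobal q u) = 1 := by
  have h1 : cycloChar p (g * localGaloisToGlobal q u * g⁻¹) = 1 :=
    cycloChar_eq_one_of_mem_fixingSubgroup p
      (IntermediateField.fixingSubgroup_antitone hK ((mem_conjSub _ _).mp hu))
  rwa [map_mul, map_mul, map_inv, mul_right_comm, mul_inv_cancel, one_mul] at h1

open Fermat.Agent.S55.Glue.PlacesAbove in
/-- The number of Mackey representatives is the number of places of `K` above `q`. -/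
theorem drep_card_eq_card_placesOver [NumberField K] {J : Type}
    (D : DRep K.fixingSubgroup (localGaloisToGlobal q) J) :
    Nat.card J = Nat.card (PlacesOver K q) := by
  have e1 : J ≃ DoubleCoset.Quotient (K.fixingSubgroup : Set GQ)
      ((localGaloisToGlobal q).range : Set GQ) := Equiv.ofBijective _ (drep_bijective_mk D)
  rw [Nat.card_congr e1, ← Nat.card_congr
    (placesEquiv K (Fact.out : q.Prime) (liesOverPrime_padicPlace q)),
    LocalRange.range_localGaloisToGlobal_eq_decompositionSubgroup]

end Arithmetic

end Fermat.Agent.S55.Glue.LocalDegree
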