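/-
S55 glue: the archimedean place is inert for odd `p`.

For a finite group `H` whose order is invertible in the coefficient ring, `H¹` and the
level-constant `H²` of the Prelude (`continuousH2`) vanish (averaging).  Applied to the
order-two group `archimedeanDecomposition` this shows that the local conditions of
`sha₁` / `sha₂` at the index `Sum.inl ()` are automatic when `2` is invertible.
-/
import Mathlib
import Fermat.Prelude.Def_GroupCohomology_ContinuousUnramified

set_option autoImplicit false

namespace Fermat.Agent.S55.Glue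

open groupCohomology CategoryTheory ExtCitation

universe u

section Finite

variable {k : Type u} [CommRing k] {H : Type u} [Group H]

/-- Averaging: a `1`-cocycle of a finite group whose order is invertible is a coboundary. -/
theorem mem_coboundaries₁_of_isUnit_card [Finite H] (M : Rep.{u} k H)
    (hinv : IsUnit ((Nat.card H : ℕ) : k)) (c : cocycles₁ M) :
    (c : H → M) ∈ coboundaries₁ M := by
  classical
  have : Fintype H := Fintype.ofFinite H
  obtain ⟨u, hu⟩ := hinv
  have hc := (mem_cocycles₁_iff (c : H → M)).1 c.2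
  -- `y = ∑ c h`
  set y : M := ∑ h : H, (c : H → M) h with hy
  have hsum : ∀ g : H, (Nat.card H : k) • (c : H → M) g = y - M.ρ g y := by
    intro g
    have h1 : ∑ h : H, (c : H → M) (g * h) = y :=
      Fintype.sum_equiv (Equiv.mulLeft g) _ _ (fun h => rfl)
    have h2 : ∑ h : H, (c : H → M) (g * h)
        = M.ρ g y + (Nat.card H : k) • (c : H → M) g := by
      simp only [hc, Finset.sum_add_distrib, hy, map_sum, Finset.sum_const, Finset.card_univ,
        Nat.card_eq_fintype_card, Nat.cast_smul_eq_nsmul]
    rw [h1] at h2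
    rw [eq_sub_iff_add_eq, add_comm]; exact h2.symm
  refine ⟨-((↑u⁻¹ : k) • y), ?_⟩
  funext g
  have h3 : (c : H → M) g = (↑u⁻¹ : k) • (y - M.ρ g y) := by
    rw [← hsum g, ← hu, smul_smul, Units.inv_mul, one_smul]
  rw [h3]
  simp only [d₀₁_hom_apply, smul_sub, map_neg, map_smul]
  abel

/-- `H¹` of a finite group whose order is invertible in the coefficient ring vanishes. -/
theorem subsingleton_H1_of_isUnit_card [Finite H] (M : Rep.{u} k H)
    (hinv : IsUnit ((Nat.card H : ℕ) : k)) : Subsingleton (H1 M) := by
  refine ⟨fun a b => ?_⟩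
  have h0 : ∀ x : H1 M, x = 0 := by
    intro x
    induction x using H1_induction_on with
    | h c => exact (H1π_eq_zero_iff c).2 (mem_coboundaries₁_of_isUnit_card M hinv c)
  rw [h0 a, h0 b]

/-- Averaging in degree two, keeping track of the level: a level-constant `2`-cocycle of a
finite group whose order is invertible is the coboundary of a level-constant `1`-cochain. -/
theorem mem_levelCoboundaries₂_of_isUnit_card [Finite H]
    (r : H →* (AlgebraicClosure ℚ ≃ₐ[ℚ] AlgebraicClosure ℚ)) (M : Rep.{u} k H)
    (hinv : IsUnit ((Nat.card H : ℕ) : k)) {f : H × H → M} (hf : f ∈ levelCocycles₂ r M) :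
    f ∈ levelCoboundaries₂ r M := by
  classical
  have : Fintype H := Fintype.ofFinite H
  obtain ⟨u, hu⟩ := hinv
  obtain ⟨hcoc, F, hF, hlev⟩ := hf
  have hc := (mem_cocycles₂_iff f).1 hcoc
  set X : H → M := fun g => ∑ j : H, f (g, j) with hX
  have hsum : ∀ g h : H, (Nat.card H : k) • f (g, h) = M.ρ g (X h) - X (g * h) + X g := by
    intro g h
    have h1 : ∑ j : H, f (g, h * j) = X g :=
      Fintype.sum_equiv (Equiv.mulLeft h) _ _ (fun j => rfl)
    have h2 : ∑ j : H, (f (g * h, j) + f (g, h)) = ∑ j : H, (M.ρ g (f (h, j)) + f (g, h * j)) :=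
      Finset.sum_congr rfl (fun j _ => hc g h j)
    rw [Finset.sum_add_distrib, Finset.sum_add_distrib, h1, ← map_sum] at h2
    simp only [Finset.sum_const, Finset.card_univ] at h2
    rw [← Nat.card_eq_fintype_card, ← Nat.cast_smul_eq_nsmul k] at h2
    rw [sub_add_eq_add_sub, eq_sub_iff_add_eq, add_comm]
    exact h2
  refine (mem_levelCoboundaries₂_iff r M f).2 ⟨fun g => (↑u⁻¹ : k) • X g, ⟨F, hF, ?_⟩, ?_⟩
  · intro g s hs
    have : X (g * s) = X g := by
      simp only [hX]
      refine Finset.sum_congr rfl (fun j _ => ?_)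
      have := hlev g j s 1 hs (by rw [map_one]; exact Subgroup.one_mem _)
      rwa [mul_one] at this
    simp only [this]
  · funext ⟨g, h⟩
    have h3 : f (g, h) = (↑u⁻¹ : k) • (M.ρ g (X h) - X (g * h) + X g) := by
      rw [← hsum g h, ← hu, smul_smul, Units.inv_mul, one_smul]
    rw [h3]
    simp [d₁₂_hom_apply, smul_sub, smul_add]

/-- The level-constant `H²` of the Prelude vanishes for a finite group whose order is
invertible in the coefficient ring. -/
theorem subsingleton_continuousH2_of_isUnit_card [Finite H]
    (r : H →* (AlgebraicClosure ℚ ≃ₐ[ℚ] AlgebraicClosure ℚ)) (M : Rep.{u} k H)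
    (hinv : IsUnit ((Nat.card H : ℕ) : k)) : Subsingleton (continuousH2 r M) := by
  refine ⟨fun a b => ?_⟩
  have h0 : ∀ x : continuousH2 r M, x = 0 := by
    intro x
    obtain ⟨c, rfl⟩ := Submodule.mkQ_surjective _ x
    exact (continuousH2π_eq_zero_iff r M c).2
      (mem_levelCoboundaries₂_of_isUnit_card r M hinv c.2)
  rw [h0 a, h0 b]

end Finite

section Archimedean

/-- The archimedean decomposition group has order dividing `2`. -/
theorem card_archimedeanDecomposition_dvd_two : Nat.card ↥archimedeanDecomposition ∣ 2 := by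
  unfold archimedeanDecomposition
  rw [Nat.card_zpowers]
  exact orderOf_dvd_of_pow_eq_one complexConjugation_sq

instance finite_archimedeanDecomposition : Finite ↥archimedeanDecomposition :=
  Nat.finite_of_card_ne_zero (fun h => by
    have := card_archimedeanDecomposition_dvd_two
    rw [h] at this
    omega)

/-- If `2` is invertible in `k`, so is the order of the archimedean decomposition group. -/
theorem isUnit_card_archimedeanDecomposition {k : Type} [CommRing k] (h2 : IsUnit (2 : k)) :
    IsUnit ((Nat.card ↥archimedeanDecomposition : ℕ) : k) := by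
  have h := card_archimedeanDecomposition_dvd_two
  have hle : Nat.card ↥archimedeanDecomposition ≤ 2 := Nat.le_of_dvd (by norm_num) h
  have hpos : 0 < Nat.card ↥archimedeanDecomposition := Nat.card_pos
  interval_cases hc : Nat.card ↥archimedeanDecomposition
  · simp
  · simpa using h2

/-- In `ZMod p`, `p` odd, the number `2` is a unit. -/
theorem isUnit_two_zmod {p : ℕ} [Fact p.Prime] (hp2 : p ≠ 2) : IsUnit (2 : ZMod p) := by
  have hp : p.Prime := Fact.out
  have : ((2 : ℕ) : ZMod p) ≠ 0 := by
    intro h0
    rw [ZMod.natCast_eq_zero_iff] at h0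
    exact hp2 ((Nat.prime_dvd_prime_iff_eq hp Nat.prime_two).1 h0)
  exact (by exact_mod_cast this : (2 : ZMod p) ≠ 0).isUnit

variable (S : Finset Nat.Primes)

/-- The archimedean local `H¹` vanishes when `2` is invertible. -/
theorem subsingleton_H1_archimedean {k : Type} [CommRing k] (h2 : IsUnit (2 : k))
    (A : Rep.{0} k (AlgebraicClosure ℚ ≃ₐ[ℚ] AlgebraicClosure ℚ)) :
    Subsingleton (H1 (Rep.res archimedeanLoc A)) :=
  subsingleton_H1_of_isUnit_card _ (isUnit_card_archimedeanDecomposition h2)

/-- The archimedean local level-constant `H²` vanishes when `2` is invertible. -/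
theorem subsingleton_continuousH2_archimedean {k : Type} [CommRing k] (h2 : IsUnit (2 : k))
    (M : Rep.{0} k (AlgebraicClosure ℚ ≃ₐ[ℚ] AlgebraicClosure ℚ)) :
    Subsingleton (continuousH2 archimedeanLoc (Rep.res archimedeanLoc M)) :=
  subsingleton_continuousH2_of_isUnit_card _ _ (isUnit_card_archimedeanDecomposition h2)

/-- `sha₁` only sees the finite places of `S` when `2` is invertible. -/
theorem mem_sha₁_iff_of_isUnit_two {K : Type} [Field K] (h2 : IsUnit (2 : K))
    (A : Rep.{0} K (AlgebraicClosure ℚ ≃ₐ[ℚ] AlgebraicClosure ℚ)) (x : H1 A) :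
    x ∈ sha₁ S A ↔ x ∈ continuousH1S S A ∧
      ∀ q : ↥S, (locRes (extArithLoc S) A (Sum.inr q)).hom x = 0 := by
  unfold sha₁
  rw [Submodule.mem_inf, LinearMap.mem_ker]
  refine and_congr_right (fun _ => ⟨fun h q => ?_, fun h => ?_⟩)
  · exact congrFun h (Sum.inr q)
  · funext v
    rcases v with u | q
    · have := subsingleton_H1_archimedean h2 A
      exact Subsingleton.elim (α := H1 (Rep.res archimedeanLoc A)) _ _
    · exact h q

/-- `sha₂` only sees the finite places of `S` when `2` is invertible. -/
theorem mem_sha₂_iff_of_isUnit_two {k : Type} [CommRing k] (h2 : IsUnit (2 : k))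
    (M : Rep.{0} k (AlgebraicClosure ℚ ≃ₐ[ℚ] AlgebraicClosure ℚ)) (x : continuousH2S S M) :
    x ∈ sha₂ S M ↔ ∀ q : ↥S, locRes₂S S M (primeLocalToGlobal q.1) x = 0 := by
  unfold sha₂
  rw [LinearMap.mem_ker]
  refine ⟨fun h q => ?_, fun h => ?_⟩
  · exact congrFun h (Sum.inr q)
  · funext v
    rcases v with u | q
    · have := subsingleton_continuousH2_archimedean h2 M
      exact Subsingleton.elim
        (α := continuousH2 archimedeanLoc (Rep.res archimedeanLoc M)) _ _
    · exact h q

end Archimedean

end Fermat.Agent.S55.Glue
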