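/-
S55 glue, brick [UR] (helper96), pure group-theoretic core: "unramified 2-cocycles are unramified
coboundaries".

* `sum_eq_card_nsmul_of_invariant` : the sum over a finite group of a right-`N`-invariant function
  is `|N|` times something.
* `isCoboundary₂_of_invariant` : `C` finite cyclic, `N ≤ C`, `p ∣ |N|`, `p • M = 0`; a 2-cocycle
  `f : C × C → M` with `f (g * s, h) = f (g, h)` for `s ∈ N` is a coboundary
  (its cyclic invariant `theta` is `|N|` times a partial sum).
* `exists_invariant_primitive` : `Γ` any group, `N' ⊴ Γ` acting trivially on `M` with `Γ ⧸ N'` finite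
  cyclic, `s₀ ∉ N'`, `s₀ ^ p ∈ N'`; an `N'`-invariant 2-cocycle which is moreover invariant under
  `s₀` in the first variable is `d x` for an `N'`-invariant 1-cochain `x`.
-/
import Mathlib
import Fermat.Agent.Lib.CyclicCocycle

set_option autoImplicit false

open groupCohomology Finset

namespace Fermat.Agent.S55.Glue.UnramCore

open Fermat.Agent.Lib.CyclicCocycle

/-- The sum over a finite group of a function invariant under right translation by a subgroup
`N` is a multiple of `|N|`. -/
theorem sum_eq_card_nsmul_of_invariant {C M : Type*} [Group C] [Fintype C] [AddCommGroup M]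
    (N : Subgroup C) (F : C → M) (hF : ∀ g, ∀ s ∈ N, F (g * s) = F g) :
    ∃ y : M, ∑ g : C, F g = Nat.card N • y := by
  classical
  obtain ⟨S, hS, -⟩ := Subgroup.exists_isComplement_left N 1
  let e : S × (N : Set C) ≃ C := Equiv.ofBijective _ hS
  let _ : Fintype S := Fintype.ofFinite S
  let _ : Fintype (N : Set C) := Fintype.ofFinite _
  refine ⟨∑ t : S, F t.1, ?_⟩
  rw [← e.sum_comp, Fintype.sum_prod_type, Finset.smul_sum]
  refine Finset.sum_congr rfl fun t _ => ?_
  have h1 : ∀ h : (N : Set C), F (e (t, h)) = F t.1 := fun h => hF t.1 h.1 h.2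
  rw [Finset.sum_congr rfl (fun h _ => h1 h), Finset.sum_const, Finset.card_univ,
    Nat.card_eq_fintype_card]
  rfl

/-- Invariance under one element gives invariance under the subgroup it generates. -/
theorem invariant_zpowers {C X : Type*} [Group C] (t₀ : C) (F : C → X)
    (h : ∀ a, F (a * t₀) = F a) : ∀ a, ∀ t ∈ Subgroup.zpowers t₀, F (a * t) = F a := by
  have hpos : ∀ (k : ℕ) a, F (a * t₀ ^ k) = F a := by
    intro k
    induction k with
    | zero => intro a; simp
    | succ k ih => intro a; rw [pow_succ, ← mul_assoc, h, ih]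
  have hneg : ∀ (k : ℕ) a, F (a * (t₀ ^ k)⁻¹) = F a := by
    intro k a
    have := hpos k (a * (t₀ ^ k)⁻¹)
    rw [inv_mul_cancel_right] at this
    exact this.symm
  intro a t ht
  obtain ⟨k, rfl⟩ := Subgroup.mem_zpowers_iff.1 ht
  obtain ⟨m, rfl | rfl⟩ := Int.eq_nat_or_neg k
  · rw [zpow_natCast]; exact hpos m a
  · rw [zpow_neg, zpow_natCast]; exact hneg m a

/-- **Finite cyclic core.** A 2-cocycle on a finite cyclic group, with values in a module killed
by `p`, which is invariant (in the first variable) under a subgroup of order divisible by `p`,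
is a coboundary. -/
theorem isCoboundary₂_of_invariant {C M : Type*} [Group C] [Finite C] [AddCommGroup M]
    [DistribMulAction C M] (σ : C) (hσ : ∀ g, g ∈ Subgroup.zpowers σ) (N : Subgroup C) (p : ℕ)
    (hp : p ∣ Nat.card N) (hM : ∀ x : M, p • x = 0) {f : C × C → M} (hf : IsCocycle₂ f)
    (hinv : ∀ g h s, s ∈ N → f (g * s, h) = f (g, h)) : IsCoboundary₂ f := by
  classical
  let _ : Fintype C := Fintype.ofFinite C
  have hidx := isIndex_idx σ hσ
  have hθ : theta σ (orderOf σ) f = ∑ g : C, f (g, σ) := by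
    unfold theta
    refine Finset.sum_bij' (fun k _ => σ ^ k) (fun g _ => idx σ g) (fun _ _ => Finset.mem_univ _)
      (fun g _ => Finset.mem_range.2 (hidx.lt g)) (fun k hk => ?_) (fun g _ => hidx.pow g)
      (fun _ _ => rfl)
    exact hidx.ι_pow_of_lt (Finset.mem_range.1 hk)
  obtain ⟨y, hy⟩ := sum_eq_card_nsmul_of_invariant N (fun g => f (g, σ))
    (fun g s hs => hinv g σ s hs)
  obtain ⟨c, hc⟩ := hp
  have hzero : theta σ (orderOf σ) f = 0 := by
    rw [hθ, hy, hc, mul_comm, mul_smul, hM, smul_zero]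
  have h := isCoboundary₂_sub_cyc hidx hf
  rw [hzero, cyc_zero, sub_zero] at h
  exact h

/-- **Descent form.** `Γ` any group, `N' ⊴ Γ` acting trivially on `M`, `Γ ⧸ N'` finite cyclic,
`p • M = 0`, `s₀ ∉ N'` with `s₀ ^ p ∈ N'`.  A 2-cocycle `f` on `Γ` which is `N'`-invariant in both
variables and `s₀`-invariant in the first variable is the coboundary of an `N'`-invariant
1-cochain. -/
theorem exists_invariant_primitive {Γ M : Type*} [Group Γ] [AddCommGroup M] [DistribMulAction Γ M]
    (N' : Subgroup Γ) [N'.Normal] [Finite (Γ ⧸ N')] [IsCyclic (Γ ⧸ N')]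
    (hact : ∀ s ∈ N', ∀ x : M, s • x = x)
    (p : ℕ) (hp : p.Prime) (hM : ∀ x : M, p • x = 0)
    (s₀ : Γ) (hs₀ : s₀ ∉ N') (hs₀p : s₀ ^ p ∈ N')
    {f : Γ × Γ → M} (hf : IsCocycle₂ f)
    (hinv : ∀ g h s t, s ∈ N' → t ∈ N' → f (g * s, h * t) = f (g, h))
    (hinv₀ : ∀ g h, f (g * s₀, h) = f (g, h)) :
    ∃ x : Γ → M, (∀ g s, s ∈ N' → x (g * s) = x g) ∧
      ∀ g h, g • x h - x (g * h) + x g = f (g, h) := by
  classical
  -- the action of the quotient on `M`
  let ρ : Γ →* AddMonoid.End M := DistribMulAction.toAddMonoidEnd Γ M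
  have hρ : N' ≤ ρ.ker := fun s hs => by
    rw [MonoidHom.mem_ker]
    ext x
    exact hact s hs x
  let ρ' : Γ ⧸ N' →* AddMonoid.End M := QuotientGroup.lift N' ρ hρ
  let _ : DistribMulAction (Γ ⧸ N') M := DistribMulAction.compHom M ρ'
  have hsmul : ∀ (g : Γ) (x : M), (QuotientGroup.mk g : Γ ⧸ N') • x = g • x := fun g x => rfl
  -- descend the cocycle
  let fb : (Γ ⧸ N') × (Γ ⧸ N') → M := fun q => f (q.1.out, q.2.out)
  have hout : ∀ g : Γ, ∃ s ∈ N', (QuotientGroup.mk g : Γ ⧸ N').out = g * s := by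
    intro g
    obtain ⟨h, hh⟩ := QuotientGroup.mk_out_eq_mul N' g
    exact ⟨h.1, h.2, hh⟩
  have key : ∀ g h : Γ, fb (QuotientGroup.mk g, QuotientGroup.mk h) = f (g, h) := by
    intro g h
    obtain ⟨s, hs, hs'⟩ := hout g
    obtain ⟨t, ht, ht'⟩ := hout h
    show f (_, _) = _
    rw [hs', ht']
    exact hinv g h s t hs ht
  have hmk : ∀ q : Γ ⧸ N', (QuotientGroup.mk q.out : Γ ⧸ N') = q := fun q => QuotientGroup.out_eq' q
  have hfb : IsCocycle₂ fb := by
    intro a b c
    have h := hf a.out b.out c.out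
    have e1 : fb (a * b, c) = f (a.out * b.out, c.out) := by
      rw [← key, QuotientGroup.mk_mul, hmk, hmk, hmk]
    have e2 : fb (a, b * c) = f (a.out, b.out * c.out) := by
      rw [← key, QuotientGroup.mk_mul, hmk, hmk, hmk]
    have e3 : a • fb (b, c) = a.out • f (b.out, c.out) := by
      rw [← hsmul, hmk]
    rw [e1, e2, e3]
    exact h
  -- the element of order `p`
  let sb : Γ ⧸ N' := QuotientGroup.mk s₀
  have hsb1 : sb ≠ 1 := by
    intro h
    exact hs₀ ((QuotientGroup.eq_one_iff s₀).1 h)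
  have hsbp : sb ^ p = 1 := by
    show (QuotientGroup.mk s₀ : Γ ⧸ N') ^ p = 1
    rw [← QuotientGroup.mk_pow]
    exact (QuotientGroup.eq_one_iff _).2 hs₀p
  have : Fact p.Prime := ⟨hp⟩
  have hord : orderOf sb = p := orderOf_eq_prime hsbp hsb1
  have hcard : Nat.card (Subgroup.zpowers sb) = p := by rw [Nat.card_zpowers, hord]
  have hinvb : ∀ a b t, t ∈ Subgroup.zpowers sb → fb (a * t, b) = fb (a, b) := by
    intro a b t ht
    refine invariant_zpowers sb (fun a => fb (a, b)) (fun a => ?_) a t ht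
    show fb (a * QuotientGroup.mk s₀, b) = fb (a, b)
    have e1 : fb (a * QuotientGroup.mk s₀, b) = f (a.out * s₀, b.out) := by
      rw [← key, QuotientGroup.mk_mul, hmk, hmk]
    rw [e1, hinv₀]
  obtain ⟨σ, hσ⟩ := IsCyclic.exists_generator (α := Γ ⧸ N')
  obtain ⟨xb, hxb⟩ := isCoboundary₂_of_invariant σ hσ (Subgroup.zpowers sb) p
    (dvd_of_eq hcard.symm) hM hfb hinvb
  refine ⟨fun g => xb (QuotientGroup.mk g), fun g s hs => ?_, fun g h => ?_⟩
  · show xb _ = xb _
    rw [QuotientGroup.mk_mul_of_mem g hs]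
  · have := hxb (QuotientGroup.mk g) (QuotientGroup.mk h)
    rw [key, hsmul, ← QuotientGroup.mk_mul] at this
    exact this

end Fermat.Agent.S55.Glue.UnramCore
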