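/-
S55 glue, brick [UR] (helper96), arithmetic part: "unramified 2-cocycles are unramified
coboundaries" for decomposition groups of places of `ℚ̄` (no local fields, no completions).

`A : ValuationSubring ℚ̄` above a prime `v`, `D = A.decompositionSubgroup ℚ`, `φ` a Frobenius
element at `A` (`A.IsFrobeniusAt φ v`).

* `exists_pow_of_mem_stabilizer` : number-field form, an element of the decomposition group of a
  prime `P ∣ p` acts on `𝓞 K ⧸ P` as a power of `x ↦ x ^ p`.
* `exists_frob_pow_eq_on` **(UR1)** : `F/ℚ` finite Galois with `I_A ≤ Fix F`; every `σ ∈ D` agrees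
  on `F` with a power of `φ` (so `D/(D ∩ Fix F)` is cyclic, generated by `φ`).
* `exists_unramified_primitive` **(UR3)** : `r : Γ →* G_ℚ` with image in `D` containing a positive
  power of `φ`; a 2-cocycle of `Γ` with values in a `p`-torsion module, both of level `F`
  (finite Galois, unramified at `A`), is `d x` with `x` of level `F(μ_m)`, `m = v ^ N - 1`.
* `exists_unramified_primitive_S` : the same in the Prelude's `IsUnramifiedOutside` language
  (`F` unramified outside `S ∌ w`, any such `F`; output level `F'` Galois, unramified outside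
  `S' ⊇ S`, `w ∉ S'`).
* `exists_unramified_primitive_res` : the same for `M : Rep k G_ℚ` restricted along `r`.
* `exists_unramified_primitive_local` **(UR4)** : the Prelude's local group
  `primeLocalGaloisGroup w`, `r = primeLocalToGlobal w`.
* `exists_unramified_primitive_inf` : `Γ = D ⊓ H`, `H` of finite index (`K`-side, `H = Fix K`).
* auxiliary: `map_mem_nonunits_iff`, `frob_pow_sub_mem_nonunits`, `frob_pow_root`,
  `normal_cycloField`, `inertia_le_fixingSubgroup_sup_cycloField`, `primesDvd`,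
  `isUnramifiedOutside_sup_cycloField`, `liesOverPrime_primeLocalPlace`.
-/
import Mathlib
import Fermat.Prelude.Def_GroupCohomology_ContinuousUnramified
import Fermat.Agent.Lib.CycloChar
import Fermat.Agent.Lib.DecompLift
import Fermat.Agent.S14.Wiring.ValRing
import Fermat.Agent.S55.Glue.DualTwist
import Fermat.Agent.S55.Glue.UnramCore
import Fermat.Agent.S55.Glue.LocalRange
import Fermat.Agent.Lib.Frobenius

set_option autoImplicit false

open scoped NumberField Pointwise

namespace Fermat.Agent.S55.Glue.UnramLevel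

local notation "Qb" => AlgebraicClosure ℚ
local notation "Gq" => (AlgebraicClosure ℚ ≃ₐ[ℚ] AlgebraicClosure ℚ)

local instance isAlgebraicQbar_ul : Algebra.IsAlgebraic ℚ (AlgebraicClosure ℚ) :=
  AlgebraicClosure.isAlgebraic ℚ
local instance isAlgClosureQbar_ul : IsAlgClosure ℚ (AlgebraicClosure ℚ) :=
  ⟨inferInstance, inferInstance⟩
local instance normalQbar_ul : Normal ℚ (AlgebraicClosure ℚ) :=
  IsAlgClosure.normal ℚ (AlgebraicClosure ℚ)

section NumberFieldForm

open MulAction Ideal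

attribute [local instance] Ideal.Quotient.field

/-- An element of the decomposition group of a prime `P` of a number field above `p` acts on the
residue field as a power of the Frobenius `x ↦ x ^ p`. -/
theorem exists_pow_of_mem_stabilizer (K : Type*) [Field K] [NumberField K] (p : ℕ)
    [hp : Fact p.Prime] (P : Ideal (𝓞 K)) [P.IsMaximal] [P.LiesOver (Ideal.span {(p : ℤ)})]
    {σ : Gal(K/ℚ)} (hσ : σ ∈ stabilizer Gal(K/ℚ) P) :
    ∃ i : ℕ, ∀ x : 𝓞 K, σ • x - x ^ (p ^ i) ∈ P := by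
  let τ := IsFractionRing.stabilizerHom Gal(K/ℚ) (Ideal.span {(p : ℤ)}) P
     (ℤ ⧸ span {(p : ℤ)}) (𝓞 K ⧸ P) ⟨σ, hσ⟩
  have : CharP (ℤ ⧸ span {(p : ℤ)}) p := ringChar.of_eq <| Int.ringChar_idealQuot p
  have : Finite (𝓞 K ⧸ P) := Ring.HasFiniteQuotients.finiteQuotient (NeZero.ne P)
  obtain ⟨i, hi⟩ := FiniteField.exists_forall_apply_eq_pow (ℤ ⧸ span {(p : ℤ)}) p (𝓞 K ⧸ P) τ
  refine ⟨i, fun x => ?_⟩
  have h₁ := IsFractionRing.stabilizerHom_apply_apply_mk Gal(K/ℚ) (Ideal.span {(p : ℤ)}) P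
      (ℤ ⧸ span {(p : ℤ)}) (𝓞 K ⧸ P) ⟨σ, hσ⟩ x
  simp only [Algebra.algebraMap_self, RingHomCompTriple.comp_apply] at h₁
  specialize hi (Ideal.Quotient.mk P x)
  rw [h₁, Int.card_ideal_quot, ← map_pow] at hi
  exact (Ideal.Quotient.eq).1 hi

end NumberFieldForm

section Decomp

open Fermat.Agent.Lib.CycloChar Fermat.Agent.S14.Wiring.ValRing

variable (A : ValuationSubring Qb)

/-- Elements of the decomposition group preserve the maximal ideal. -/
theorem map_mem_nonunits_iff {σ : Gq} (hσ : σ ∈ A.decompositionSubgroup ℚ) (x : Qb) :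
    σ x ∈ A.nonunits ↔ x ∈ A.nonunits := by
  have h2 : σ⁻¹ • A = A := (A.decompositionSubgroup ℚ).inv_mem hσ
  have h := mem_nonunits_smul_iff A σ⁻¹ x
  rw [h2, inv_inv] at h
  exact h.symm

theorem nonunits_sub' {x y : Qb} (hx : x ∈ A.nonunits) (hy : y ∈ A.nonunits) :
    x - y ∈ A.nonunits := by
  rw [A.mem_nonunits_iff] at hx hy ⊢
  exact A.valuation.map_sub_lt hx hy

/-- Powers of a Frobenius element act as powers of `x ↦ x ^ v` modulo the maximal ideal. -/
theorem frob_pow_sub_mem_nonunits {v : ℕ} {φ : Gq} (hφ : A.IsFrobeniusAt φ v) (j : ℕ) {x : Qb}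
    (hx : x ∈ A) : (φ ^ j) x - x ^ (v ^ j) ∈ A.nonunits := by
  induction j with
  | zero =>
    have : (φ ^ 0) x - x ^ (v ^ 0) = 0 := by simp
    rw [this]
    exact nonunits_zero A
  | succ j ih =>
    have h1 : (φ ^ (j + 1)) x - x ^ (v ^ (j + 1)) =
        φ ((φ ^ j) x - x ^ (v ^ j)) + (φ (x ^ (v ^ j)) - (x ^ (v ^ j)) ^ v) := by
      rw [pow_succ', AlgEquiv.mul_apply, map_sub, pow_succ, pow_mul]
      ring
    rw [h1]
    exact nonunits_add A ((map_mem_nonunits_iff A hφ.mem_decompositionSubgroup _).2 ih)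
      (sub_pow_mem_nonunits_of_isFrobeniusAt A φ v hφ (A.pow_mem hx _))

/-- **(UR1)** In a finite Galois extension `F/ℚ` unramified at `A`, every element of the
decomposition group of `A` acts on `F` as a power of any Frobenius element at `A`. -/
theorem exists_frob_pow_eq_on {v : ℕ} (hv : v.Prime) (hA : A.LiesOverPrime v) {φ : Gq}
    (hφ : A.IsFrobeniusAt φ v) (F : IntermediateField ℚ Qb) [FiniteDimensional ℚ F] [Normal ℚ F]
    (hF : A.inertiaSubgroupIn ℚ ≤ F.fixingSubgroup) {σ : Gq}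
    (hσ : σ ∈ A.decompositionSubgroup ℚ) : ∃ j : ℕ, ∀ x ∈ F, σ x = (φ ^ j) x := by
  have : NumberField F := ⟨⟩
  have : Fact v.Prime := ⟨hv⟩
  let P : Ideal (𝓞 F) := primeUnder F A
  have hPne : P ≠ ⊥ := primeUnder_ne_bot F A hv hA
  have hPmax : P.IsMaximal := (primeUnder_isPrime F A).isMaximal hPne
  have : P.LiesOver (Ideal.span {(v : ℤ)}) := by
    constructor
    have hmax : (Ideal.span {(v : ℤ)}).IsMaximal := inferInstance
    refine hmax.eq_of_le ?_ ?_
    · exact (Ideal.IsPrime.under ℤ P).ne_top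
    · rw [Ideal.span_singleton_le_iff_mem, Ideal.under_def, Ideal.mem_comap]
      have := (natCast_mem_primeUnder_iff F A v).2 hA
      simpa using this
  have hcoe : ∀ (τ : Gq) (x : 𝓞 F),
      (((τ.restrictNormal F • x : 𝓞 F) : F) : Qb) = τ ((x : F) : Qb) := by
    intro τ x
    exact AlgEquiv.restrictNormal_commutes τ F (x : F)
  have hstab1 : ∀ τ ∈ A.decompositionSubgroup ℚ, ∀ x : 𝓞 F, x ∈ P →
      (τ.restrictNormal F) • x ∈ P := by
    intro τ hτ x hx
    have hx' := (mem_primeUnder F A x).1 hx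
    rw [← A.mem_nonunits_iff] at hx'
    show (τ.restrictNormal F) • x ∈ primeUnder F A
    rw [mem_primeUnder, ← A.mem_nonunits_iff, hcoe]
    exact (map_mem_nonunits_iff A hτ _).2 hx'
  have hstab : σ.restrictNormal F ∈ MulAction.stabilizer Gal(F/ℚ) P := by
    rw [MulAction.mem_stabilizer_iff]
    ext x
    rw [Ideal.mem_pointwise_smul_iff_inv_smul_mem]
    constructor
    · intro h
      have := hstab1 σ hσ _ h
      rwa [smul_inv_smul] at this
    · intro h
      have h2 : (σ.restrictNormal F)⁻¹ = (σ⁻¹).restrictNormal F :=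
        (map_inv (AlgEquiv.restrictNormalHom F) σ).symm
      rw [h2]
      exact hstab1 σ⁻¹ (inv_mem hσ) x h
  obtain ⟨i, hi⟩ := exists_pow_of_mem_stabilizer F v P hstab
  have hint : ∀ x ∈ F, IsIntegral ℤ x → σ x - (φ ^ i) x ∈ A.nonunits := by
    intro x hxF hxint
    have hxint' : IsIntegral ℤ (⟨x, hxF⟩ : F) := by
      rw [← isIntegral_algebraMap_iff (B := Qb) (algebraMap F Qb).injective]
      exact hxint
    let y : 𝓞 F := ⟨⟨x, hxF⟩, hxint'⟩
    have h1 : σ.restrictNormal F • y - y ^ (v ^ i) ∈ primeUnder F A := hi y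
    rw [mem_primeUnder, ← A.mem_nonunits_iff] at h1
    have h3 : (((σ.restrictNormal F • y - y ^ (v ^ i) : 𝓞 F) : F) : Qb) = σ x - x ^ (v ^ i) := by
      have e1 : (((σ.restrictNormal F • y : 𝓞 F) : F) : Qb) = σ x := hcoe σ y
      rw [← e1]
      rfl
    rw [h3] at h1
    have h2 := frob_pow_sub_mem_nonunits A hφ i (x := x) (mem_of_isIntegral A hxint)
    have h4 : σ x - (φ ^ i) x = (σ x - x ^ (v ^ i)) - ((φ ^ i) x - x ^ (v ^ i)) := by ring
    rw [h4]
    exact nonunits_sub' A h1 h2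
  have hτ : ∀ x ∈ F, IsIntegral ℤ x → ((φ ^ i)⁻¹ * σ) x - x ∈ A.nonunits := by
    intro x hxF hxint
    have h1 := hint x hxF hxint
    have h2 : ((φ ^ i)⁻¹ * σ) x - x = (φ ^ i)⁻¹ (σ x - (φ ^ i) x) := by
      rw [map_sub, AlgEquiv.mul_apply]
      congr 1
      exact ((φ ^ i).symm_apply_apply x).symm
    rw [h2]
    exact (map_mem_nonunits_iff A (inv_mem (pow_mem hφ.mem_decompositionSubgroup i)) _).2 h1
  obtain ⟨ι, hι, hιF⟩ := Fermat.Agent.Lib.DecompLift.exists_inertia_lift F A hv hA _ hτ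
  refine ⟨i, fun x hx => ?_⟩
  have h1 := hιF x hx
  have h2 : ι x = x := (IntermediateField.mem_fixingSubgroup_iff F ι).1 (hF hι) x hx
  rw [h2, AlgEquiv.mul_apply] at h1
  have h3 := congrArg (φ ^ i) h1
  rw [h3]
  exact ((φ ^ i).apply_symm_apply (σ x)).symm

end Decomp

section Level

open Fermat.Agent.Lib.CycloChar groupCohomology

variable (A : ValuationSubring Qb)

/-- `ℚ(μ_m)` is Galois over `ℚ`. -/
theorem normal_cycloField (m : ℕ) : Normal ℚ (cycloField m) := by
  refine (IntermediateField.normal_iff_forall_map_le' (K := cycloField m)).2 ?_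
  intro σ
  unfold cycloField
  rw [IntermediateField.adjoin_map]
  apply IntermediateField.adjoin.mono
  rintro _ ⟨x, hx, rfl⟩
  have hx' : x ^ m = 1 := hx
  show (σ x) ^ m = 1
  rw [← map_pow, hx', map_one]

theorem coprime_pow_sub_one {v : ℕ} (hv : 0 < v) (N : ℕ) (hN : N ≠ 0) :
    Nat.Coprime (v ^ N - 1) v := by
  have h1 : 1 ≤ v ^ N := Nat.one_le_pow _ _ hv
  have h2 : Nat.Coprime (v ^ N - 1) (v ^ N) := by
    have h3 : v ^ N = 1 + (v ^ N - 1) := by omega
    rw [h3, Nat.add_sub_cancel_left]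
    exact Nat.coprime_add_self_right.2 (Nat.coprime_one_right _)
  exact Nat.Coprime.coprime_dvd_right (dvd_pow_self v hN) h2

/-- Powers of a Frobenius element at `v` raise roots of unity of order prime to `v` to powers of
`v`. -/
theorem frob_pow_root {v : ℕ} (hA : A.LiesOverPrime v) {φ : Gq} (hφ : A.IsFrobeniusAt φ v) {m : ℕ}
    (hm : Nat.Coprime m v) (j : ℕ) {μ : Qb} (hμ : μ ^ m = 1) : (φ ^ j) μ = μ ^ (v ^ j) := by
  induction j generalizing μ with
  | zero => simp
  | succ j ih =>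
    have h1 : (μ ^ v) ^ m = 1 := by rw [← pow_mul, mul_comm, pow_mul, hμ, one_pow]
    rw [pow_succ, AlgEquiv.mul_apply, frob_root A hA φ hφ hm hμ, ih h1, ← pow_mul, pow_succ']

/-- Ramification of `F(μ_m)`: inertia above a prime not dividing `m` which fixes `F` fixes
`F(μ_m)`. -/
theorem inertia_le_fixingSubgroup_sup_cycloField {q : ℕ} (hA : A.LiesOverPrime q)
    {F : IntermediateField ℚ Qb} (hF : A.inertiaSubgroupIn ℚ ≤ F.fixingSubgroup) {m : ℕ}
    (hm : m.Coprime q) : A.inertiaSubgroupIn ℚ ≤ (F ⊔ cycloField m).fixingSubgroup := by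
  intro g hg
  rw [IntermediateField.fixingSubgroup_sup, Subgroup.mem_inf, mem_fixingSubgroup_cycloField_iff]
  exact ⟨hF hg, fun x hx => inertia_root A hA g hg hm hx⟩

/-- **(UR3), general form.** `A` a place of `ℚ̄` above the prime `v` with Frobenius `φ`;
`r : Γ → G_ℚ` a homomorphism into the decomposition group of `A` whose image contains a positive
power of `φ` (e.g. the local Galois group, or `D_A ⊓ Fix K`).  A 2-cocycle of `Γ` with values in a
`p`-torsion module, which (together with the module) is of level `F` for a finite Galois `F/ℚ`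
unramified at `A`, is the coboundary of a 1-cochain of level `F(μ_m)`, `m = v ^ N - 1`; the field
`F(μ_m)` is again finite Galois and unramified at `A`. -/
theorem exists_unramified_primitive {v : ℕ} (hv : v.Prime) (hA : A.LiesOverPrime v) {φ : Gq}
    (hφ : A.IsFrobeniusAt φ v) {Γ M : Type*} [Group Γ] [AddCommGroup M] [DistribMulAction Γ M]
    (r : Γ →* Gq) (hr : ∀ g, r g ∈ A.decompositionSubgroup ℚ) {k : ℕ} (hk : 0 < k) (γ₀ : Γ)
    (hγ₀ : r γ₀ = φ ^ k) {p : ℕ} (hp : p.Prime) (hM : ∀ x : M, p • x = 0)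
    (F : IntermediateField ℚ Qb) [FiniteDimensional ℚ F] [Normal ℚ F]
    (hF : A.inertiaSubgroupIn ℚ ≤ F.fixingSubgroup)
    (hact : ∀ s : Γ, r s ∈ F.fixingSubgroup → ∀ x : M, s • x = x)
    {f : Γ × Γ → M} (hf : IsCocycle₂ f)
    (hinv : ∀ g h s t, r s ∈ F.fixingSubgroup → r t ∈ F.fixingSubgroup →
      f (g * s, h * t) = f (g, h)) :
    ∃ m : ℕ, 0 < m ∧ m.Coprime v ∧ ∃ x : Γ → M,
      (∀ g s, r s ∈ (F ⊔ cycloField m).fixingSubgroup → x (g * s) = x g) ∧
      ∀ g h, g • x h - x (g * h) + x g = f (g, h) := by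
  classical
  -- the order of Frobenius on `F`
  let φF := AlgEquiv.restrictNormalHom (F := ℚ) (K₁ := Qb) F φ
  set f₀ := orderOf φF with hf₀
  have hf₀pos : 0 < f₀ := orderOf_pos φF
  have hφf₀ : φ ^ f₀ ∈ F.fixingSubgroup := by
    rw [fixingSubgroup_eq_ker, MonoidHom.mem_ker, map_pow]
    exact pow_orderOf_eq_one φF
  set e := k * f₀ with he
  have hepos : 0 < e := Nat.mul_pos hk hf₀pos
  set N := p * e with hN
  have hNpos : 0 < N := Nat.mul_pos hp.pos hepos
  set m := v ^ N - 1 with hm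
  have hvN : 2 ≤ v ^ N := by
    calc 2 ≤ v := hv.two_le
      _ = v ^ 1 := (pow_one v).symm
      _ ≤ v ^ N := Nat.pow_le_pow_right hv.pos hNpos
  have hve : 2 ≤ v ^ e := by
    calc 2 ≤ v := hv.two_le
      _ = v ^ 1 := (pow_one v).symm
      _ ≤ v ^ e := Nat.pow_le_pow_right hv.pos hepos
  have hmpos : 0 < m := by omega
  have hmcop : m.Coprime v := coprime_pow_sub_one hv.pos N hNpos.ne'
  have hm1 : m + 1 = v ^ N := by omega
  refine ⟨m, hmpos, hmcop, ?_⟩
  set F' : IntermediateField ℚ Qb := F ⊔ cycloField m with hF'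
  have hfdc : FiniteDimensional ℚ (cycloField m) := finiteDimensional_cycloField m hmpos.ne'
  have hnc : Normal ℚ (cycloField m) := normal_cycloField m
  have : FiniteDimensional ℚ F' := IntermediateField.finiteDimensional_sup F (cycloField m)
  have : Normal ℚ F' :=
    @IntermediateField.normal_sup ℚ Qb _ _ _ F (cycloField m) ‹Normal ℚ F› hnc
  have hmemF' : ∀ g : Gq, g ∈ F'.fixingSubgroup ↔
      g ∈ F.fixingSubgroup ∧ ∀ x : Qb, x ^ m = 1 → g x = x := by
    intro g
    rw [hF', IntermediateField.fixingSubgroup_sup, Subgroup.mem_inf,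
      mem_fixingSubgroup_cycloField_iff]
  have hF'ur : A.inertiaSubgroupIn ℚ ≤ F'.fixingSubgroup :=
    inertia_le_fixingSubgroup_sup_cycloField A hA hF hmcop
  have hfrob : ∀ (j : ℕ) (x : Qb), x ^ m = 1 → (φ ^ j) x = x ^ (v ^ j) :=
    fun j x hx => frob_pow_root A hA hφ hmcop j hx
  -- the finite cyclic quotient
  let ψ := (AlgEquiv.restrictNormalHom (F := ℚ) (K₁ := Qb) F').comp r
  have hker : ∀ s : Γ, s ∈ ψ.ker ↔ r s ∈ F'.fixingSubgroup := by
    intro s
    rw [fixingSubgroup_eq_ker F', MonoidHom.mem_ker, MonoidHom.mem_ker]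
    rfl
  have : Finite (Γ ⧸ ψ.ker) := Finite.of_injective _ (QuotientGroup.kerLift_injective ψ)
  let φ' := AlgEquiv.restrictNormalHom (F := ℚ) (K₁ := Qb) F' φ
  have hrange : ∀ q : Γ ⧸ ψ.ker, QuotientGroup.kerLift ψ q ∈ Subgroup.zpowers φ' := by
    intro q
    obtain ⟨g, rfl⟩ := QuotientGroup.mk_surjective q
    rw [QuotientGroup.kerLift_mk]
    obtain ⟨j, hj⟩ := exists_frob_pow_eq_on A hv hA hφ F' hF'ur (hr g)
    have h1 : (φ ^ j)⁻¹ * r g ∈ F'.fixingSubgroup := by
      rw [IntermediateField.mem_fixingSubgroup_iff]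
      intro x hx
      rw [AlgEquiv.mul_apply, hj x hx]
      exact (φ ^ j).symm_apply_apply x
    rw [fixingSubgroup_eq_ker F', MonoidHom.mem_ker, map_mul, map_inv, inv_mul_eq_one,
      map_pow] at h1
    refine ⟨j, ?_⟩
    show φ' ^ (j : ℤ) = ψ g
    rw [zpow_natCast]
    exact h1
  have : IsCyclic (Γ ⧸ ψ.ker) :=
    isCyclic_of_injective ((QuotientGroup.kerLift ψ).codRestrict (Subgroup.zpowers φ') hrange)
      (fun a b h => QuotientGroup.kerLift_injective ψ (congrArg Subtype.val h))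
  -- the element `s₀`
  let s₀ : Γ := γ₀ ^ f₀
  have hrs₀ : r s₀ = φ ^ e := by
    show r (γ₀ ^ f₀) = φ ^ e
    rw [map_pow, hγ₀, ← pow_mul]
  have hs₀F : r s₀ ∈ F.fixingSubgroup := by
    rw [hrs₀, he, mul_comm, pow_mul]
    exact pow_mem hφf₀ k
  have : NeZero (m : Qb) := ⟨Nat.cast_ne_zero.2 hmpos.ne'⟩
  obtain ⟨ζ, hζ⟩ := HasEnoughRootsOfUnity.exists_primitiveRoot Qb m
  have hs₀ : s₀ ∉ ψ.ker := by
    rw [hker, hmemF']
    rintro ⟨-, h⟩
    have h1 := h ζ hζ.pow_eq_one
    rw [hrs₀, hfrob e ζ hζ.pow_eq_one] at h1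
    have hζ0 : ζ ≠ 0 := hζ.ne_zero hmpos.ne'
    have h2 : ζ ^ (v ^ e - 1) = 1 := by
      have h3 : ζ ^ (v ^ e - 1) * ζ = 1 * ζ := by
        rw [← pow_succ, Nat.sub_add_cancel (by omega), h1, one_mul]
      exact mul_right_cancel₀ hζ0 h3
    have hlt : v ^ e - 1 < m := by
      have h4 : e < N := by
        rw [hN]
        nlinarith [hp.two_le]
      have : v ^ e < v ^ N := Nat.pow_lt_pow_right hv.one_lt h4
      omega
    exact hζ.pow_ne_one_of_pos_of_lt (by omega) hlt h2
  have hs₀p : s₀ ^ p ∈ ψ.ker := by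
    rw [hker, hmemF', map_pow, hrs₀, ← pow_mul]
    constructor
    · rw [he, mul_comm k f₀, mul_assoc, pow_mul]
      exact pow_mem hφf₀ _
    · intro x hx
      rw [hfrob _ x hx, mul_comm e p, ← hN, ← hm1, pow_succ, hx, one_mul]
  -- apply the group-theoretic core
  have hkerF : ∀ s ∈ ψ.ker, r s ∈ F.fixingSubgroup :=
    fun s hs => ((hmemF' _).1 ((hker s).1 hs)).1
  obtain ⟨x, hx1, hx2⟩ := UnramCore.exists_invariant_primitive ψ.ker
    (fun s hs x => hact s (hkerF s hs) x) p hp hM s₀ hs₀ hs₀p hf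
    (fun g h s t hs ht => hinv g h s t (hkerF s hs) (hkerF t ht))
    (fun g h => by
      have := hinv g h s₀ 1 hs₀F (by rw [map_one]; exact one_mem _)
      rwa [mul_one] at this)
  exact ⟨x, fun g s hs => hx1 g s ((hker s).2 hs), hx2⟩

end Level

section Packaged

open groupCohomology ExtCitation

/-- The finite set of primes dividing `m`. -/
noncomputable def primesDvd (m : ℕ) : Finset Nat.Primes :=
  Finset.subtype Nat.Prime m.primeFactors

theorem mem_primesDvd {m : ℕ} (hm : m ≠ 0) (q : Nat.Primes) : q ∈ primesDvd m ↔ (q : ℕ) ∣ m := by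
  have h : q ∈ primesDvd m ↔ (q : ℕ) ∈ m.primeFactors :=
    Finset.mem_subtype (s := m.primeFactors) (p := Nat.Prime) (a := q)
  rw [h, Nat.mem_primeFactors]
  exact ⟨fun h => h.2.1, fun h => ⟨q.2, h, hm⟩⟩

/-- `F(μ_m)` is unramified outside `S ∪ {q : q ∣ m}` if `F` is unramified outside `S`. -/
theorem isUnramifiedOutside_sup_cycloField {S : Finset Nat.Primes} {F : IntermediateField ℚ Qb}
    (hF : F.IsUnramifiedOutside S) {m : ℕ} (hm : m ≠ 0) :
    (F ⊔ cycloField m).IsUnramifiedOutside (S ∪ primesDvd m) := by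
  have := hF.1
  have := finiteDimensional_cycloField m hm
  refine ⟨IntermediateField.finiteDimensional_sup F (cycloField m), fun q hq A hA => ?_⟩
  rw [Finset.mem_union, not_or] at hq
  refine inertia_le_fixingSubgroup_sup_cycloField A hA (hF.2 q hq.1 A hA) ?_
  rw [Nat.coprime_comm, Nat.Prime.coprime_iff_not_dvd q.2]
  exact fun h => hq.2 ((mem_primesDvd hm q).2 h)

/-- **(UR3), level-`S` form.** Same as `exists_unramified_primitive`, in the language of the
Prelude's `IsUnramifiedOutside`: a 2-cocycle of level `F` (unramified outside `S ∌ w`, not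
necessarily Galois) is the coboundary of a 1-cochain of level `F'` (Galois, unramified outside
`S' ∌ w`). -/
theorem exists_unramified_primitive_S (A : ValuationSubring Qb) {w : Nat.Primes}
    (hA : A.LiesOverPrime (w : ℕ)) {φ : Gq} (hφ : A.IsFrobeniusAt φ (w : ℕ))
    {Γ M : Type*} [Group Γ] [AddCommGroup M] [DistribMulAction Γ M]
    (r : Γ →* Gq) (hr : ∀ g, r g ∈ A.decompositionSubgroup ℚ) {k : ℕ} (hk : 0 < k) (γ₀ : Γ)
    (hγ₀ : r γ₀ = φ ^ k) {p : ℕ} (hp : p.Prime) (hM : ∀ x : M, p • x = 0)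
    {S : Finset Nat.Primes} (hw : w ∉ S) {F : IntermediateField ℚ Qb}
    (hFS : F.IsUnramifiedOutside S)
    (hact : ∀ s : Γ, r s ∈ F.fixingSubgroup → ∀ x : M, s • x = x)
    {f : Γ × Γ → M} (hf : IsCocycle₂ f)
    (hinv : ∀ g h s t, r s ∈ F.fixingSubgroup → r t ∈ F.fixingSubgroup →
      f (g * s, h * t) = f (g, h)) :
    ∃ (S' : Finset Nat.Primes) (F' : IntermediateField ℚ Qb), S ⊆ S' ∧ w ∉ S' ∧ F ≤ F' ∧
      Normal ℚ F' ∧ F'.IsUnramifiedOutside S' ∧ ∃ x : Γ → M,
        (∀ g s, r s ∈ F'.fixingSubgroup → x (g * s) = x g) ∧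
        ∀ g h, g • x h - x (g * h) + x g = f (g, h) := by
  obtain ⟨F₁, hFF₁, -, hF₁S, hF₁n⟩ := exists_normal_isUnramifiedOutside hFS hFS
  have := hF₁S.1
  have hle : F₁.fixingSubgroup ≤ F.fixingSubgroup :=
    IntermediateField.fixingSubgroup_antitone hFF₁
  obtain ⟨m, hmpos, hmcop, x, hx1, hx2⟩ := exists_unramified_primitive A w.2 hA hφ r hr hk γ₀
    hγ₀ hp hM F₁ (hF₁S.2 w hw A hA) (fun s hs => hact s (hle hs)) hf
    (fun g h s t hs ht => hinv g h s t (hle hs) (hle ht))
  refine ⟨S ∪ primesDvd m, F₁ ⊔ cycloField m, Finset.subset_union_left, ?_,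
    hFF₁.trans le_sup_left, ?_, isUnramifiedOutside_sup_cycloField hF₁S hmpos.ne', x, hx1, hx2⟩
  · rw [Finset.mem_union, not_or]
    refine ⟨hw, fun h => ?_⟩
    have hdvd := (mem_primesDvd hmpos.ne' w).1 h
    exact w.2.one_lt.ne' (Nat.Coprime.eq_one_of_dvd hmcop.symm hdvd)
  · exact @IntermediateField.normal_sup ℚ Qb _ _ _ F₁ (cycloField m) hF₁n (normal_cycloField m)

/-- **(UR3), representation form.** `M` a representation of `G_ℚ` killed by `p` and trivial on
`Fix F`; cochains on `Γ` with values in `M` restricted along `r`. -/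
theorem exists_unramified_primitive_res (A : ValuationSubring Qb) {w : Nat.Primes}
    (hA : A.LiesOverPrime (w : ℕ)) {φ : Gq} (hφ : A.IsFrobeniusAt φ (w : ℕ))
    {k : Type*} [CommRing k] {Γ : Type*} [Group Γ] (M : Rep k Gq)
    (r : Γ →* Gq) (hr : ∀ g, r g ∈ A.decompositionSubgroup ℚ) {j : ℕ} (hj : 0 < j) (γ₀ : Γ)
    (hγ₀ : r γ₀ = φ ^ j) {p : ℕ} (hp : p.Prime) (hM : ∀ x : M, p • x = 0)
    {S : Finset Nat.Primes} (hw : w ∉ S) {F : IntermediateField ℚ Qb}
    (hFS : F.IsUnramifiedOutside S)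
    (hFM : ∀ s ∈ F.fixingSubgroup, ∀ x : M, M.ρ s x = x)
    {f : Γ × Γ → M}
    (hf : ∀ g h i : Γ, f (g * h, i) + f (g, h) = M.ρ (r g) (f (h, i)) + f (g, h * i))
    (hinv : ∀ g h s t, r s ∈ F.fixingSubgroup → r t ∈ F.fixingSubgroup →
      f (g * s, h * t) = f (g, h)) :
    ∃ (S' : Finset Nat.Primes) (F' : IntermediateField ℚ Qb), S ⊆ S' ∧ w ∉ S' ∧ F ≤ F' ∧
      Normal ℚ F' ∧ F'.IsUnramifiedOutside S' ∧ ∃ x : Γ → M,
        (∀ g s, r s ∈ F'.fixingSubgroup → x (g * s) = x g) ∧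
        ∀ g h, M.ρ (r g) (x h) - x (g * h) + x g = f (g, h) := by
  let _ : DistribMulAction Γ M :=
    { smul := fun g x => M.ρ (r g) x
      one_smul := fun x => by
        show M.ρ (r 1) x = x
        rw [map_one, map_one]
        rfl
      mul_smul := fun g h x => by
        show M.ρ (r (g * h)) x = M.ρ (r g) (M.ρ (r h) x)
        rw [map_mul, map_mul]
        rfl
      smul_zero := fun g => map_zero (M.ρ (r g))
      smul_add := fun g x y => map_add (M.ρ (r g)) x y }
  exact exists_unramified_primitive_S A hA hφ r hr hj γ₀ hγ₀ hp hM hw hFS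
    (fun s hs x => hFM (r s) hs x) (fun g h i => hf g h i) hinv

theorem mem_nonunits_iff_inv_notMem (B : ValuationSubring Qb) {y : Qb} (hy : y ≠ 0) :
    y ∈ B.nonunits ↔ y⁻¹ ∉ B := by
  rw [ValuationSubring.mem_nonunits_iff, ← B.valuation_le_one_iff, map_inv₀, not_le]
  have hv : B.valuation y ≠ 0 := (Valuation.ne_zero_iff _).2 hy
  constructor
  · intro h
    exact (one_lt_inv₀ (zero_lt_iff.2 hv)).2 h
  · intro h
    exact (one_lt_inv₀ (zero_lt_iff.2 hv)).1 h

/-- The Prelude's distinguished place above `w` lies over `w`. -/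
theorem liesOverPrime_primeLocalPlace (w : Nat.Primes) :
    (primeLocalPlace w).LiesOverPrime (w : ℕ) := by
  have : Fact (w : ℕ).Prime := ⟨w.2⟩
  show ((w : ℕ) : Qb) ∈ (padicPlace (w : ℕ)).nonunits
  have hw0 : ((w : ℕ) : Qb) ≠ 0 := Nat.cast_ne_zero.2 w.2.ne_zero
  rw [mem_nonunits_iff_inv_notMem _ hw0, mem_padicPlace_iff]
  intro hmem
  have h1 : ‖padicEmbedding (w : ℕ) (((w : ℕ) : Qb)⁻¹)‖ ≤ 1 := by exact_mod_cast hmem
  rw [map_inv₀, norm_inv, LocalRange.norm_padicEmbedding_natCast_self, inv_inv] at h1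
  have h2 : (1 : ℝ) < ((w : ℕ) : ℝ) := by exact_mod_cast w.2.one_lt
  linarith

/-- **(UR4)** The Prelude's local Galois group at a prime `w ∉ S`: a local 2-cocycle with values
in (the restriction of) a `p`-torsion `G_ℚ`-module `M`, where cocycle and module have level `F`
unramified outside `S`, is the coboundary of a local 1-cochain of level `F'` unramified outside
`S' ∌ w`. -/
theorem exists_unramified_primitive_local {k : Type*} [CommRing k] (M : Rep k Gq)
    (w : Nat.Primes) {p : ℕ} (hp : p.Prime) (hM : ∀ x : M, p • x = 0)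
    {S : Finset Nat.Primes} (hw : w ∉ S) {F : IntermediateField ℚ Qb}
    (hFS : F.IsUnramifiedOutside S)
    (hFM : ∀ s ∈ F.fixingSubgroup, ∀ x : M, M.ρ s x = x)
    {f : primeLocalGaloisGroup w × primeLocalGaloisGroup w → M}
    (hf : ∀ g h i : primeLocalGaloisGroup w,
      f (g * h, i) + f (g, h) = M.ρ (primeLocalToGlobal w g) (f (h, i)) + f (g, h * i))
    (hinv : ∀ g h s t, primeLocalToGlobal w s ∈ F.fixingSubgroup →
      primeLocalToGlobal w t ∈ F.fixingSubgroup → f (g * s, h * t) = f (g, h)) :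
    ∃ (S' : Finset Nat.Primes) (F' : IntermediateField ℚ Qb), S ⊆ S' ∧ w ∉ S' ∧ F ≤ F' ∧
      Normal ℚ F' ∧ F'.IsUnramifiedOutside S' ∧ ∃ x : primeLocalGaloisGroup w → M,
        (∀ g s, primeLocalToGlobal w s ∈ F'.fixingSubgroup → x (g * s) = x g) ∧
        ∀ g h, M.ρ (primeLocalToGlobal w g) (x h) - x (g * h) + x g = f (g, h) := by
  have hA := liesOverPrime_primeLocalPlace w
  obtain ⟨φ, hφ⟩ := Fermat.Agent.Lib.Frobenius.exists_isFrobeniusAt (primeLocalPlace w) w.2 hA
  have hrange := LocalRange.range_primeLocalToGlobal w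
  have hφD : φ ∈ (primeLocalToGlobal w).range := by
    rw [hrange]
    exact hφ.mem_decompositionSubgroup
  obtain ⟨γ₀, hγ₀⟩ := hφD
  exact exists_unramified_primitive_res (primeLocalPlace w) hA hφ M (primeLocalToGlobal w)
    (fun g => by rw [← hrange]; exact ⟨g, rfl⟩) one_pos γ₀ (by rw [hγ₀, pow_one]) hp hM hw hFS
    hFM hf hinv

/-- **(UR3), `K`-side form.** The group `D_A ⊓ H` for a finite-index subgroup `H` of `G_ℚ`
(e.g. `H = Fix K`: the decomposition group of the place of `K` below `A`). -/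
theorem exists_unramified_primitive_inf (A : ValuationSubring Qb) {w : Nat.Primes}
    (hA : A.LiesOverPrime (w : ℕ)) (H : Subgroup Gq) (hH : H.index ≠ 0)
    {M : Type*} [AddCommGroup M] [DistribMulAction ↥(A.decompositionSubgroup ℚ ⊓ H) M]
    {p : ℕ} (hp : p.Prime) (hM : ∀ x : M, p • x = 0)
    {S : Finset Nat.Primes} (hw : w ∉ S) {F : IntermediateField ℚ Qb}
    (hFS : F.IsUnramifiedOutside S)
    (hact : ∀ s : ↥(A.decompositionSubgroup ℚ ⊓ H), (s : Gq) ∈ F.fixingSubgroup →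
      ∀ x : M, s • x = x)
    {f : ↥(A.decompositionSubgroup ℚ ⊓ H) × ↥(A.decompositionSubgroup ℚ ⊓ H) → M}
    (hf : IsCocycle₂ f)
    (hinv : ∀ g h s t : ↥(A.decompositionSubgroup ℚ ⊓ H), (s : Gq) ∈ F.fixingSubgroup →
      (t : Gq) ∈ F.fixingSubgroup → f (g * s, h * t) = f (g, h)) :
    ∃ (S' : Finset Nat.Primes) (F' : IntermediateField ℚ Qb), S ⊆ S' ∧ w ∉ S' ∧ F ≤ F' ∧
      Normal ℚ F' ∧ F'.IsUnramifiedOutside S' ∧
      ∃ x : ↥(A.decompositionSubgroup ℚ ⊓ H) → M,
        (∀ g s : ↥(A.decompositionSubgroup ℚ ⊓ H), (s : Gq) ∈ F'.fixingSubgroup →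
          x (g * s) = x g) ∧
        ∀ g h, g • x h - x (g * h) + x g = f (g, h) := by
  obtain ⟨φ, hφ⟩ := Fermat.Agent.Lib.Frobenius.exists_isFrobeniusAt A w.2 hA
  obtain ⟨n, hn, -, hnH⟩ := Subgroup.exists_pow_mem_of_index_ne_zero hH φ
  exact exists_unramified_primitive_S A hA hφ (A.decompositionSubgroup ℚ ⊓ H).subtype
    (fun g => g.2.1) hn ⟨φ ^ n, pow_mem hφ.mem_decompositionSubgroup n, hnH⟩ rfl hp hM hw hFS
    hact hf hinv

end Packaged

end Fermat.Agent.S55.Glue.UnramLevel
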