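/-
S55 glue, brick [UR] (helper96), intrinsic form: "unramified" = "level-constant and invariant under
inertia".

`A : ValuationSubring ℚ̄` above a prime `q`, `D = A.decompositionSubgroup ℚ`,
`I = A.inertiaSubgroupIn ℚ`, `φ` a Frobenius element at `A`.

* `exists_frob_pow_inertia_eq_on` **(UR1')** : for ANY finite Galois `F/ℚ`, every `σ ∈ D` agrees on
  `F` with `φ ^ j * ι` for some `ι ∈ I` (`D/I` is generated by Frobenius at every finite level).
* `exists_inertia_mul_of_fixes_roots` **(UR5)** : `L/ℚ` finite Galois, `φ ^ N ∈ Fix L`; an element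
  of `D` fixing the `(q ^ N - 1)`-th roots of unity is `s' * ι` with `s' ∈ Fix L`, `ι ∈ I`.
* `exists_unramified_primitive_intrinsic` **(UR3, intrinsic)** : `r : Γ →* G_ℚ` into `D` with
  `D ⊓ Fix L ≤ range r`; a 2-cocycle with values in a `p`-torsion module, such that cocycle and
  module are of level `L` (any finite `L`) and invariant under `r⁻¹(I)`, is `d x` with `x` of level
  `F'`, `F'/ℚ` finite Galois with `I ≤ Fix F'`.
* `unram_cup_unram` : the cup product of two unramified characters of `D ⊓ Fix K` (trivial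
  coefficients) is the coboundary of a level-constant cochain.
-/
import Mathlib
import Fermat.Agent.S55.Glue.UnramLevel

set_option autoImplicit false

open scoped NumberField Pointwise

namespace Fermat.Agent.S55.Glue.UnramIntrinsic

open Fermat.Agent.S55.Glue.UnramLevel Fermat.Agent.Lib.CycloChar
  Fermat.Agent.S14.Wiring.ValRing groupCohomology

local notation "Qb" => AlgebraicClosure ℚ
local notation "Gq" => (AlgebraicClosure ℚ ≃ₐ[ℚ] AlgebraicClosure ℚ)

local instance isAlgebraicQbar_ui : Algebra.IsAlgebraic ℚ (AlgebraicClosure ℚ) :=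
  AlgebraicClosure.isAlgebraic ℚ
local instance isAlgClosureQbar_ui : IsAlgClosure ℚ (AlgebraicClosure ℚ) :=
  ⟨inferInstance, inferInstance⟩
local instance normalQbar_ui : Normal ℚ (AlgebraicClosure ℚ) :=
  IsAlgClosure.normal ℚ (AlgebraicClosure ℚ)

variable (A : ValuationSubring Qb)

theorem inertia_le_decomposition : A.inertiaSubgroupIn ℚ ≤ A.decompositionSubgroup ℚ := by
  rintro _ ⟨τ, -, rfl⟩
  exact τ.2

/-- A normal intermediate field is stable under automorphisms. -/
theorem map_mem_of_normal (F : IntermediateField ℚ Qb) [Normal ℚ F] (σ : Gq) {x : Qb}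
    (hx : x ∈ F) : σ x ∈ F := by
  have h := AlgEquiv.restrictNormal_commutes σ F ⟨x, hx⟩
  have h2 : σ x = ((σ.restrictNormal F ⟨x, hx⟩ : F) : Qb) := h.symm
  rw [h2]
  exact (σ.restrictNormal F ⟨x, hx⟩).2

/-- **(UR1')** In a finite Galois extension `F/ℚ`, every element of the decomposition group of `A`
acts on `F` as a power of Frobenius times an element of the inertia group. -/
theorem exists_frob_pow_inertia_eq_on {v : ℕ} (hv : v.Prime) (hA : A.LiesOverPrime v) {φ : Gq}
    (hφ : A.IsFrobeniusAt φ v) (F : IntermediateField ℚ Qb) [FiniteDimensional ℚ F] [Normal ℚ F]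
    {σ : Gq} (hσ : σ ∈ A.decompositionSubgroup ℚ) :
    ∃ (j : ℕ) (ι : Gq), ι ∈ A.inertiaSubgroupIn ℚ ∧ ∀ x ∈ F, σ x = (φ ^ j) (ι x) := by
  have : NumberField F := ⟨⟩
  have : Fact v.Prime := ⟨hv⟩
  let P : Ideal (𝓞 F) := primeUnder F A
  have hPne : P ≠ ⊥ := primeUnder_ne_bot F A hv hA
  have hPmax : P.IsMaximal := (primeUnder_isPrime F A).isMaximal hPne
  have : P.LiesOver (Ideal.span {(v : ℤ)}) := by
    constructor
    have hmax : (Ideal.span {(v : ℤ)}).IsMaximal := inferInstance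
    refine hmax.eq_of_le ?_ ?_
    · exact (Ideal.IsPrime.under ℤ P).ne_top
    · rw [Ideal.span_singleton_le_iff_mem, Ideal.under_def, Ideal.mem_comap]
      have := (natCast_mem_primeUnder_iff F A v).2 hA
      simpa using this
  have hcoe : ∀ (τ : Gq) (x : 𝓞 F),
      (((τ.restrictNormal F • x : 𝓞 F) : F) : Qb) = τ ((x : F) : Qb) := by
    intro τ x
    exact AlgEquiv.restrictNormal_commutes τ F (x : F)
  have hstab1 : ∀ τ ∈ A.decompositionSubgroup ℚ, ∀ x : 𝓞 F, x ∈ P →
      (τ.restrictNormal F) • x ∈ P := by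
    intro τ hτ x hx
    have hx' := (mem_primeUnder F A x).1 hx
    rw [← A.mem_nonunits_iff] at hx'
    show (τ.restrictNormal F) • x ∈ primeUnder F A
    rw [mem_primeUnder, ← A.mem_nonunits_iff, hcoe]
    exact (map_mem_nonunits_iff A hτ _).2 hx'
  have hstab : σ.restrictNormal F ∈ MulAction.stabilizer Gal(F/ℚ) P := by
    rw [MulAction.mem_stabilizer_iff]
    ext x
    rw [Ideal.mem_pointwise_smul_iff_inv_smul_mem]
    constructor
    · intro h
      have := hstab1 σ hσ _ h
      rwa [smul_inv_smul] at this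
    · intro h
      have h2 : (σ.restrictNormal F)⁻¹ = (σ⁻¹).restrictNormal F :=
        (map_inv (AlgEquiv.restrictNormalHom F) σ).symm
      rw [h2]
      exact hstab1 σ⁻¹ (inv_mem hσ) x h
  obtain ⟨i, hi⟩ := exists_pow_of_mem_stabilizer F v P hstab
  have hint : ∀ x ∈ F, IsIntegral ℤ x → σ x - (φ ^ i) x ∈ A.nonunits := by
    intro x hxF hxint
    have hxint' : IsIntegral ℤ (⟨x, hxF⟩ : F) := by
      rw [← isIntegral_algebraMap_iff (B := Qb) (algebraMap F Qb).injective]
      exact hxint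
    let y : 𝓞 F := ⟨⟨x, hxF⟩, hxint'⟩
    have h1 : σ.restrictNormal F • y - y ^ (v ^ i) ∈ primeUnder F A := hi y
    rw [mem_primeUnder, ← A.mem_nonunits_iff] at h1
    have h3 : (((σ.restrictNormal F • y - y ^ (v ^ i) : 𝓞 F) : F) : Qb) = σ x - x ^ (v ^ i) := by
      have e1 : (((σ.restrictNormal F • y : 𝓞 F) : F) : Qb) = σ x := hcoe σ y
      rw [← e1]
      rfl
    rw [h3] at h1
    have h2 := frob_pow_sub_mem_nonunits A hφ i (x := x) (mem_of_isIntegral A hxint)
    have h4 : σ x - (φ ^ i) x = (σ x - x ^ (v ^ i)) - ((φ ^ i) x - x ^ (v ^ i)) := by ring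
    rw [h4]
    exact nonunits_sub' A h1 h2
  have hτ : ∀ x ∈ F, IsIntegral ℤ x → ((φ ^ i)⁻¹ * σ) x - x ∈ A.nonunits := by
    intro x hxF hxint
    have h1 := hint x hxF hxint
    have h2 : ((φ ^ i)⁻¹ * σ) x - x = (φ ^ i)⁻¹ (σ x - (φ ^ i) x) := by
      rw [map_sub, AlgEquiv.mul_apply]
      congr 1
      exact ((φ ^ i).symm_apply_apply x).symm
    rw [h2]
    exact (map_mem_nonunits_iff A (inv_mem (pow_mem hφ.mem_decompositionSubgroup i)) _).2 h1
  obtain ⟨ι, hι, hιF⟩ := Fermat.Agent.Lib.DecompLift.exists_inertia_lift F A hv hA _ hτ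
  refine ⟨i, ι, hι, fun x hx => ?_⟩
  rw [hιF x hx, AlgEquiv.mul_apply]
  exact ((φ ^ i).apply_symm_apply (σ x)).symm

/-- **(UR5)** `L/ℚ` finite Galois with `φ ^ N ∈ Fix L`.  An element of the decomposition group
fixing the `(q ^ N - 1)`-th roots of unity is the product of an element of `Fix L` and an
element of the inertia group. -/
theorem exists_inertia_mul_of_fixes_roots {q : ℕ} (hq : q.Prime) (hA : A.LiesOverPrime q)
    {φ : Gq} (hφ : A.IsFrobeniusAt φ q) (L : IntermediateField ℚ Qb) [FiniteDimensional ℚ L]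
    [Normal ℚ L] {N : ℕ} (hN : 0 < N) (hφN : φ ^ N ∈ L.fixingSubgroup) {s : Gq}
    (hs : s ∈ A.decompositionSubgroup ℚ)
    (hsμ : s ∈ (cycloField (q ^ N - 1)).fixingSubgroup) :
    ∃ ι ∈ A.inertiaSubgroupIn ℚ, s * ι⁻¹ ∈ L.fixingSubgroup := by
  set m := q ^ N - 1 with hm
  have hqN : 2 ≤ q ^ N := by
    calc 2 ≤ q := hq.two_le
      _ = q ^ 1 := (pow_one q).symm
      _ ≤ q ^ N := Nat.pow_le_pow_right hq.pos hN
  have hmpos : 0 < m := by omega
  have hm1 : m + 1 = q ^ N := by omega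
  have hmcop : m.Coprime q := coprime_pow_sub_one hq.pos N hN.ne'
  have hfdc : FiniteDimensional ℚ (cycloField m) := finiteDimensional_cycloField m hmpos.ne'
  have hnc : Normal ℚ (cycloField m) := normal_cycloField m
  have : FiniteDimensional ℚ (L ⊔ cycloField m : IntermediateField ℚ Qb) :=
    IntermediateField.finiteDimensional_sup L (cycloField m)
  have : Normal ℚ (L ⊔ cycloField m : IntermediateField ℚ Qb) :=
    @IntermediateField.normal_sup ℚ Qb _ _ _ L (cycloField m) ‹Normal ℚ L› hnc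
  obtain ⟨j, ι, hι, hj⟩ := exists_frob_pow_inertia_eq_on A hq hA hφ (L ⊔ cycloField m) hs
  refine ⟨ι, hι, ?_⟩
  -- a primitive `m`-th root of unity
  have : NeZero (m : Qb) := ⟨Nat.cast_ne_zero.2 hmpos.ne'⟩
  obtain ⟨ζ, hζ⟩ := HasEnoughRootsOfUnity.exists_primitiveRoot Qb m
  have hζm : ζ ^ m = 1 := hζ.pow_eq_one
  have hζmem : ζ ∈ (L ⊔ cycloField m : IntermediateField ℚ Qb) :=
    (le_sup_right : cycloField m ≤ L ⊔ cycloField m)
      (IntermediateField.subset_adjoin ℚ _ hζm)
  have hsζ : s ζ = ζ := (mem_fixingSubgroup_cycloField_iff m s).1 hsμ ζ hζm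
  have hιζ : ι ζ = ζ := inertia_root A hA ι hι hmcop hζm
  have hζj : ζ ^ (q ^ j) = ζ := by
    have h1 := hj ζ hζmem
    rw [hsζ, hιζ, frob_pow_root A hA hφ hmcop j hζm] at h1
    exact h1.symm
  -- `ζ ^ (q ^ N) = ζ`
  have hζN : ζ ^ (q ^ N) = ζ := by rw [← hm1, pow_succ, hζm, one_mul]
  have hζNa : ∀ a : ℕ, ζ ^ ((q ^ N) ^ a) = ζ := by
    intro a
    induction a with
    | zero => simp
    | succ a ih => rw [pow_succ, pow_mul, ih, hζN]
  -- `N ∣ j`
  have hjN : j % N = 0 := by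
    by_contra hb
    have hbpos : 0 < j % N := Nat.pos_of_ne_zero hb
    have hblt : j % N < N := Nat.mod_lt j hN
    have h2 : ζ ^ (q ^ (j % N)) = ζ := by
      have h3 : q ^ j = (q ^ N) ^ (j / N) * q ^ (j % N) := by
        rw [← pow_mul, ← pow_add, Nat.div_add_mod]
      rw [h3, pow_mul, hζNa] at hζj
      exact hζj
    have hqb : 2 ≤ q ^ (j % N) := by
      calc 2 ≤ q := hq.two_le
        _ = q ^ 1 := (pow_one q).symm
        _ ≤ q ^ (j % N) := Nat.pow_le_pow_right hq.pos hbpos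
    have hζ0 : ζ ≠ 0 := hζ.ne_zero hmpos.ne'
    have h4 : ζ ^ (q ^ (j % N) - 1) = 1 := by
      have h5 : ζ ^ (q ^ (j % N) - 1) * ζ = 1 * ζ := by
        rw [← pow_succ, Nat.sub_add_cancel (by omega), h2, one_mul]
      exact mul_right_cancel₀ hζ0 h5
    have hlt : q ^ (j % N) - 1 < m := by
      have : q ^ (j % N) < q ^ N := Nat.pow_lt_pow_right hq.one_lt hblt
      omega
    exact hζ.pow_ne_one_of_pos_of_lt (by omega) hlt h4
  have hφj : φ ^ j ∈ L.fixingSubgroup := by
    have h3 : j = N * (j / N) := by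
      have := Nat.div_add_mod j N
      rw [hjN, add_zero] at this
      exact this.symm
    rw [h3, pow_mul]
    exact pow_mem hφN _
  -- `s = ι` on `L`
  have hsL : ∀ x ∈ L, s x = ι x := by
    intro x hx
    rw [hj x ((le_sup_left : L ≤ L ⊔ cycloField m) hx)]
    exact (IntermediateField.mem_fixingSubgroup_iff L _).1 hφj _ (map_mem_of_normal L ι hx)
  rw [IntermediateField.mem_fixingSubgroup_iff]
  intro x hx
  rw [AlgEquiv.mul_apply, hsL _ (map_mem_of_normal L ι⁻¹ hx)]
  exact ι.apply_symm_apply x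

/-- **(UR3), intrinsic form.**  `r : Γ →* G_ℚ` with image in the decomposition group `D` of `A`
and `D ⊓ Fix L ≤ range r` for a finite `L`.  A 2-cocycle of `Γ` with values in a `p`-torsion module,
where cocycle and module are of level `L` and invariant under `r⁻¹(I)`, is the coboundary of a
1-cochain of level `F'`, `F'/ℚ` finite Galois with `I ≤ Fix F'`. -/
theorem exists_unramified_primitive_intrinsic {q : ℕ} (hq : q.Prime) (hA : A.LiesOverPrime q)
    {Γ M : Type*} [Group Γ] [AddCommGroup M] [DistribMulAction Γ M] (r : Γ →* Gq)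
    (hr : ∀ g, r g ∈ A.decompositionSubgroup ℚ)
    (L : IntermediateField ℚ Qb) [FiniteDimensional ℚ L]
    (hL : ∀ σ ∈ A.decompositionSubgroup ℚ, σ ∈ L.fixingSubgroup → σ ∈ r.range)
    {p : ℕ} (hp : p.Prime) (hM : ∀ x : M, p • x = 0)
    (hactL : ∀ s : Γ, r s ∈ L.fixingSubgroup → ∀ x : M, s • x = x)
    (hactI : ∀ s : Γ, r s ∈ A.inertiaSubgroupIn ℚ → ∀ x : M, s • x = x)
    {f : Γ × Γ → M} (hf : IsCocycle₂ f)
    (hfL : ∀ g h s t, r s ∈ L.fixingSubgroup → r t ∈ L.fixingSubgroup →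
      f (g * s, h * t) = f (g, h))
    (hfI : ∀ g h s t, r s ∈ A.inertiaSubgroupIn ℚ → r t ∈ A.inertiaSubgroupIn ℚ →
      f (g * s, h * t) = f (g, h)) :
    ∃ F' : IntermediateField ℚ Qb, FiniteDimensional ℚ F' ∧ Normal ℚ F' ∧
      A.inertiaSubgroupIn ℚ ≤ F'.fixingSubgroup ∧ ∃ x : Γ → M,
        (∀ g s, r s ∈ F'.fixingSubgroup → x (g * s) = x g) ∧
        ∀ g h, g • x h - x (g * h) + x g = f (g, h) := by
  obtain ⟨φ, hφ⟩ := Fermat.Agent.Lib.Frobenius.exists_isFrobeniusAt A hq hA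
  -- pass to the Galois closure of `L`
  let L₁ : IntermediateField ℚ Qb := IntermediateField.normalClosure ℚ L Qb
  have hLL₁ : L ≤ L₁ := IntermediateField.le_normalClosure L
  have : FiniteDimensional ℚ L₁ := normalClosure.is_finiteDimensional ℚ L Qb
  have hL₁n : Normal ℚ L₁ := normalClosure.normal ℚ L Qb
  have hfix : L₁.fixingSubgroup ≤ L.fixingSubgroup :=
    IntermediateField.fixingSubgroup_antitone hLL₁
  let φL := AlgEquiv.restrictNormalHom (F := ℚ) (K₁ := Qb) L₁ φ
  set N := orderOf φL with hN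
  have hNpos : 0 < N := orderOf_pos φL
  have hφN : φ ^ N ∈ L₁.fixingSubgroup := by
    rw [fixingSubgroup_eq_ker, MonoidHom.mem_ker, map_pow]
    exact pow_orderOf_eq_one φL
  set m₀ := q ^ N - 1 with hm₀
  have hqN : 2 ≤ q ^ N := by
    calc 2 ≤ q := hq.two_le
      _ = q ^ 1 := (pow_one q).symm
      _ ≤ q ^ N := Nat.pow_le_pow_right hq.pos hNpos
  have hm₀pos : 0 < m₀ := by omega
  have hm₀cop : m₀.Coprime q := coprime_pow_sub_one hq.pos N hNpos.ne'
  -- elements fixing `μ_{m₀}` are products `Fix L * inertia`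
  have key : ∀ s : Γ, r s ∈ (cycloField m₀).fixingSubgroup →
      ∃ σ' ι' : Γ, r σ' ∈ L.fixingSubgroup ∧ r ι' ∈ A.inertiaSubgroupIn ℚ ∧ s = σ' * ι' := by
    intro s hs
    obtain ⟨ι, hι, hsι⟩ := exists_inertia_mul_of_fixes_roots A hq hA hφ L₁ hNpos hφN (hr s) hs
    have hιD : ι ∈ A.decompositionSubgroup ℚ := inertia_le_decomposition A hι
    obtain ⟨σ', hσ'⟩ := hL (r s * ι⁻¹) (mul_mem (hr s) (inv_mem hιD)) (hfix hsι)
    refine ⟨σ', σ'⁻¹ * s, ?_, ?_, ?_⟩
    · rw [hσ']
      exact hfix hsι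
    · have h1 : r (σ'⁻¹ * s) = ι := by
        rw [map_mul, map_inv, hσ']
        group
      rw [h1]
      exact hι
    · rw [mul_inv_cancel_left]
  have hact' : ∀ s : Γ, r s ∈ (cycloField m₀).fixingSubgroup → ∀ x : M, s • x = x := by
    intro s hs x
    obtain ⟨σ', ι', h1, h2, rfl⟩ := key s hs
    rw [mul_smul, hactI ι' h2, hactL σ' h1]
  have hinv' : ∀ g h s t, r s ∈ (cycloField m₀).fixingSubgroup →
      r t ∈ (cycloField m₀).fixingSubgroup → f (g * s, h * t) = f (g, h) := by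
    intro g h s t hs ht
    obtain ⟨σ₁, ι₁, h1, h2, rfl⟩ := key s hs
    obtain ⟨σ₂, ι₂, h3, h4, rfl⟩ := key t ht
    rw [← mul_assoc, ← mul_assoc, hfI _ _ ι₁ ι₂ h2 h4, hfL g h σ₁ σ₂ h1 h3]
  obtain ⟨γ₀, hγ₀⟩ := hL (φ ^ N) (pow_mem hφ.mem_decompositionSubgroup N) (hfix hφN)
  have hcn : Normal ℚ (cycloField m₀) := normal_cycloField m₀
  have hcf : FiniteDimensional ℚ (cycloField m₀) := finiteDimensional_cycloField m₀ hm₀pos.ne'
  have hcur : A.inertiaSubgroupIn ℚ ≤ (cycloField m₀).fixingSubgroup := by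
    intro g hg
    rw [mem_fixingSubgroup_cycloField_iff]
    exact fun x hx => inertia_root A hA g hg hm₀cop hx
  obtain ⟨m, hmpos, hmcop, x, hx1, hx2⟩ := exists_unramified_primitive A hq hA hφ r hr hNpos γ₀
    hγ₀ hp hM (cycloField m₀) hcur hact' hf hinv'
  have hcf' : FiniteDimensional ℚ (cycloField m) := finiteDimensional_cycloField m hmpos.ne'
  refine ⟨cycloField m₀ ⊔ cycloField m,
    IntermediateField.finiteDimensional_sup (cycloField m₀) (cycloField m),
    @IntermediateField.normal_sup ℚ Qb _ _ _ (cycloField m₀) (cycloField m) hcn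
      (normal_cycloField m),
    inertia_le_fixingSubgroup_sup_cycloField A hA hcur hmcop, x, hx1, hx2⟩

/-- **(UNR-1)** `K`-side: the cup product of two unramified characters of the local group
`D_A ⊓ Fix K` (trivial coefficients, killed by `p`) is the coboundary of a level-constant
cochain.  No hypothesis on `p` and `q`. -/
theorem unram_cup_unram (K : IntermediateField ℚ Qb) [FiniteDimensional ℚ K] {q : ℕ}
    (hq : q.Prime) (hA : A.LiesOverPrime q) {p : ℕ} [Fact p.Prime] {M : Type*} [AddCommGroup M]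
    [Module (ZMod p) M]
    (η : ↥(A.decompositionSubgroup ℚ ⊓ K.fixingSubgroup) → ZMod p)
    (hη : ∀ s t, η (s * t) = η s + η t)
    (hηl : IsLevelConstant₁ (A.decompositionSubgroup ℚ ⊓ K.fixingSubgroup).subtype η)
    (hηu : ∀ s : ↥(A.decompositionSubgroup ℚ ⊓ K.fixingSubgroup),
      (s : Gq) ∈ A.inertiaSubgroupIn ℚ → η s = 0)
    (y : ↥(A.decompositionSubgroup ℚ ⊓ K.fixingSubgroup) → M)
    (hy : ∀ s t, y (s * t) = y s + y t)
    (hyl : IsLevelConstant₁ (A.decompositionSubgroup ℚ ⊓ K.fixingSubgroup).subtype y)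
    (hyu : ∀ s : ↥(A.decompositionSubgroup ℚ ⊓ K.fixingSubgroup),
      (s : Gq) ∈ A.inertiaSubgroupIn ℚ → y s = 0) :
    ∃ g : ↥(A.decompositionSubgroup ℚ ⊓ K.fixingSubgroup) → M,
      IsLevelConstant₁ (A.decompositionSubgroup ℚ ⊓ K.fixingSubgroup).subtype g ∧
      ∀ s t, η s • y t = g t - g (s * t) + g s := by
  obtain ⟨Fη, hFη, hη'⟩ := hηl
  obtain ⟨Fy, hFy, hy'⟩ := hyl
  let L : IntermediateField ℚ Qb := K ⊔ (Fη ⊔ Fy)
  have : FiniteDimensional ℚ (Fη ⊔ Fy : IntermediateField ℚ Qb) :=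
    IntermediateField.finiteDimensional_sup Fη Fy
  have : FiniteDimensional ℚ L := IntermediateField.finiteDimensional_sup K (Fη ⊔ Fy)
  have hLK : L.fixingSubgroup ≤ K.fixingSubgroup :=
    IntermediateField.fixingSubgroup_antitone le_sup_left
  have hLη : L.fixingSubgroup ≤ Fη.fixingSubgroup :=
    IntermediateField.fixingSubgroup_antitone (le_sup_left.trans le_sup_right)
  have hLy : L.fixingSubgroup ≤ Fy.fixingSubgroup :=
    IntermediateField.fixingSubgroup_antitone (le_sup_right.trans le_sup_right)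
  have hη1 : η 1 = 0 := by
    have := hη 1 1
    rw [mul_one] at this
    exact left_eq_add.1 this
  have hy1 : y 1 = 0 := by
    have := hy 1 1
    rw [mul_one] at this
    exact left_eq_add.1 this
  have hηL : ∀ s : ↥(A.decompositionSubgroup ℚ ⊓ K.fixingSubgroup),
      (s : Gq) ∈ L.fixingSubgroup → η s = 0 := by
    intro s hs
    have := hη' 1 s (hLη hs)
    rw [one_mul, hη1] at this
    exact this
  have hyL : ∀ s : ↥(A.decompositionSubgroup ℚ ⊓ K.fixingSubgroup),
      (s : Gq) ∈ L.fixingSubgroup → y s = 0 := by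
    intro s hs
    have := hy' 1 s (hLy hs)
    rw [one_mul, hy1] at this
    exact this
  let _ : DistribMulAction ↥(A.decompositionSubgroup ℚ ⊓ K.fixingSubgroup) M :=
    { smul := fun _ x => x
      one_smul := fun _ => rfl
      mul_smul := fun _ _ _ => rfl
      smul_zero := fun _ => rfl
      smul_add := fun _ _ _ => rfl }
  have hp : p.Prime := Fact.out
  have hM : ∀ x : M, p • x = 0 := by
    intro x
    rw [← Nat.cast_smul_eq_nsmul (ZMod p) p x, ZMod.natCast_self, zero_smul]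
  have hf : IsCocycle₂ (fun st : ↥(A.decompositionSubgroup ℚ ⊓ K.fixingSubgroup) ×
      ↥(A.decompositionSubgroup ℚ ⊓ K.fixingSubgroup) => η st.1 • y st.2) := by
    intro g h j
    show η (g * h) • y j + η g • y h = η h • y j + η g • y (h * j)
    rw [hη, hy, add_smul, smul_add]
    abel
  obtain ⟨F', hF'fd, -, -, x, hx1, hx2⟩ := exists_unramified_primitive_intrinsic A hq hA
    (A.decompositionSubgroup ℚ ⊓ K.fixingSubgroup).subtype (fun g => g.2.1) L
    (fun σ hσ hσL => ⟨⟨σ, hσ, hLK hσL⟩, rfl⟩) hp hM (fun _ _ _ => rfl) (fun _ _ _ => rfl) hf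
    (fun g h s t hs ht => by
      show η (g * s) • y (h * t) = η g • y h
      rw [hη, hy, hηL s hs, hyL t ht, add_zero, add_zero])
    (fun g h s t hs ht => by
      show η (g * s) • y (h * t) = η g • y h
      rw [hη, hy, hηu s hs, hyu t ht, add_zero, add_zero])
  exact ⟨x, ⟨F', hF'fd, fun g s hs => hx1 g s hs⟩, fun s t => (hx2 s t).symm⟩

end Fermat.Agent.S55.Glue.UnramIntrinsic
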