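import Mathlib
import Fermat.Agent.S55.Glue.LocalDegreeMackey
import Fermat.Agent.CFT.Global.CountV

/-!
# The numeric end of the count `(c1)`

`(c1)` bounds `∑_{q ∈ S} dim H¹(G_q, N)` for `N = coind_{G_K}^{G_ℚ} 𝔽_p` by
`2·|S_K| + [K : ℚ]`.  After the Mackey decomposition and the local bound
`dim H¹(G_{K_w}, 𝔽_p) ≤ 2 + [K_w : ℚ_q]·[q = p]` what is left is pure counting, done here:

* `card_SK_eq_sum` : `|S_K| = ∑_{q ∈ S} #{places of K above q}`;
* `sum_finsum_two_add_localDegreeAt`, `sum_sum_two_add_localDegree_drep` :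
  `∑_{q ∈ S} ∑_{w ∣ q} (2 + [K_w : ℚ_q]·[q = p]) = 2·|S_K| + [K : ℚ]` (places form / Mackey
  representatives form), for `p ∈ S`;
* `sum_sum_le_of_le` : the resulting upper bound for any family of numbers bounded termwise.
-/

set_option autoImplicit false

open scoped NumberField

namespace Fermat.Agent.S55.Glue.LocalDegree

open Fermat.Agent.S55.Glue Fermat.Agent.S55.Glue.PlacesAbove Fermat.Agent.S55.Shapiro
  Fermat.Agent.CFT.Global.CountV ExtCitation IsDedekindDomain

local notation "Qb" => AlgebraicClosure ℚ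
local notation "GQ" => (AlgebraicClosure ℚ ≃ₐ[ℚ] AlgebraicClosure ℚ)

/-- `Fact` instance for the elements of `Nat.Primes` (the Prelude's `primeLocalToGlobal q` is
`localGaloisToGlobal q` for this instance). -/
theorem fact_natPrimes (q : Nat.Primes) : Fact (q : ℕ).Prime := ⟨q.2⟩

attribute [local instance] fact_natPrimes

section Card

variable (K : IntermediateField ℚ Qb) [NumberField K]

omit [NumberField K] in
/-- A height-one prime of `𝓞 K` contains at most one rational prime. -/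
theorem eq_of_natCast_mem_asIdeal (v : HeightOneSpectrum (𝓞 K)) {q q' : ℕ} (hq : q.Prime)
    (hq' : q'.Prime) (h : ((q : ℕ) : 𝓞 K) ∈ v.asIdeal) (h' : ((q' : ℕ) : 𝓞 K) ∈ v.asIdeal) :
    q = q' := by
  by_contra hne
  have hcop : IsCoprime (q : ℤ) (q' : ℤ) :=
    Nat.isCoprime_iff_coprime.mpr ((Nat.coprime_primes hq hq').mpr hne)
  obtain ⟨a, b, hab⟩ := hcop
  have h1 : (1 : 𝓞 K) ∈ v.asIdeal := by
    have h2 : ((a * q + b * q' : ℤ) : 𝓞 K) ∈ v.asIdeal := by
      push_cast
      exact v.asIdeal.add_mem (v.asIdeal.mul_mem_left _ h) (v.asIdeal.mul_mem_left _ h')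
    rw [hab] at h2
    simpa using h2
  exact v.isPrime.ne_top ((Ideal.eq_top_iff_one _).mpr h1)

variable (S : Finset Nat.Primes)

/-- **`|S_K| = ∑_{q ∈ S} #{places of K above q}`.** -/
theorem card_SK_eq_sum :
    (SK S K).card = ∑ q ∈ S, Nat.card (PlacesOver K (q : ℕ)) := by
  have hfin : ∀ q : ↥S, Finite (PlacesOver K ((q : Nat.Primes) : ℕ)) := fun q =>
    finite_placesOver K q.1.2.ne_zero
  let f : (Σ q : ↥S, PlacesOver K ((q : Nat.Primes) : ℕ)) → ↥(SK S K) := fun x =>
    ⟨x.2.1, (mem_SK_iff S K _).mpr ⟨x.1.1, x.1.2, x.2.2⟩⟩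
  have hf : Function.Bijective f := by
    constructor
    · rintro ⟨q, w⟩ ⟨q', w'⟩ h
      have hv : w.1 = w'.1 := congrArg Subtype.val h
      have hq : q = q' := by
        apply Subtype.ext
        apply Subtype.ext
        exact eq_of_natCast_mem_asIdeal K w.1 q.1.2 q'.1.2 w.2 (hv ▸ w'.2)
      subst hq
      have hw : w = w' := Subtype.ext hv
      rw [hw]
    · rintro ⟨v, hv⟩
      obtain ⟨q, hq, hmem⟩ := (mem_SK_iff S K v).mp hv
      exact ⟨⟨⟨q, hq⟩, ⟨v, hmem⟩⟩, rfl⟩
  rw [← Finset.sum_coe_sort S (fun q => Nat.card (PlacesOver K (q : ℕ))), ← Nat.card_sigma,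
    Nat.card_eq_of_bijective f hf, Nat.card_eq_fintype_card, Fintype.card_coe]

variable (p : ℕ) [Fact p.Prime]

/-- `∑_{q ∈ S} [q = p]·d = d` when `p ∈ S`. -/
theorem sum_ite_eq_pPrime (hpS : pPrime p ∈ S) (d : ℕ) :
    ∑ q ∈ S, (if ((q : Nat.Primes) : ℕ) = p then d else 0) = d := by
  rw [Finset.sum_eq_single_of_mem (pPrime p) hpS]
  · simp
  · intro q _ hq
    rw [if_neg]
    intro h
    exact hq (Subtype.ext h)

/-- `∑_{q ∈ S} (2·#{w ∣ q} + [q = p]·[K : ℚ]) = 2·|S_K| + [K : ℚ]` when `p ∈ S`. -/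
theorem sum_two_mul_card_placesOver_add (hpS : pPrime p ∈ S) :
    ∑ q ∈ S, (2 * Nat.card (PlacesOver K (q : ℕ)) +
        if ((q : Nat.Primes) : ℕ) = p then Module.finrank ℚ K else 0) =
      2 * (SK S K).card + Module.finrank ℚ K := by
  rw [Finset.sum_add_distrib, ← Finset.mul_sum, ← card_SK_eq_sum, sum_ite_eq_pPrime S p hpS]

omit [Fact p.Prime] in
/-- One prime, places form:
`∑_{w ∣ q} (2 + [K_w : ℚ_q]·[q = p]) = 2·#{w ∣ q} + [q = p]·[K : ℚ]`. -/
theorem finsum_two_add_localDegreeAt (q : ℕ) [Fact q.Prime] :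
    ∑ᶠ w : PlacesOver K q, (2 + if q = p then localDegreeAt q K w else 0) =
      2 * Nat.card (PlacesOver K q) + if q = p then Module.finrank ℚ K else 0 := by
  have := finite_placesOver K (Fact.out : q.Prime).ne_zero
  have : Fintype (PlacesOver K q) := Fintype.ofFinite _
  by_cases h : q = p
  · simp only [if_pos h]
    rw [finsum_eq_sum_of_fintype, Finset.sum_add_distrib, Finset.sum_const, Finset.card_univ,
      sum_localDegreeAt q K, Nat.card_eq_fintype_card, smul_eq_mul, mul_comm]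
  · simp only [if_neg h, add_zero]
    rw [finsum_eq_sum_of_fintype, Finset.sum_const, Finset.card_univ, Nat.card_eq_fintype_card,
      smul_eq_mul, mul_comm]

omit [Fact p.Prime] in
/-- One prime, Mackey representatives form:
`∑_j (2 + [K_{w_j} : ℚ_q]·[q = p]) = 2·#{w ∣ q} + [q = p]·[K : ℚ]`. -/
theorem sum_two_add_localDegree_drep (q : ℕ) [Fact q.Prime] {J : Type} [Fintype J]
    (D : DRep K.fixingSubgroup (localGaloisToGlobal q) J) :
    ∑ j, (2 + if q = p then localDegree q K (D.τ j) else 0) =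
      2 * Nat.card (PlacesOver K q) + if q = p then Module.finrank ℚ K else 0 := by
  have : FiniteDimensional ℚ K := NumberField.to_finiteDimensional
  by_cases h : q = p
  · simp only [if_pos h]
    rw [Finset.sum_add_distrib, Finset.sum_const, Finset.card_univ, drep_sum_localDegree q K D,
      ← drep_card_eq_card_placesOver q K D, Nat.card_eq_fintype_card, smul_eq_mul, mul_comm]
  · simp only [if_neg h, add_zero]
    rw [Finset.sum_const, Finset.card_univ, ← drep_card_eq_card_placesOver q K D,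
      Nat.card_eq_fintype_card, smul_eq_mul, mul_comm]

/-- **Places form of the count**:
`∑_{q ∈ S} ∑_{w ∣ q} (2 + [K_w : ℚ_q]·[q = p]) = 2·|S_K| + [K : ℚ]` for `p ∈ S`. -/
theorem sum_finsum_two_add_localDegreeAt (hpS : pPrime p ∈ S) :
    ∑ q ∈ S, ∑ᶠ w : PlacesOver K (q : ℕ),
        (2 + if ((q : Nat.Primes) : ℕ) = p then localDegreeAt (q : ℕ) K w else 0) =
      2 * (SK S K).card + Module.finrank ℚ K := by
  have h : ∀ q : Nat.Primes, ∑ᶠ w : PlacesOver K (q : ℕ),
      (2 + if ((q : Nat.Primes) : ℕ) = p then localDegreeAt (q : ℕ) K w else 0) =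
      2 * Nat.card (PlacesOver K (q : ℕ)) +
        if ((q : Nat.Primes) : ℕ) = p then Module.finrank ℚ K else 0 := fun q =>
    finsum_two_add_localDegreeAt K p (q : ℕ)
  simp_rw [h]
  exact sum_two_mul_card_placesOver_add K S p hpS

/-- **Mackey form of the count**: for systems of representatives `D q` of
`G_K \ G_ℚ / G_q` (`q ∈ S`, in the Prelude's shape `primeLocalToGlobal q`),
`∑_{q ∈ S} ∑_j (2 + [K_{w_j} : ℚ_q]·[q = p]) = 2·|S_K| + [K : ℚ]` for `p ∈ S`. -/
theorem sum_sum_two_add_localDegree_drep (hpS : pPrime p ∈ S) (J : ↥S → Type)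
    [∀ q, Fintype (J q)]
    (D : ∀ q : ↥S, DRep K.fixingSubgroup (primeLocalToGlobal (q : Nat.Primes)) (J q)) :
    ∑ q : ↥S, ∑ j : J q,
        (2 + if ((q : Nat.Primes) : ℕ) = p then
          localDegree ((q : Nat.Primes) : ℕ) K ((D q).τ j) else 0) =
      2 * (SK S K).card + Module.finrank ℚ K := by
  have h : ∀ q : ↥S, ∑ j : J q,
      (2 + if ((q : Nat.Primes) : ℕ) = p then
        localDegree ((q : Nat.Primes) : ℕ) K ((D q).τ j) else 0) =
      2 * Nat.card (PlacesOver K ((q : Nat.Primes) : ℕ)) +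
        if ((q : Nat.Primes) : ℕ) = p then Module.finrank ℚ K else 0 := fun q =>
    sum_two_add_localDegree_drep K p ((q : Nat.Primes) : ℕ) (D q)
  simp_rw [h]
  rw [Finset.sum_coe_sort S (fun q : Nat.Primes => 2 * Nat.card (PlacesOver K (q : ℕ)) +
    if (q : ℕ) = p then Module.finrank ℚ K else 0)]
  exact sum_two_mul_card_placesOver_add K S p hpS

/-- **The count `(c1)`, numeric form**: numbers `n q j` bounded by
`2 + [K_{w_j} : ℚ_q]·[q = p]` sum to at most `2·|S_K| + [K : ℚ]`. -/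
theorem sum_sum_le_of_le (hpS : pPrime p ∈ S) (J : ↥S → Type) [∀ q, Fintype (J q)]
    (D : ∀ q : ↥S, DRep K.fixingSubgroup (primeLocalToGlobal (q : Nat.Primes)) (J q))
    (n : ∀ q : ↥S, J q → ℕ)
    (hn : ∀ q j, n q j ≤ 2 + if ((q : Nat.Primes) : ℕ) = p then
      localDegree ((q : Nat.Primes) : ℕ) K ((D q).τ j) else 0) :
    ∑ q : ↥S, ∑ j : J q, n q j ≤ 2 * (SK S K).card + Module.finrank ℚ K := by
  rw [← sum_sum_two_add_localDegree_drep K S p hpS J D]
  exact Finset.sum_le_sum fun q _ => Finset.sum_le_sum fun j _ => hn q j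

end Card

section Field

variable (q : ℕ) [Fact q.Prime] (K : IntermediateField ℚ Qb)

/-- A field `E` cutting out the Mackey subgroup at `g` has degree `localDegree q K g` over
`ℚ_q` (to be used with `FinCard.exists_field_finrank_homLC_le`). -/
theorem finrank_eq_localDegree_of_conjSub_eq (g : GQ)
    (E : IntermediateField ℚ_[q] (PadicAlgCl q))
    (h : conjSub K.fixingSubgroup (localGaloisToGlobal q) g = E.fixingSubgroup) :
    Module.finrank ℚ_[q] E = localDegree q K g := by
  rw [IntermediateField.finrank_eq_fixingSubgroup_index, ← h, index_conjSub_eq_localDegree]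

end Field

end Fermat.Agent.S55.Glue.LocalDegree
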