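import Mathlib
import Fermat.Agent.S55.Glue.CoindDual
import Fermat.Agent.S55.Shapiro.Product
import Fermat.Agent.S55.Abs.Cup

/-!
# S55 / glue: the self-pairing of `coind_U^G k` is the norm of the pointwise product

Bridge between `Glue/CoindDual` (helper107), `Shapiro/Product` (helper265), `Shapiro/Norm`
(helper135) and the evaluation pairing of `Abs/Cup` (helper235).

`χ : G →* kˣ` trivial on `U ≤ G` of finite index, `M0 U = coind_U^G k`, `μ = muRep χ`.

* `mulTriv χ` : multiplication `k × k → Res_U μ` on the trivial `U`-module, equivariant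
  (`mulTriv_equivariant`) because `χ` is trivial on `U`.
* `pair_eq_coindPair` : `CoindDual.pair χ hχ f f' = coindPair (mulTriv χ) _ f f'`
  (`= nrm U μ (f · f')`).
* `evPairing_dualTwistIso` : `ev (f, ψ f') = coindPair (mulTriv χ) _ f f'` for the
  self-duality `ψ = dualTwistIso χ hχ : M0 U ≅ (M0 U).dualTwist χ`.
* consequently cups for the evaluation pairing of induced cochains are corestrictions:
  `cup₁₁_ev_ind`, `cup₀₂_ev_ind`, `cup₂₀_ev_ind`, `cup₀₁_ev_ind`, `cup₁₀_ev_ind`.
-/

set_option autoImplicit false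

open CategoryTheory groupCohomology

namespace Fermat.Agent.S55.Glue.CoindDual

open Fermat.Agent.S55.Abs Fermat.Agent.S55.Abs.CupLow Fermat.Agent.S55.Shapiro

variable {k : Type} [Field k] {G : Type} [Group G] {U : Subgroup G}

/-- Multiplication `k × k → Res_U μ` on the trivial `U`-module. -/
noncomputable def mulTriv (χ : G →* kˣ) :
    (Rep.trivial k U k) →ₗ[k] (Rep.trivial k U k) →ₗ[k] (Rep.res U.subtype (muRep χ)) :=
  LinearMap.mk₂ k (fun (a b : k) => ((a * b : k) : (muRep χ : Rep.{0} k G)))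
    (fun a a' b => add_mul a a' b) (fun c a b => by simp [mul_assoc])
    (fun a b b' => mul_add a b b') (fun c a b => by simp [mul_left_comm])

lemma mulTriv_apply (χ : G →* kˣ) (a b : k) :
    (mulTriv (U := U) χ a b : k) = a * b := rfl

lemma mulTriv_equivariant (χ : G →* kˣ) (hχ : ∀ u ∈ U, χ u = 1) :
    Equivariant (mulTriv (U := U) χ) := by
  intro u a b
  show (a * b : k) = (χ (u : G) : k) * (a * b)
  rw [hχ _ u.2, Units.val_one, one_mul]

variable [U.FiniteIndex] (χ : G →* kˣ) (hχ : ∀ u ∈ U, χ u = 1)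

/-- **The self-pairing is the coefficient norm of the pointwise product.** -/
theorem pair_eq_coindPair (f f' : (M0 U : Rep.{0} k G)) :
    pair χ hχ f f' = coindPair (C := muRep χ) (mulTriv χ) (mulTriv_equivariant χ hχ) f f' := by
  classical
  letI : Fintype (G ⧸ U) := fintypeQuot'
  have : Finite (Quotient (QuotientGroup.rightRel U)) :=
    Finite.of_equiv _ (QuotientGroup.quotientRightRelEquivQuotientLeftRel U).symm
  letI : Fintype (Quotient (QuotientGroup.rightRel U)) := Fintype.ofFinite _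
  rw [coindPair_apply, nrm_apply, finsum_eq_sum_of_fintype, pair_apply]
  rw [← Equiv.sum_comp (QuotientGroup.quotientRightRelEquivQuotientLeftRel U)]
  refine Finset.sum_congr rfl fun q _ => ?_
  induction q using Quotient.inductionOn with
  | h g =>
    show pairTerm χ hχ f f' (QuotientGroup.mk g⁻¹) =
      (muRep χ).ρ g⁻¹ ((coindMul (mulTriv χ) (mulTriv_equivariant χ hχ) f f').1 g)
    rw [pairTerm_mk, inv_inv, muRep_ρ_apply]
    rfl

/-- The evaluation pairing through the self-duality `M0 U ≅ (M0 U).dualTwist χ`. -/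
theorem evPairing_dualTwistIso (f f' : (M0 U : Rep.{0} k G)) :
    (evPairing χ (M0 U : Rep.{0} k G)).toFun f ((dualTwistIso χ hχ).hom.hom f') =
      coindPair (C := muRep χ) (mulTriv χ) (mulTriv_equivariant χ hχ) f f' := by
  rw [← pair_eq_coindPair]
  rfl

/-- The self-duality is equivariant (pointwise form). -/
theorem dualTwistIso_hom_ρ (g : G) (f' : (M0 U : Rep.{0} k G)) :
    (dualTwistIso χ hχ).hom.hom ((M0 U : Rep.{0} k G).ρ g f') =
      ((M0 U : Rep.{0} k G).dualTwist χ).ρ g ((dualTwistIso χ hχ).hom.hom f') :=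
  toDualLin_ρ χ hχ g f'

/-! ### Cups for the evaluation pairing are cups for `coindPair (mulTriv χ)` -/

/-- The push-forward of `1`-cochains along the self-duality. -/
noncomputable abbrev psi₁ (y : G → (M0 U : Rep.{0} k G)) :
    G → ((M0 U : Rep.{0} k G).dualTwist χ) :=
  fun g => (dualTwistIso χ hχ).hom.hom (y g)

/-- The push-forward of `2`-cochains along the self-duality. -/
noncomputable abbrev psi₂ (y : G × G → (M0 U : Rep.{0} k G)) :
    G × G → ((M0 U : Rep.{0} k G).dualTwist χ) :=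
  fun p => (dualTwistIso χ hχ).hom.hom (y p)

theorem cup01_ev (a : (M0 U : Rep.{0} k G)) (y : G → (M0 U : Rep.{0} k G)) :
    cup01 (evPairing χ (M0 U : Rep.{0} k G)) a (psi₁ χ hχ y) =
      cup₀₁ (coindPair (C := muRep χ) (mulTriv χ) (mulTriv_equivariant χ hχ)) a y := by
  funext g
  exact evPairing_dualTwistIso χ hχ a (y g)

theorem cup02_ev (a : (M0 U : Rep.{0} k G)) (y : G × G → (M0 U : Rep.{0} k G)) :
    cup02 (evPairing χ (M0 U : Rep.{0} k G)) a (psi₂ χ hχ y) =
      cup₀₂ (coindPair (C := muRep χ) (mulTriv χ) (mulTriv_equivariant χ hχ)) a y := by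
  funext g
  exact evPairing_dualTwistIso χ hχ a (y g)

theorem cup10_ev (x : G → (M0 U : Rep.{0} k G)) (b : (M0 U : Rep.{0} k G)) :
    cup10 (evPairing χ (M0 U : Rep.{0} k G)) x ((dualTwistIso χ hχ).hom.hom b) =
      cup₁₀ (coindPair (C := muRep χ) (mulTriv χ) (mulTriv_equivariant χ hχ)) x b := by
  funext g
  rw [cup10_apply, ← dualTwistIso_hom_ρ]
  exact evPairing_dualTwistIso χ hχ (x g) _

theorem cup20_ev (x : G × G → (M0 U : Rep.{0} k G)) (b : (M0 U : Rep.{0} k G)) :
    cup20 (evPairing χ (M0 U : Rep.{0} k G)) x ((dualTwistIso χ hχ).hom.hom b) =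
      cup₂₀ (coindPair (C := muRep χ) (mulTriv χ) (mulTriv_equivariant χ hχ)) x b := by
  funext g
  rw [cup20_apply, ← dualTwistIso_hom_ρ]
  exact evPairing_dualTwistIso χ hχ (x g) _

theorem cup11_ev (x y : G → (M0 U : Rep.{0} k G)) :
    cup11 (evPairing χ (M0 U : Rep.{0} k G)) x (psi₁ χ hχ y) =
      cup₁₁ (coindPair (C := muRep χ) (mulTriv χ) (mulTriv_equivariant χ hχ)) x y := by
  funext g
  rw [cup11_apply, ← dualTwistIso_hom_ρ]
  exact evPairing_dualTwistIso χ hχ (x g.1) _

/-! ### On induced cochains the evaluation cups are corestrictions -/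

variable (R : Retr U)

/-- `ind a ∪_ev ψ(ind y) = cores (a · y)` in bidegree `(0, 1)`. -/
theorem cup01_ev_ind (a : k) (y : U → k) :
    cup01 (evPairing χ (M0 U : Rep.{0} k G)) (ind₀ (Rep.trivial k U k) R a)
        (psi₁ χ hχ (ind₁ (Rep.trivial k U k) R y)) =
      cores₁ (muRep χ) R (cup₀₁ (mulTriv χ) a y) := by
  rw [cup01_ev, cup₀₁_coindPair_ind]

/-- Bidegree `(1, 0)`. -/
theorem cup10_ev_ind (x : U → k) (b : k) :
    cup10 (evPairing χ (M0 U : Rep.{0} k G)) (ind₁ (Rep.trivial k U k) R x)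
        ((dualTwistIso χ hχ).hom.hom (ind₀ (Rep.trivial k U k) R b)) =
      cores₁ (muRep χ) R (cup₁₀ (mulTriv χ) x b) := by
  rw [cup10_ev, cup₁₀_coindPair_ind]

/-- Bidegree `(1, 1)`: `ind x ∪_ev ψ(ind y) = cores (x ∪ y)`. -/
theorem cup11_ev_ind (x y : U → k) :
    cup11 (evPairing χ (M0 U : Rep.{0} k G)) (ind₁ (Rep.trivial k U k) R x)
        (psi₁ χ hχ (ind₁ (Rep.trivial k U k) R y)) =
      cores₂ (muRep χ) R (cup₁₁ (mulTriv χ) x y) := by
  rw [cup11_ev, cup₁₁_coindPair_ind]

/-- Bidegree `(0, 2)`. -/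
theorem cup02_ev_ind (a : k) (y : U × U → k) :
    cup02 (evPairing χ (M0 U : Rep.{0} k G)) (ind₀ (Rep.trivial k U k) R a)
        (psi₂ χ hχ (ind₂ (Rep.trivial k U k) R y)) =
      cores₂ (muRep χ) R (cup₀₂ (mulTriv χ) a y) := by
  rw [cup02_ev, cup₀₂_coindPair_ind]

/-- Bidegree `(2, 0)`. -/
theorem cup20_ev_ind (x : U × U → k) (b : k) :
    cup20 (evPairing χ (M0 U : Rep.{0} k G)) (ind₂ (Rep.trivial k U k) R x)
        ((dualTwistIso χ hχ).hom.hom (ind₀ (Rep.trivial k U k) R b)) =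
      cores₂ (muRep χ) R (cup₂₀ (mulTriv χ) x b) := by
  rw [cup20_ev, cup₂₀_coindPair_ind]

end Fermat.Agent.S55.Glue.CoindDual
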