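import Mathlib

/-!
# S55 glue: nondegenerate pairings from linear algebra

The conclusion of S55 is the existence of a bilinear map `B : V →ₗ W →ₗ k` with trivial left and
right kernels.  This file reduces such a statement to dimension counts or to one-sided
properties of a given pairing.  Mathlib only.
-/

set_option autoImplicit false

namespace Fermat.Agent.S55.Glue.PairingLA

open Module

variable {k V W : Type*} [Field k] [AddCommGroup V] [Module k V] [AddCommGroup W] [Module k W]

/-- The shape of the conclusion of S55. -/
def Nondeg (B : V →ₗ[k] W →ₗ[k] k) : Prop :=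
  (∀ y, (∀ x, B y x = 0) → y = 0) ∧ (∀ x, (∀ y, B y x = 0) → x = 0)

/-- A linear equivalence with the dual is a nondegenerate pairing. -/
theorem nondeg_of_equiv_dual (e : V ≃ₗ[k] Dual k W) :
    Nondeg (e.toLinearMap : V →ₗ[k] W →ₗ[k] k) := by
  refine ⟨fun y hy => ?_, fun x hx => ?_⟩
  · apply e.injective
    rw [map_zero]
    ext x
    exact hy x
  · by_contra hne
    obtain ⟨f, hf⟩ : ∃ f : Dual k W, f x ≠ 0 := by
      by_contra hall
      simp only [not_exists, not_not] at hall
      exact hne ((Module.forall_dual_apply_eq_zero_iff k x).mp hall)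
    apply hf
    have := hx (e.symm f)
    simpa using this

/-- Two finite-dimensional spaces of the same dimension admit a nondegenerate pairing. -/
theorem exists_nondeg_of_finrank_eq [FiniteDimensional k V] [FiniteDimensional k W]
    (h : finrank k V = finrank k W) :
    ∃ B : V →ₗ[k] W →ₗ[k] k,
      (∀ y, (∀ x, B y x = 0) → y = 0) ∧ (∀ x, (∀ y, B y x = 0) → x = 0) := by
  have h' : finrank k V = finrank k (Dual k W) := by rw [h, Subspace.dual_finrank_eq]
  obtain ⟨e⟩ := FiniteDimensional.nonempty_linearEquiv_of_finrank_eq h'
  exact ⟨e.toLinearMap, nondeg_of_equiv_dual e⟩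

/-- Conversely, a nondegenerate pairing between finite-dimensional spaces forces equal
dimensions. -/
theorem finrank_eq_of_nondeg [FiniteDimensional k V] [FiniteDimensional k W]
    (B : V →ₗ[k] W →ₗ[k] k) (hB : Nondeg B) : finrank k V = finrank k W := by
  have hinj : Function.Injective B := by
    rw [← LinearMap.ker_eq_bot, LinearMap.ker_eq_bot']
    intro y hy
    exact hB.1 y (fun x => by rw [hy]; rfl)
  have hinj' : Function.Injective B.flip := by
    rw [← LinearMap.ker_eq_bot, LinearMap.ker_eq_bot']
    intro x hx
    exact hB.2 x (fun y => by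
      have := congrArg (fun f => f y) hx
      simpa using this)
  have h1 : finrank k V ≤ finrank k W := by
    have := LinearMap.finrank_le_finrank_of_injective hinj
    rwa [Subspace.dual_finrank_eq] at this
  have h2 : finrank k W ≤ finrank k V := by
    have := LinearMap.finrank_le_finrank_of_injective hinj'
    rwa [Subspace.dual_finrank_eq] at this
  exact le_antisymm h1 h2

/-- If `V` and `W` are finite-dimensional, `B` has trivial left kernel and
`finrank W ≤ finrank V`, then `B` is nondegenerate (and the dimensions agree). -/
theorem nondeg_of_left_of_finrank_le [FiniteDimensional k V] [FiniteDimensional k W]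
    (B : V →ₗ[k] W →ₗ[k] k) (hl : ∀ y, (∀ x, B y x = 0) → y = 0)
    (hle : finrank k W ≤ finrank k V) : Nondeg B := by
  refine ⟨hl, ?_⟩
  have hinj : Function.Injective B := by
    rw [← LinearMap.ker_eq_bot, LinearMap.ker_eq_bot']
    intro y hy
    exact hl y (fun x => by rw [hy]; rfl)
  have hdim : finrank k V = finrank k (Dual k W) := by
    have h1 := LinearMap.finrank_le_finrank_of_injective hinj
    rw [Subspace.dual_finrank_eq] at h1 ⊢
    exact le_antisymm h1 hle
  have hsurj : Function.Surjective B :=
    (LinearMap.injective_iff_surjective_of_finrank_eq_finrank hdim).mp hinj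
  intro x hx
  by_contra hne
  obtain ⟨f, hf⟩ : ∃ f : Dual k W, f x ≠ 0 := by
    by_contra hall
    simp only [not_exists, not_not] at hall
    exact hne ((Module.forall_dual_apply_eq_zero_iff k x).mp hall)
  obtain ⟨y, rfl⟩ := hsurj f
  exact hf (hx y)

/-- Symmetric version: trivial right kernel and `finrank V ≤ finrank W`. -/
theorem nondeg_of_right_of_finrank_le [FiniteDimensional k V] [FiniteDimensional k W]
    (B : V →ₗ[k] W →ₗ[k] k) (hr : ∀ x, (∀ y, B y x = 0) → x = 0)
    (hle : finrank k V ≤ finrank k W) : Nondeg B := by
  have h := nondeg_of_left_of_finrank_le (B := B.flip) (fun x hx => hr x (fun y => hx y)) hle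
  exact ⟨fun y hy => h.2 y (fun x => hy x), fun x hx => h.1 x (fun y => hx y)⟩

end Fermat.Agent.S55.Glue.PairingLA
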