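import Mathlib
import Fermat.Agent.S55.Glue.PairingLA

/-!
# S55 glue: the Lagrangian count

Abstract linear-algebra core of the "Hilbert–Furtwängler count" used for the base case of
Poitou–Tate duality (trivial coefficients over a field containing `μ_p`):

* `P` is a finite-dimensional space with a left-nondegenerate bilinear form `om`
  (in the application `P = ∏_{w ∈ S} K_w^× / p` with the Hilbert symbol);
* `loc : B → P` has isotropic range (in the application `B = H¹(G_{K,S}, μ_p)`, isotropy is the
  product formula);
* `finrank P + 2 * finrank C ≤ 2 * finrank B` (the unit theorem count);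
* a pairing between `ker loc` and `C` with trivial kernel on the `ker loc` side
  (the Artin pairing with `C = Cl_S / p`, nondegenerate on one side by a density argument).

Then `finrank (ker loc) = finrank C`, the pairing is perfect, and `range loc` is Lagrangian,
i.e. equal to its own orthogonal complement (on both sides).
-/

set_option autoImplicit false

namespace Fermat.Agent.S55.Glue.LagrangianCount

open Module

variable {k P B C : Type*} [Field k] [AddCommGroup P] [Module k P] [AddCommGroup B] [Module k B]
  [AddCommGroup C] [Module k C]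

/-- A left-nondegenerate form on a finite-dimensional space is right-nondegenerate. -/
theorem right_nondeg_of_left [FiniteDimensional k P] (om : P →ₗ[k] P →ₗ[k] k)
    (hnd : ∀ x, (∀ y, om x y = 0) → x = 0) : ∀ y, (∀ x, om x y = 0) → y = 0 :=
  (PairingLA.nondeg_of_left_of_finrank_le om hnd le_rfl).2

/-- The restriction of `om` to an isotropic subspace `W` lands in the annihilator of `W`. -/
theorem range_domRestrict_le (om : P →ₗ[k] P →ₗ[k] k) (W : Submodule k P)
    (hiso : ∀ x ∈ W, ∀ y ∈ W, om x y = 0) :
    LinearMap.range (om.domRestrict W) ≤ W.dualAnnihilator := by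
  rintro _ ⟨x, rfl⟩
  exact (Submodule.mem_dualAnnihilator _).2 fun y hy => hiso x x.2 y hy

theorem domRestrict_injective (om : P →ₗ[k] P →ₗ[k] k)
    (hnd : ∀ x, (∀ y, om x y = 0) → x = 0) (W : Submodule k P) :
    Function.Injective (om.domRestrict W) := by
  refine (injective_iff_map_eq_zero _).2 fun x hx => ?_
  apply Subtype.ext
  apply hnd
  intro y
  have := congrArg (fun f : Dual k P => f y) hx
  simpa using this

/-- An isotropic subspace of a left-nondegenerate form has at most half the dimension. -/
theorem two_mul_finrank_le_of_isotropic [FiniteDimensional k P] (om : P →ₗ[k] P →ₗ[k] k)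
    (hnd : ∀ x, (∀ y, om x y = 0) → x = 0) (W : Submodule k P)
    (hiso : ∀ x ∈ W, ∀ y ∈ W, om x y = 0) : 2 * finrank k W ≤ finrank k P := by
  have h0 := LinearMap.finrank_range_of_inj (domRestrict_injective om hnd W)
  have h1 := Submodule.finrank_mono (range_domRestrict_le om W hiso)
  have h2 := Subspace.finrank_add_finrank_dualAnnihilator_eq W
  have key : finrank k W ≤ finrank k W.dualAnnihilator := h0 ▸ h1
  have : finrank k W + finrank k W ≤ finrank k P :=
    le_trans (Nat.add_le_add_left key _) (le_of_eq h2)
  omega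

/-- An isotropic subspace of exactly half the dimension contains its left orthogonal. -/
theorem mem_of_left_orthogonal [FiniteDimensional k P] (om : P →ₗ[k] P →ₗ[k] k)
    (hnd : ∀ x, (∀ y, om x y = 0) → x = 0) (W : Submodule k P)
    (hiso : ∀ x ∈ W, ∀ y ∈ W, om x y = 0) (hdim : 2 * finrank k W = finrank k P)
    (x : P) (hx : ∀ w ∈ W, om x w = 0) : x ∈ W := by
  have h0 := LinearMap.finrank_range_of_inj (domRestrict_injective om hnd W)
  have h2 := Subspace.finrank_add_finrank_dualAnnihilator_eq W
  have hW : finrank k W.dualAnnihilator = finrank k W :=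
    Nat.add_left_cancel (h2.trans (show finrank k P = finrank k W + finrank k W by omega))
  have heq : LinearMap.range (om.domRestrict W) = W.dualAnnihilator :=
    Submodule.eq_of_le_of_finrank_eq (range_domRestrict_le om W hiso) (h0.trans hW.symm)
  have hmem : om x ∈ LinearMap.range (om.domRestrict W) := by
    rw [heq]
    exact (Submodule.mem_dualAnnihilator _).2 fun y hy => hx y hy
  obtain ⟨w, hw⟩ := hmem
  have hxw : x = (w : P) := by
    have h0 : x - (w : P) = 0 := by
      apply hnd
      intro y
      have := congrArg (fun f : Dual k P => f y) hw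
      simp only [LinearMap.domRestrict_apply] at this
      rw [map_sub, LinearMap.sub_apply, this, sub_self]
    exact sub_eq_zero.mp h0
  rw [hxw]
  exact w.2

/-- An isotropic subspace of exactly half the dimension contains its right orthogonal. -/
theorem mem_of_right_orthogonal [FiniteDimensional k P] (om : P →ₗ[k] P →ₗ[k] k)
    (hnd : ∀ x, (∀ y, om x y = 0) → x = 0) (W : Submodule k P)
    (hiso : ∀ x ∈ W, ∀ y ∈ W, om x y = 0) (hdim : 2 * finrank k W = finrank k P)
    (x : P) (hx : ∀ w ∈ W, om w x = 0) : x ∈ W :=
  mem_of_left_orthogonal om.flip (fun y hy => right_nondeg_of_left om hnd y fun z => hy z) W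
    (fun a ha b hb => hiso b hb a ha) hdim x fun w hw => hx w hw

/-- **Lagrangian count, core form.**  If `loc : B → P` has isotropic range for a
left-nondegenerate form on `P`, the kernel of `loc` has dimension at most `ρ`, and
`finrank P + 2 * ρ ≤ 2 * finrank B`, then the kernel has dimension exactly `ρ`, the range has
exactly half the dimension of `P`, and the range is its own orthogonal on both sides. -/
theorem lagrangian_of_ker_le [FiniteDimensional k P] [FiniteDimensional k B]
    (om : P →ₗ[k] P →ₗ[k] k) (hnd : ∀ x, (∀ y, om x y = 0) → x = 0)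
    (loc : B →ₗ[k] P) (hiso : ∀ b b', om (loc b) (loc b') = 0)
    (ρ : ℕ) (hB : finrank k P + 2 * ρ ≤ 2 * finrank k B)
    (hker : finrank k (LinearMap.ker loc) ≤ ρ) :
    finrank k (LinearMap.ker loc) = ρ ∧
      2 * finrank k (LinearMap.range loc) = finrank k P ∧
      (∀ x, (∀ b, om (loc b) x = 0) → x ∈ LinearMap.range loc) ∧
      (∀ x, (∀ b, om x (loc b) = 0) → x ∈ LinearMap.range loc) := by
  have hiso' : ∀ x ∈ LinearMap.range loc, ∀ y ∈ LinearMap.range loc, om x y = 0 := by
    rintro _ ⟨b, rfl⟩ _ ⟨b', rfl⟩
    exact hiso b b'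
  have h1 := two_mul_finrank_le_of_isotropic om hnd (LinearMap.range loc) hiso'
  have h2 := LinearMap.finrank_range_add_finrank_ker loc
  have hdim : 2 * finrank k (LinearMap.range loc) = finrank k P := by omega
  refine ⟨by omega, hdim, fun x hx => ?_, fun x hx => ?_⟩
  · refine mem_of_right_orthogonal om hnd _ hiso' hdim x ?_
    rintro _ ⟨b, rfl⟩
    exact hx b
  · refine mem_of_left_orthogonal om hnd _ hiso' hdim x ?_
    rintro _ ⟨b, rfl⟩
    exact hx b

/-- **Lagrangian count** with a pairing `ker loc × C → k` whose kernel on the `ker loc` side is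
trivial.  Conclusions: `finrank (ker loc) = finrank C`, the pairing is perfect, and
`range loc` is Lagrangian. -/
theorem lagrangian_count [FiniteDimensional k P] [FiniteDimensional k B] [FiniteDimensional k C]
    (om : P →ₗ[k] P →ₗ[k] k) (hnd : ∀ x, (∀ y, om x y = 0) → x = 0)
    (loc : B →ₗ[k] P) (hiso : ∀ b b', om (loc b) (loc b') = 0)
    (hB : finrank k P + 2 * finrank k C ≤ 2 * finrank k B)
    (a : LinearMap.ker loc →ₗ[k] C →ₗ[k] k) (ha : ∀ v, (∀ c, a v c = 0) → v = 0) :
    finrank k (LinearMap.ker loc) = finrank k C ∧ PairingLA.Nondeg a ∧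
      2 * finrank k (LinearMap.range loc) = finrank k P ∧
      (∀ x, (∀ b, om (loc b) x = 0) → x ∈ LinearMap.range loc) ∧
      (∀ x, (∀ b, om x (loc b) = 0) → x ∈ LinearMap.range loc) := by
  have hinj : Function.Injective a := by
    rw [← LinearMap.ker_eq_bot, LinearMap.ker_eq_bot']
    intro y hy
    exact ha y (fun x => by rw [hy]; rfl)
  have hker : finrank k (LinearMap.ker loc) ≤ finrank k C := by
    have := LinearMap.finrank_le_finrank_of_injective hinj
    rwa [Subspace.dual_finrank_eq] at this
  obtain ⟨h1, h2, h3, h4⟩ := lagrangian_of_ker_le om hnd loc hiso (finrank k C) hB hker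
  exact ⟨h1, PairingLA.nondeg_of_left_of_finrank_le a ha h1.ge, h2, h3, h4⟩

/-- **Lagrangian count**, pairing written as `C × ker loc → k` with trivial kernel on the
`ker loc` side (the right kernel). -/
theorem lagrangian_count' [FiniteDimensional k P] [FiniteDimensional k B] [FiniteDimensional k C]
    (om : P →ₗ[k] P →ₗ[k] k) (hnd : ∀ x, (∀ y, om x y = 0) → x = 0)
    (loc : B →ₗ[k] P) (hiso : ∀ b b', om (loc b) (loc b') = 0)
    (hB : finrank k P + 2 * finrank k C ≤ 2 * finrank k B)
    (a : C →ₗ[k] LinearMap.ker loc →ₗ[k] k) (ha : ∀ v, (∀ c, a c v = 0) → v = 0) :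
    finrank k (LinearMap.ker loc) = finrank k C ∧ PairingLA.Nondeg a ∧
      2 * finrank k (LinearMap.range loc) = finrank k P ∧
      (∀ x, (∀ b, om (loc b) x = 0) → x ∈ LinearMap.range loc) ∧
      (∀ x, (∀ b, om x (loc b) = 0) → x ∈ LinearMap.range loc) := by
  obtain ⟨h1, h2, h3, h4, h5⟩ := lagrangian_count om hnd loc hiso hB a.flip (fun v hv => ha v hv)
  exact ⟨h1, ⟨fun y hy => h2.2 y (fun x => hy x), fun x hx => h2.1 x (fun y => hx y)⟩, h3, h4, h5⟩

/-- Exactness form of the Lagrangian property: an element of `P` is in the range of `loc` iff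
it is orthogonal to the range. -/
theorem mem_range_iff_orthogonal [FiniteDimensional k P] [FiniteDimensional k B]
    (om : P →ₗ[k] P →ₗ[k] k) (hnd : ∀ x, (∀ y, om x y = 0) → x = 0)
    (loc : B →ₗ[k] P) (hiso : ∀ b b', om (loc b) (loc b') = 0)
    (ρ : ℕ) (hB : finrank k P + 2 * ρ ≤ 2 * finrank k B)
    (hker : finrank k (LinearMap.ker loc) ≤ ρ) (x : P) :
    x ∈ LinearMap.range loc ↔ ∀ b, om (loc b) x = 0 := by
  constructor
  · rintro ⟨b', rfl⟩ b
    exact hiso b b'
  · exact (lagrangian_of_ker_le om hnd loc hiso ρ hB hker).2.2.1 x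

end Fermat.Agent.S55.Glue.LagrangianCount
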